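import Fermat.Agent.Deformation.Bridge
import Fermat.Agent.Frobenius.Global
import Fermat.Prelude.Def_GaloisRep_LocalConditions

/-!
# The ordinary condition as identities in the representation
-/

set_option autoImplicit false
set_option linter.style.haveILetI false
set_option linter.unusedSectionVars false

noncomputable section

open IsLocalRing Matrix FLTAgent.Deformation
open scoped TensorProduct

namespace FLTAgent.Ordinary

local notation "QA" => AlgebraicClosure ℚ
local notation "GG" => (AlgebraicClosure ℚ ≃ₐ[ℚ] AlgebraicClosure ℚ)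

variable {T : Type} [CommRing T] [IsLocalRing T]

/-- The ordinary identities modulo the maximal ideal, with the expected traces. -/
structure ResOrd (ρ : GaloisRepAdic T) (A : ValuationSubring QA) : Prop where
  trace : ∀ σ ∈ A.inertiaSubgroupIn ℚ,
    LinearMap.trace T ρ.V (ρ.ρ σ) - 1 - LinearMap.det (ρ.ρ σ) ∈ maximalIdeal T
  id : ∀ σ ∈ A.inertiaSubgroupIn ℚ, ∀ τ ∈ A.inertiaSubgroupIn ℚ, ∀ v : ρ.V,
    ρ.ρ σ (ρ.ρ τ v - v) - LinearMap.det (ρ.ρ σ) • (ρ.ρ τ v - v) ∈
      maximalIdeal T • (⊤ : Submodule T ρ.V)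

theorem mem_smul_top_iff {V : Type*} [AddCommGroup V] [Module T V] {ι : Type*} [Fintype ι]
    (b : Module.Basis ι T V) (I : Ideal T) {x : V} :
    x ∈ I • (⊤ : Submodule T V) ↔ ∀ i, b.repr x i ∈ I := by
  refine ⟨fun hx i => ?_, fun h => ?_⟩
  · refine Submodule.smul_induction_on hx (fun r hr z _ => ?_) fun u v hu hv => ?_
    · rw [map_smul, Finsupp.smul_apply, smul_eq_mul]; exact I.mul_mem_right _ hr
    · rw [map_add, Finsupp.add_apply]; exact add_mem hu hv
  · rw [← b.sum_repr x]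
    exact sum_mem fun i _ => Submodule.smul_mem_smul (h i) Submodule.mem_top

/-- A scalar modulo the maximal ideal contradicts the expected trace. -/
theorem exists_not_scalar (ρ : GaloisRepAdic T) (σ : GG) {d : T}
    (htr : LinearMap.trace T ρ.V (ρ.ρ σ) - 1 - d ∈ maximalIdeal T) (hd : IsUnit (d - 1)) {c : T}
    (hc : c - 1 ∈ maximalIdeal T ∨ c - d ∈ maximalIdeal T) :
    ∃ v : ρ.V, ρ.ρ σ v - c • v ∉ maximalIdeal T • (⊤ : Submodule T ρ.V) := by
  by_contra! h
  obtain ⟨b⟩ := nonempty_basis ρ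
  have hij : ∀ i, LinearMap.toMatrix b b (ρ.ρ σ) i i - c ∈ maximalIdeal T := fun i => by
    have h1 := (mem_smul_top_iff b _).1 (h (b i)) i
    simpa [LinearMap.toMatrix_apply] using h1
  rw [LinearMap.trace_eq_matrix_trace T b, Matrix.trace_fin_two] at htr
  have h2 : c - 1 + (c - d) ∈ maximalIdeal T := by
    convert sub_mem htr (add_mem (hij 0) (hij 1)) using 1
    ring
  have h3 : d - 1 ∈ maximalIdeal T := by
    rcases hc with h' | h'
    · convert sub_mem (add_mem h' h') h2 using 1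
      ring
    · convert sub_mem h2 (add_mem h' h') using 1
      ring
  exact (mem_maximalIdeal _).1 h3 hd

/-- **The identities give ordinarity.** -/
theorem isOrdinaryAt_of_ordId (ρ : GaloisRepAdic T) (p : ℕ)
    (h : ∀ A : ValuationSubring QA, A.LiesOverPrime p → ResOrd ρ A ∧
      ∃ σ ∈ A.inertiaSubgroupIn ℚ, IsUnit (LinearMap.det (ρ.ρ σ) - 1) ∧
        ∀ τ ∈ A.inertiaSubgroupIn ℚ, ∀ v : ρ.V,
          ρ.ρ σ (ρ.ρ τ v - v) = LinearMap.det (ρ.ρ σ) • (ρ.ρ τ v - v)) :
    ρ.IsOrdinaryAt p := by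
  intro A hA
  obtain ⟨hres, σ, hσ, hd, hid⟩ := h A hA
  set d := LinearMap.det (ρ.ρ σ)
  obtain ⟨b⟩ := nonempty_basis ρ
  -- eigenvectors for `d` are images of `σ - 1`
  have hker : ∀ w, ρ.ρ σ w = d • w → ∀ c : T, c * (d - 1) = 1 → w = ρ.ρ σ (c • w) - c • w :=
    fun w hw c hc => by rw [map_smul, hw, smul_smul, ← sub_smul, show c * d - c = 1 by
      linear_combination hc, one_smul]
  obtain ⟨v, hv⟩ := exists_not_scalar ρ σ (hres.trace σ hσ) hd (c := 1) (Or.inl (by simp))
  rw [one_smul] at hv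
  set u := ρ.ρ σ v - v
  obtain ⟨i, hi⟩ : ∃ i, IsUnit (b.repr u i) := by
    by_contra! hall
    exact hv ((mem_smul_top_iff b _).2 fun i => (mem_maximalIdeal _).2 (hall i))
  set w := b (1 - i)
  have hdet : IsUnit (b.det ![u, w]) := by
    rw [Module.Basis.det_apply, Matrix.det_fin_two]
    fin_cases i <;> simp [Module.Basis.toMatrix_apply, w] at hi ⊢ <;> exact hi
  obtain ⟨hli, hsp⟩ := (b.is_basis_iff_det).2 hdet
  set B := Module.Basis.mk hli hsp.ge
  have hB0 : B 0 = u := by simp [B]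
  have hu : ρ.ρ σ u = d • u := hid σ hσ v
  -- every image of `σ - 1` is a multiple of `u`
  have himg : ∀ x, ρ.ρ σ x - x ∈ T ∙ B 0 := by
    intro x
    set y := ρ.ρ σ x - x
    have hy : ρ.ρ σ y = d • y := hid σ hσ x
    have hexp : y = B.repr y 0 • u + B.repr y 1 • B 1 := by
      conv_lhs => rw [← B.sum_repr y, Fin.sum_univ_two, hB0]
    obtain ⟨z, hz⟩ := exists_not_scalar ρ σ (hres.trace σ hσ) hd (c := d) (Or.inr (by simp [d]))
    have h1 : B.repr y 1 • (ρ.ρ σ (B 1) - d • B 1) = 0 := by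
      have := hy
      rw [hexp, map_add, map_smul, map_smul, hu, smul_add, smul_comm d, smul_comm d, add_right_inj]
        at this
      rw [smul_sub, this, sub_self]
    have h2 : ρ.ρ σ z - d • z = B.repr z 1 • (ρ.ρ σ (B 1) - d • B 1) := by
      conv_lhs => rw [← B.sum_repr z, Fin.sum_univ_two, hB0, map_add, map_smul, map_smul, hu]
      clear_value u
      module
    have h3 : B.repr y 1 • (ρ.ρ σ z - d • z) = 0 := by rw [h2, smul_comm, h1, smul_zero]
    obtain ⟨j, hj⟩ : ∃ j, IsUnit (b.repr (ρ.ρ σ z - d • z) j) := by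
      by_contra! hall
      exact hz ((mem_smul_top_iff b _).2 fun j => (mem_maximalIdeal _).2 (hall j))
    have h4 : B.repr y 1 = 0 := by
      have := congrArg (fun x => b.repr x j) h3
      simp only [map_smul, Finsupp.smul_apply, smul_eq_mul, map_zero, Finsupp.zero_apply] at this
      exact hj.mul_left_eq_zero.1 this
    rw [hexp, h4, zero_smul, add_zero, hB0]
    exact Submodule.smul_mem _ _ (Submodule.mem_span_singleton_self u)
  obtain ⟨c, hc⟩ := hd.exists_left_inv
  have hmem : ∀ y, ρ.ρ σ y = d • y → y ∈ T ∙ u := fun y hy => by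
    rw [hker y hy c hc, ← hB0]; exact himg _
  refine ⟨T ∙ u, ⟨B, by rw [hB0]⟩, fun δ hδ x hx => ?_, fun τ hτ x => hmem _ (hid τ hτ x)⟩
  obtain ⟨a, rfl⟩ := Submodule.mem_span_singleton.1 hx
  rw [map_smul]
  refine Submodule.smul_mem _ _ (hmem _ ?_)
  have hconj : δ * σ * δ⁻¹ ∈ A.inertiaSubgroupIn ℚ := by
    obtain ⟨g, hg, rfl⟩ := hσ
    refine ⟨⟨δ, hδ⟩ * g * ⟨δ, hδ⟩⁻¹, ?_, rfl⟩
    exact (MonoidHom.normal_ker (G := A.decompositionSubgroup ℚ) _).conj_mem g hg _
  have e : ρ.ρ δ u = ρ.ρ (δ * σ * δ⁻¹) (ρ.ρ δ v) - ρ.ρ δ v := by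
    rw [← Module.End.mul_apply (ρ.ρ (δ * σ * δ⁻¹)), ← map_mul, inv_mul_cancel_right, map_mul,
      Module.End.mul_apply, map_sub]
  rw [e]
  exact hid _ hconj _

/-- The residual hypothesis in the form of congruences. -/
theorem resOrd_of_residual (ρ : GaloisRepAdic T) (p : ℕ)
    (hres : (GaloisRepAdic.ofResidualGaloisRep ρ.residual).IsOrdinaryAt p)
    {A : ValuationSubring QA} (hA : A.LiesOverPrime p) : ResOrd ρ A := by
  classical
  obtain ⟨L, ⟨b, rfl⟩, hD, hI⟩ := hres A hA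
  let b' : Module.Basis (Fin 2) (ResidueField T) ρ.residual.V := b
  have key : ∀ σ ∈ A.inertiaSubgroupIn ℚ, ∃ l c : ResidueField T,
      ρ.residual.ρ σ (b' 0) = l • b' 0 ∧ ρ.residual.ρ σ (b' 1) = c • b' 0 + b' 1 := by
    intro σ hσ
    obtain ⟨l, hl⟩ := Submodule.mem_span_singleton.1
      (hD σ (by obtain ⟨g, -, rfl⟩ := hσ; exact g.2) (b 0) (Submodule.mem_span_singleton_self _))
    obtain ⟨c, hc⟩ := Submodule.mem_span_singleton.1 (hI σ hσ (b 1))
    exact ⟨l, c, hl.symm, (sub_eq_iff_eq_add.1 hc.symm :)⟩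
  have hdet : ∀ σ : GG, LinearMap.det (ρ.residual.ρ σ) = residue T (LinearMap.det (ρ.ρ σ)) :=
    fun σ => (LinearMap.det_baseChange (ρ.ρ σ)).trans (by rw [ResidueField.algebraMap_eq])
  refine ⟨fun σ hσ => ?_, fun σ hσ τ hτ v => ?_⟩
  · obtain ⟨l, c, hl, hc⟩ := key σ hσ
    rw [← residue_eq_zero_iff, map_sub, map_sub, map_one, ← hdet,
      show residue T (LinearMap.trace T ρ.V (ρ.ρ σ)) =
        LinearMap.trace (ResidueField T) ρ.residual.V (ρ.residual.ρ σ) from
        (((LinearMap.trace_baseChange (A := ResidueField T) (ρ.ρ σ)).trans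
          (by rw [ResidueField.algebraMap_eq])).symm :),
      ← LinearMap.det_toMatrix b', LinearMap.trace_eq_matrix_trace _ b', Matrix.trace_fin_two,
      Matrix.det_fin_two]
    simp [LinearMap.toMatrix_apply, hl, hc]
  · obtain ⟨l, c, hl, hc⟩ := key σ hσ
    obtain ⟨l', c', hl', hc'⟩ := key τ hτ
    have hlσ : LinearMap.det (ρ.residual.ρ σ) = l := by
      rw [← LinearMap.det_toMatrix b', Matrix.det_fin_two]
      simp [LinearMap.toMatrix_apply, hl, hc]
    have h : ∀ x, ρ.residual.ρ σ (ρ.residual.ρ τ x - x) = l • (ρ.residual.ρ τ x - x) := by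
      intro x
      obtain ⟨a, ha⟩ : ∃ a : ResidueField T, a • b' 0 = ρ.residual.ρ τ x - x := by
        rw [← b'.sum_repr x, Fin.sum_univ_two, map_add, map_smul, map_smul, hl', hc']
        refine ⟨b'.repr x 0 * l' - b'.repr x 0 + b'.repr x 1 * c', ?_⟩
        rw [add_smul, sub_smul, mul_smul, mul_smul, smul_add]
        abel
      rw [← ha, map_smul, hl, smul_comm]
    have h0 := h (1 ⊗ₜ[T] v)
    let bk : Module.Basis (Fin 2) (ResidueField T) ρ.residual.V :=
      Algebra.TensorProduct.basis (ResidueField T) (nonempty_basis ρ).some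
    refine (mem_smul_top_iff (nonempty_basis ρ).some _).2 fun i => (residue_eq_zero_iff _).1 ?_
    have e : ∀ (g : GG) (y : ρ.V), ρ.residual.ρ g (1 ⊗ₜ[T] y) = 1 ⊗ₜ[T] ρ.ρ g y := fun g y =>
      LinearMap.baseChange_tmul ..
    set d := LinearMap.det (ρ.ρ σ)
    have h1 : (1 : ResidueField T) ⊗ₜ[T] (ρ.ρ σ (ρ.ρ τ v - v) - d • (ρ.ρ τ v - v)) = 0 := by
      rw [TensorProduct.tmul_sub, ← e σ, TensorProduct.tmul_sub, ← e τ]
      refine sub_eq_zero.2 (h0.trans ?_)
      rw [← hlσ, hdet, e τ]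
      show residue T d • ((1 : ResidueField T) ⊗ₜ[T] ρ.ρ τ v - (1 : ResidueField T) ⊗ₜ[T] v) = _
      rw [← TensorProduct.tmul_sub, TensorProduct.smul_tmul', TensorProduct.tmul_smul,
        TensorProduct.smul_tmul' d, Algebra.smul_def d, ResidueField.algebraMap_eq, smul_eq_mul]
    have := congrArg (fun y => (Algebra.TensorProduct.basis (ResidueField T)
      (nonempty_basis ρ).some).repr y i) h1
    simpa [Algebra.TensorProduct.basis_repr_tmul, ResidueField.algebraMap_eq] using this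

end FLTAgent.Ordinary
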