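import Fermat.Agent.LevelRaise.Commute
import Fermat.Agent.EigenReps.Hecke

/-!
# The Hecke algebra away from the level maps to that of a divisor of the level
-/

set_option autoImplicit false
set_option linter.style.haveILetI false
set_option linter.unusedSectionVars false
set_option synthInstance.maxHeartbeats 400000
set_option maxHeartbeats 1000000

noncomputable section

open CongruenceSubgroup
open scoped MatrixGroups

namespace FLTAgent.Ordinary

open FLTAgent.PeriodHecke (Hpar actInt actInt_injective actInt_heckeGen heckeFam)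
open FLTAgent.LevelRaise (res res_apply dvd_level incl hecke_res)

local notation "SL2Z" => Matrix.SpecialLinearGroup (Fin 2) ℤ

/-- Restriction of integral classes is injective. -/
theorem res_injective {N L : ℕ} [NeZero N] [NeZero L] (h : N ∣ L) :
    Function.Injective (res h (A := ℤ)) := by
  refine (injective_iff_map_eq_zero _).2 fun φ hφ =>
    Subtype.ext (AddMonoidHom.ext fun γ => ?_)
  obtain ⟨γ, rfl⟩ := Additive.ofMul.surjective γ
  obtain ⟨k, hk, -, hmem⟩ := Subgroup.exists_pow_mem_of_index_ne_zero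
    (H := (Gamma0 L)) Subgroup.index_ne_zero_of_finite (γ : SL2Z)
  have h1 := congrArg (fun ψ : Hpar (Gamma0 L) ℤ => ψ.1 (Additive.ofMul ⟨_, hmem⟩)) hφ
  simp only [res_apply] at h1
  rw [show incl h ⟨(γ : SL2Z) ^ k, hmem⟩ = γ ^ k from Subtype.ext (by simp),
    ofMul_pow, map_nsmul] at h1
  have h2 : k • φ.1 (Additive.ofMul γ) = 0 := h1
  rw [nsmul_eq_mul] at h2
  exact (mul_eq_zero.1 h2).resolve_left (Nat.cast_ne_zero.2 (by omega))

/-- The level can be divided by a prime. -/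
theorem exists_levelHom {N ℓ N' : ℕ} [NeZero N] [NeZero N'] (hN' : N' = N * ℓ) (hℓ : ℓ.Prime)
    {S S' : Finset ℕ} (hSS : S ⊆ S') (hNS : ∀ q : ℕ, q.Prime → q ∣ N' → q ∈ S') :
    ∃ f : CuspForm.heckeAlgebra N' 2 (↑S' : Set ℕ) →+* CuspForm.heckeAlgebra N 2 (↑S : Set ℕ),
      ∀ (r : ℕ) (hr : r.Prime) (hrN' : ¬ r ∣ N') (hrS' : r ∉ (↑S' : Set ℕ)) (hrN : ¬ r ∣ N)
        (hrS : r ∉ (↑S : Set ℕ)),
        f (CuspForm.heckeAlgebra.T hr hrN' hrS') = CuspForm.heckeAlgebra.T hr hrN hrS := by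
  subst hN'
  haveI : Fact ℓ.Prime := ⟨hℓ⟩
  let R := res (dvd_level N ℓ) (A := ℤ)
  let Rel : CuspForm.heckeAlgebra (N * ℓ) 2 (↑S' : Set ℕ) →
      CuspForm.heckeAlgebra N 2 (↑S : Set ℕ) → Prop := fun t u =>
    ∀ φ : Hpar (Gamma0 N) ℤ, R (actInt N (EigenReps.toFull N S u) φ) =
      actInt (N * ℓ) (EigenReps.toFull (N * ℓ) S' t) (R φ)
  have huniq : ∀ t u u', Rel t u → Rel t u' → u = u' := fun t u u' h h' =>
    EigenReps.toFull_injective N S (actInt_injective N (LinearMap.ext fun φ =>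
      res_injective (dvd_level N ℓ) ((h φ).trans (h' φ).symm)))
  have hgen : ∀ (r : ℕ) (hr : r.Prime) (hrN' : ¬ r ∣ N * ℓ) (hrS' : r ∉ (↑S' : Set ℕ))
      (hrN : ¬ r ∣ N) (hrS : r ∉ (↑S : Set ℕ)),
      Rel (CuspForm.heckeAlgebra.T hr hrN' hrS') (CuspForm.heckeAlgebra.T hr hrN hrS) := by
    intro r hr hrN' hrS' hrN hrS φ
    haveI : Fact r.Prime := ⟨hr⟩
    rw [EigenReps.toFull_T, EigenReps.toFull_T]
    exact (congrArg R (actInt_heckeGen N r φ)).trans
      ((hecke_res hrN' φ).symm.trans (actInt_heckeGen (N * ℓ) r (R φ)).symm)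
  have hex : ∀ t, ∃ u, Rel t u := by
    rintro ⟨t, ht⟩
    induction ht using Algebra.adjoin_induction with
    | mem x hx =>
      rcases hx with ⟨r, hr, hrN, hrS, rfl⟩ | ⟨q, hqN, hq, hqS, rfl⟩
      · exact ⟨_, hgen r hr hrN hrS (fun h => hrN (dvd_mul_of_dvd_left h ℓ))
          (fun h => hrS (hSS h))⟩
      · exact absurd (hNS q hq hqN) hqS
    | algebraMap c =>
      refine ⟨(c : CuspForm.heckeAlgebra N 2 (↑S : Set ℕ)), fun φ => ?_⟩
      show R (actInt N (EigenReps.toFull N S (c : CuspForm.heckeAlgebra N 2 (↑S : Set ℕ))) φ) =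
        actInt (N * ℓ) (EigenReps.toFull (N * ℓ) S' (algebraMap ℤ _ c)) (R φ)
      rw [eq_intCast]
      simp only [map_intCast, Module.End.intCast_apply, map_zsmul]
    | add a b ha hb iha ihb =>
      obtain ⟨u, hu⟩ := iha
      obtain ⟨w, hw⟩ := ihb
      refine ⟨u + w, fun φ => ?_⟩
      show _ = actInt (N * ℓ) (EigenReps.toFull (N * ℓ) S' (⟨a, ha⟩ + ⟨b, hb⟩)) (R φ)
      simp only [map_add, LinearMap.add_apply, hu φ, hw φ]
    | mul a b ha hb iha ihb =>
      obtain ⟨u, hu⟩ := iha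
      obtain ⟨w, hw⟩ := ihb
      refine ⟨u * w, fun φ => ?_⟩
      show _ = actInt (N * ℓ) (EigenReps.toFull (N * ℓ) S' (⟨a, ha⟩ * ⟨b, hb⟩)) (R φ)
      simp only [map_mul, Module.End.mul_apply]
      exact (hu _).trans (congrArg _ (hw φ))
  choose f hf using hex
  refine ⟨
    { toFun := f
      map_one' := huniq 1 _ _ (hf 1) fun φ => by simp only [map_one, Module.End.one_apply]
      map_zero' := huniq 0 _ _ (hf 0) fun φ => by simp only [map_zero, LinearMap.zero_apply]
      map_mul' := fun s t => huniq _ _ _ (hf (s * t)) fun φ => by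
        simp only [map_mul, Module.End.mul_apply, hf s _, hf t _]
      map_add' := fun s t => huniq _ _ _ (hf (s + t)) fun φ => by
        simp only [map_add, LinearMap.add_apply, hf s _, hf t _] }, ?_⟩
  intro r hr hrN' hrS' hrN hrS
  exact huniq _ _ _ (hf _) (hgen r hr hrN' hrS' hrN hrS)

end FLTAgent.Ordinary
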