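import Fermat.Agent.Ordinary.Transfer
import Fermat.Agent.Ordinary.Algebra
import Fermat.Agent.Ordinary.LevelUp
import Fermat.Agent.FlatModel.HeckeFlatAt
import Fermat.Agent.LocalEC.AtP

/-!
# Representations carried by the Hecke algebra are ordinary at primes dividing the level once
-/

set_option autoImplicit false
set_option linter.style.haveILetI false
set_option linter.unusedSectionVars false
set_option synthInstance.maxHeartbeats 400000
set_option maxHeartbeats 1000000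

noncomputable section

open AlgebraicCurve ModularCurve IsLocalRing Polynomial

namespace FLTAgent.Ordinary

open FLTAgent.Specialization FLTAgent.BadRed FLTAgent.Deformation

local notation "QA" => AlgebraicClosure ℚ
local notation "GG" => (AlgebraicClosure ℚ ≃ₐ[ℚ] AlgebraicClosure ℚ)

/-- Inertia over an odd `p` moves the primitive `p`-th roots of unity. -/
theorem exists_inertia_move_odd {p : ℕ} [Fact p.Prime] (hp3 : 3 ≤ p) {A : ValuationSubring QA}
    (hA : A.LiesOverPrime p) {ζ : QA} (hζ : IsPrimitiveRoot ζ p) :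
    ∃ σ ∈ A.inertiaSubgroupIn ℚ, σ ζ ≠ ζ := by
  by_contra hcon
  push Not at hcon
  have hp : p.Prime := Fact.out
  obtain ⟨z, hz⟩ := Mazur.exists_zpow_valuation A hp hA
    (sub_ne_zero.2 (hζ.ne_one (by omega)) : ζ - 1 ≠ 0)
    fun τ hτ => by rw [map_sub, hcon τ hτ, map_one]
  have h := LocalEC.val_sub_one_pow (A := A) hp hζ
  rw [hz, ← zpow_natCast, ← zpow_mul] at h
  have h1 : z * ((p - 1 : ℕ) : ℤ) = 1 := (zpow_right_strictAnti₀
    (zero_lt_iff.2 (Mazur.valuation_natCast_ne_zero A hp))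
    (Mazur.valuation_natCast_lt_one A hA)).injective (h.trans (zpow_one _).symm)
  have h2 : ((p - 1 : ℕ) : ℤ) ≤ 1 := Int.le_of_dvd one_pos ⟨z, by rw [← h1, mul_comm]⟩
  omega

/-- At level `M` the model is smooth for `5 ≤ p`, or when `2` divides `M`. -/
theorem smooth_level_odd {p : ℕ} [Fact p.Prime] [NeZero p] {M : ℕ} [NeZero M]
    {A : ValuationSubring QA} [IsAlgClosed (ResidueField A)] [CharP (ResidueField A) p]
    [Curves.IsFunctionField (ResidueField A) (modularFunctionFieldFullC (ResidueField A) M)]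
    (hA : A.LiesOverPrime p) (hpM : ¬ p ∣ M) (hp3 : 3 ≤ p) (h : 5 ≤ p ∨ 2 ∣ M) :
    (modularModel (π := residue A) residue_surjective M
      (natCast_ne_zero hpM (ResidueField A))).Smooth := by
  have hp : p.Prime := Fact.out
  obtain ⟨N', h23, hN', haux, d, hd, hdl⟩ : ∃ N', M ∣ N' ∧ ¬ p ∣ N' ∧ auxLevel p ∣ N' ∧
      ∃ d, dedekindPsi N' = dedekindPsi M * d ∧ ¬ p ∣ d := by
    by_cases h5 : 5 ≤ p
    · obtain ⟨N₂, N', -, h23, hN', haux, hd, -, h5'⟩ := exists_levels hp hpM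
      obtain rfl : N₂ = M := h5' h5
      exact ⟨N', h23, hN', haux, hd⟩
    · obtain ⟨N', b1, b2, b3, b4⟩ := exists_mul_prime_sq Nat.prime_two hp
        (by omega) hpM (h.resolve_left h5)
      refine ⟨N', b1, b3, by simpa [auxLevel, show p ≠ 2 by omega] using b2, ?_⟩
      rcases b4 with h' | h'
      · exact ⟨1, by rw [h', mul_one], hp.not_dvd_one⟩
      · exact ⟨2, h', fun hd => by have := Nat.le_of_dvd two_pos hd; omega⟩
  haveI : NeZero N' := ⟨fun h => hN' (h ▸ dvd_zero p)⟩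
  haveI := isFunctionField_full (ResidueField A) N' rfl (natCast_ne_zero_residue hA hN')
  exact smooth_of_dvd residue_surjective _ h23 (natCast_ne_zero_residue hA hN') hd
    (natCast_ne_zero_residue hA hdl) (GoodModel.goodLevel hA N' haux hN')

variable {M p : ℕ} [NeZero M] [Fact p.Prime] [NeZero p] [NeZero (M * p)] {S : Finset ℕ}
  {T : Type} [CommRing T] [IsLocalRing T] [IsAdicComplete (maximalIdeal T) T]

/-- **Ordinarity at level `M p`.** -/
theorem isOrdinaryAt_level (hp3 : 3 ≤ p) (hpM : ¬ p ∣ M) (h52 : 5 ≤ p ∨ 2 ∣ M)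
    (hpT : (p : T) ∈ maximalIdeal T) (hpS : p ∈ S)
    (hNS : ∀ q : ℕ, q.Prime → q ∣ M * p → q ∈ S) (π : HS (M * p) S →+* T) (ρ : GaloisRepAdic T)
    (hchar : ∀ (ℓ : ℕ) (hℓ : ℓ.Prime) (hℓN : ¬ ℓ ∣ M * p) (hℓS : ℓ ∉ (↑S : Set ℕ)),
      ∀ V : ValuationSubring QA, V.LiesOverPrime ℓ → ∀ τ : GG, V.IsFrobeniusAt τ ℓ →
        LinearMap.charpoly (ρ.ρ τ) =
          X ^ 2 - C (π (CuspForm.heckeAlgebra.T hℓ hℓN hℓS)) * X + C ((ℓ : T)))
    (habs : ρ.residual.IsAbsolutelyIrreducible)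
    (hres : (GaloisRepAdic.ofResidualGaloisRep ρ.residual).IsOrdinaryAt p) : ρ.IsOrdinaryAt p := by
  refine isOrdinaryAt_of_ordId ρ p fun A hA => ?_
  have hR := resOrd_of_residual ρ p hres hA
  haveI : IsAlgClosed (ResidueField A) := FrobTrace.isAlgClosed_residueField A
  haveI : CharP (ResidueField A) p := FrobTrace.charP_residueField hA
  haveI := isFunctionField_full (ResidueField A) M rfl (natCast_ne_zero hpM (ResidueField A))
  obtain ⟨ζ, hζ⟩ := Reducible.exists_primitiveRoot p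
  obtain ⟨σ₀, hσ₀, hmove⟩ := exists_inertia_move_odd hp3 hA hζ
  obtain ⟨a, ha, hσζ⟩ := hζ.eq_pow_of_pow_eq_one (ξ := σ₀ ζ)
    (by rw [← map_pow, hζ.pow_eq_one, map_one])
  obtain ⟨b⟩ := nonempty_basis ρ
  set r := matOf ρ b
  have hrL : ∀ σ, r σ = LinearMap.toMatrixAlgEquiv b (ρ.ρ σ) := fun σ => rfl
  have hdet : ∀ σ, (r σ).det = LinearMap.det (ρ.ρ σ) := fun σ => LinearMap.det_toMatrix b _
  have hmat : ∀ σ τ, (r σ - (r σ).det • 1) * (r τ - 1) = LinearMap.toMatrixAlgEquiv b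
      ((ρ.ρ σ - LinearMap.det (ρ.ρ σ) • 1) * (ρ.ρ τ - 1)) := fun σ τ => by
    rw [hdet σ, hrL, hrL]
    simp only [map_mul, map_sub, map_smul, map_one]
  obtain ⟨hu, hord⟩ := ordinary_identities hpT hA hpM hp3 (smooth_level_odd hA hpM hp3 h52) hpS hNS
    π r (matCts_matOf ρ b)
    (fun ℓ hℓ hℓN hℓS V hV τ hτ => by
      rw [← Frobenius.charpoly_eq_charpoly_matOf ρ b]; exact hchar ℓ hℓ hℓN hℓS V hV τ hτ)
    (FlatModel.spansResidue_matOf ρ b habs)
    (fun σ hσ => by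
      rw [hdet, show (r σ).trace = LinearMap.trace T ρ.V (ρ.ρ σ) from
        (LinearMap.trace_eq_matrix_trace T b _).symm]
      exact hR.trace σ hσ)
    (fun σ hσ τ hτ i j => by
      rw [hmat, LinearMap.toMatrixAlgEquiv_apply]
      exact (mem_smul_top_iff b _).1 (hR.id σ hσ τ hτ (b j)) i)
    hσ₀ hζ ha hσζ.symm hmove
  refine ⟨hR, σ₀, hσ₀, by rwa [← hdet], fun τ hτ v => ?_⟩
  have h := hord τ hτ
  rw [hmat, ← map_zero (LinearMap.toMatrixAlgEquiv b)] at h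
  exact sub_eq_zero.1 (LinearMap.congr_fun ((LinearMap.toMatrixAlgEquiv b).injective h) v)

omit [NeZero (M * p)] in
/-- **Ordinarity, without condition on `M`.** -/
theorem isOrdinaryAt_hecke [NeZero (M * p)] (hp3 : 3 ≤ p) (hpM : ¬ p ∣ M)
    (hpT : (p : T) ∈ maximalIdeal T) (hpS : p ∈ S)
    (hNS : ∀ q : ℕ, q.Prime → q ∣ M * p → q ∈ S) (π : HS (M * p) S →+* T) (ρ : GaloisRepAdic T)
    (hchar : ∀ (ℓ : ℕ) (hℓ : ℓ.Prime) (hℓN : ¬ ℓ ∣ M * p) (hℓS : ℓ ∉ (↑S : Set ℕ)),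
      ∀ V : ValuationSubring QA, V.LiesOverPrime ℓ → ∀ τ : GG, V.IsFrobeniusAt τ ℓ →
        LinearMap.charpoly (ρ.ρ τ) =
          X ^ 2 - C (π (CuspForm.heckeAlgebra.T hℓ hℓN hℓS)) * X + C ((ℓ : T)))
    (habs : ρ.residual.IsAbsolutelyIrreducible)
    (hres : (GaloisRepAdic.ofResidualGaloisRep ρ.residual).IsOrdinaryAt p) : ρ.IsOrdinaryAt p := by
  by_cases h52 : 5 ≤ p ∨ 2 ∣ M
  · exact isOrdinaryAt_level hp3 hpM h52 hpT hpS hNS π ρ hchar habs hres
  have hp : p.Prime := Fact.out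
  haveI : NeZero (M * 2) := ⟨Nat.mul_ne_zero (NeZero.ne M) two_ne_zero⟩
  haveI : NeZero (M * 2 * p) := ⟨Nat.mul_ne_zero (NeZero.ne _) (NeZero.ne p)⟩
  have hdvd : M * p ∣ M * 2 * p := ⟨2, by ring⟩
  have hNS' : ∀ q : ℕ, q.Prime → q ∣ M * 2 * p → q ∈ insert 2 S := by
    intro q hq hd
    rw [mul_right_comm] at hd
    rcases hq.dvd_mul.1 hd with h | h
    · exact Finset.mem_insert_of_mem (hNS q hq h)
    · rw [(Nat.prime_dvd_prime_iff_eq hq Nat.prime_two).1 h]; exact Finset.mem_insert_self _ _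
  obtain ⟨f, hf⟩ := exists_levelHom (N := M * p) (ℓ := 2) (N' := M * 2 * p) (mul_right_comm _ _ _)
    Nat.prime_two (S := S) (Finset.subset_insert 2 S) hNS'
  refine isOrdinaryAt_level (M := M * 2) (S := insert 2 S) hp3 ?_ (Or.inr (dvd_mul_left 2 M)) hpT
    (Finset.mem_insert_of_mem hpS) hNS' (π.comp f) ρ ?_ habs hres
  · exact fun h => (hp.dvd_mul.1 h).elim hpM fun h2 => by have := Nat.le_of_dvd two_pos h2; omega
  · intro ℓ hℓ hℓN hℓS V hV τ hτ
    have h1 : ¬ ℓ ∣ M * p := fun h => hℓN (h.trans hdvd)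
    have h2 : ℓ ∉ (↑S : Set ℕ) := fun h => hℓS (Finset.mem_insert_of_mem h)
    rw [RingHom.comp_apply, hf ℓ hℓ hℓN hℓS h1 h2]
    exact hchar ℓ hℓ h1 h2 V hV τ hτ

end FLTAgent.Ordinary
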