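import Fermat.Agent.FlatModel.Closure
import Fermat.Agent.FlatModel.SepValuation
import Fermat.Agent.Mazur.Rational
import Fermat.Agent.Mazur.Value

/-!
# Connected points of a Hopf order have no trivial inertia quotient

If inertia fixes a connected point modulo a stable subgroup containing its `p`-th multiple, `3 ≤ p`,
the point lies in the subgroup.
-/

set_option autoImplicit false
set_option linter.style.haveILetI false
set_option linter.unusedSectionVars false

noncomputable section

namespace FLTAgent.Ordinary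

open FLTAgent.FlatModel

local notation "QA" => AlgebraicClosure ℚ
local notation "GG" => (AlgebraicClosure ℚ ≃ₐ[ℚ] AlgebraicClosure ℚ)

variable {A : ValuationSubring QA}

/-- An integral vector of a stable subspace is an integral combination of fixed integral vectors. -/
theorem le_span_fixed {ι : Type*} [Finite ι] (G : Set GG) (W : Submodule QA (ι → QA))
    (hW : ∀ σ ∈ G, ∀ v ∈ W, (fun i => σ (v i)) ∈ W) {v : ι → QA} (hv : v ∈ W)
    (hvA : ∀ i, v i ∈ A) :
    v ∈ Submodule.span A {w : ι → QA | w ∈ W ∧ (∀ i, w i ∈ A) ∧ ∀ σ ∈ G, ∀ i, σ (w i) = w i} := by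
  classical
  haveI : Fintype ι := Fintype.ofFinite ι
  let supp : (ι → QA) → Finset ι := fun v => Finset.univ.filter fun i => v i ≠ 0
  suffices ∀ n, ∀ v ∈ W, (∀ i, v i ∈ A) → (supp v).card = n →
      v ∈ Submodule.span A {w : ι → QA | w ∈ W ∧ (∀ i, w i ∈ A) ∧ ∀ σ ∈ G, ∀ i, σ (w i) = w i} from
    this _ v hv hvA rfl
  intro n
  induction n using Nat.strong_induction_on with
  | _ n ih =>
    intro v hv hvA hn
    by_cases h0 : v = 0
    · rw [h0]; exact Submodule.zero_mem _
    set P : ℕ → Prop := fun m => ∃ u ∈ W, u ≠ 0 ∧ supp u ⊆ supp v ∧ (supp u).card = m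
    have hex : ∃ m, P m := ⟨_, v, hv, h0, subset_rfl, rfl⟩
    obtain ⟨u, hu, hu0, husub, hucard⟩ := Nat.find_spec hex
    obtain ⟨a₀, ha₀⟩ := Function.ne_iff.1 hu0
    obtain ⟨a, -, hmax⟩ := Finset.exists_max_image Finset.univ (fun i => A.valuation (u i))
      ⟨a₀, Finset.mem_univ _⟩
    have ha : u a ≠ 0 := fun h => ha₀ (by
      have h1 := hmax a₀ (Finset.mem_univ _)
      rw [h, map_zero, le_zero_iff, Valuation.zero_iff] at h1
      exact h1)
    set w : ι → QA := (u a)⁻¹ • u with hw
    have hwa : w a = 1 := inv_mul_cancel₀ ha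
    have hwW : w ∈ W := W.smul_mem _ hu
    have hwA : ∀ i, w i ∈ A := fun i => by
      rw [← A.valuation_le_one_iff, hw, Pi.smul_apply, smul_eq_mul, map_mul, map_inv₀]
      exact inv_mul_le_one_of_le₀ (hmax i (Finset.mem_univ i)) zero_le
    have hwsupp : supp w ⊆ supp u := fun i hi => by
      simp only [supp, Finset.mem_filter, Finset.mem_univ, true_and, hw, Pi.smul_apply, smul_eq_mul,
        mul_ne_zero_iff] at hi ⊢
      exact hi.2
    have hfix : ∀ σ ∈ G, ∀ i, σ (w i) = w i := fun σ hσ i => by
      by_contra hne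
      set d : ι → QA := (fun i => σ (w i)) - w with hd
      have hdW : d ∈ W := W.sub_mem (hW σ hσ w hwW) hwW
      have hd0 : d ≠ 0 := fun h => hne (sub_eq_zero.1 (congrFun h i))
      have hdsub : supp d ⊆ (supp u).erase a := fun j hj => by
        simp only [supp, Finset.mem_filter, Finset.mem_univ, true_and] at hj
        refine Finset.mem_erase.2 ⟨fun e => hj (by simp [hd, e, hwa]), hwsupp ?_⟩
        simp only [supp, Finset.mem_filter, Finset.mem_univ, true_and]
        exact fun h => hj (by simp [hd, h])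
      have hlt : (supp d).card < Nat.find hex := by
        rw [← hucard]
        exact (Finset.card_le_card hdsub).trans_lt (Finset.card_erase_lt_of_mem (by simp [supp, ha]))
      exact Nat.find_min hex hlt
        ⟨d, hdW, hd0, (hdsub.trans (Finset.erase_subset _ _)).trans husub, rfl⟩
    have hasupp : a ∈ supp v := husub (by simp [supp, ha])
    have hrest : v - v a • w ∈ Submodule.span A
        {w : ι → QA | w ∈ W ∧ (∀ i, w i ∈ A) ∧ ∀ σ ∈ G, ∀ i, σ (w i) = w i} := by
      refine ih _ ?_ _ (W.sub_mem hv (W.smul_mem _ hwW))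
        (fun i => sub_mem (hvA i) (mul_mem (hvA a) (hwA i))) rfl
      rw [← hn]
      refine (Finset.card_le_card (t := (supp v).erase a) fun j hj => ?_).trans_lt
        (Finset.card_erase_lt_of_mem hasupp)
      simp only [supp, Finset.mem_filter, Finset.mem_univ, true_and] at hj
      refine Finset.mem_erase.2 ⟨fun e => hj (by simp [e, hwa]), ?_⟩
      simp only [supp, Finset.mem_filter, Finset.mem_univ, true_and]
      intro hvj
      have hwj : w j = 0 := by
        by_contra h
        have := husub (hwsupp (by simp [supp, h] : j ∈ supp w))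
        simp [supp, hvj] at this
      exact hj (by simp [hvj, hwj])
    rw [show v = (v - v a • w) + (⟨v a, hvA a⟩ : A) • w from (sub_add_cancel v _).symm]
    exact Submodule.add_mem _ hrest
      (Submodule.smul_mem _ _ (Submodule.subset_span ⟨hwW, hwA, hfix⟩))

variable {p : ℕ} [Fact p.Prime] (hA : A.LiesOverPrime p)

include hA in
theorem algebraMap_Rl_mem (r : Rl p) : algebraMap ℚ QA (r : ℚ) ∈ A := by
  have hden : ¬ p ∣ (r : ℚ).den := fun h =>
    (Fact.out : p.Prime).ne_one (Nat.Coprime.eq_one_of_dvd (mem_Rl.1 r.2).symm h)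
  rw [← A.valuation_le_one_iff, ← Rat.num_div_den (r : ℚ), map_div₀, map_intCast, map_natCast,
    map_div₀, Mazur.valuation_natCast_eq_one A Fact.out hA hden, div_one, A.valuation_le_one_iff]
  exact intCast_mem A _

variable {M : Type*} [AddCommGroup M] [DistribMulAction GG M] (O : HopfOrder p M)

include hA in
theorem apply_mem {f : M → QA} (hf : f ∈ O.S) (y : M) : f y ∈ A := by
  obtain ⟨P, hPm, hP⟩ := Algebra.IsIntegral.isIntegral (R := Rl p) (⟨f, hf⟩ : O.S)
  have h1 : Polynomial.eval₂ (algebraMap (Rl p) QA) (f y) P = 0 := by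
    have h2 := congrArg ((Pi.evalAlgHom (Rl p) _ y).comp O.S.val).toRingHom hP
    rw [map_zero, Polynomial.hom_eval₂] at h2
    rw [← h2]
    congr 1
  have hint : IsIntegral A (f y) := by
    let ψ : Rl p →+* A := RingHom.codRestrict (algebraMap (Rl p) QA) A.toSubring fun r => by
      rw [IsScalarTower.algebraMap_apply (Rl p) ℚ QA r]
      exact algebraMap_Rl_mem hA r
    refine ⟨P.map ψ, hPm.map ψ, ?_⟩
    rw [Polynomial.eval₂_map]
    exact h1
  obtain ⟨a, ha⟩ := IsIntegrallyClosed.isIntegral_iff.1 hint
  rw [← ha]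
  exact a.2

include hA in
theorem valuation_apply_le {f : M → QA} (hf : f ∈ O.S) (y : M) : A.valuation (f y) ≤ 1 :=
  (A.valuation_le_one_iff _).2 (apply_mem hA O hf y)

/-- The connected points. -/
def conn : AddSubgroup M where
  carrier := {y | ∀ f ∈ O.S, A.valuation (f y - f 0) < 1}
  zero_mem' f _ := by rw [sub_self, map_zero]; exact zero_lt_one
  add_mem' {y z} hy hz f hf := by
    have key : ∀ g : M × M → QA, g ∈ Submodule.span (Rl p)
        (Set.image2 (fun (a b : M → QA) (q : M × M) => a q.1 * b q.2) O.S O.S) →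
        A.valuation (g (y, z) - g (0, 0)) < 1 := by
      intro g hg
      induction hg using Submodule.span_induction with
      | mem g hg =>
        obtain ⟨a, ha, b, hb, rfl⟩ := hg
        rw [show a y * b z - a 0 * b 0 = (a y - a 0) * b z + a 0 * (b z - b 0) by ring]
        refine A.valuation.map_add_lt ?_ ?_
        · rw [map_mul]; exact mul_lt_one_of_lt_of_le (hy a ha) (valuation_apply_le hA O hb z)
        · rw [map_mul, mul_comm]; exact mul_lt_one_of_lt_of_le (hz b hb) (valuation_apply_le hA O ha 0)
      | zero => simp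
      | add g g' _ _ h h' =>
        simp only [Pi.add_apply, add_sub_add_comm]
        exact A.valuation.map_add_lt h h'
      | smul r g _ h =>
        simp only [Pi.smul_apply, smul_eq_algebraMap_mul, ← mul_sub, map_mul, mul_comm (A.valuation (algebraMap ℚ QA (r : ℚ)))]
        exact mul_lt_one_of_lt_of_le h ((A.valuation_le_one_iff _).2 (algebraMap_Rl_mem hA r))
    simpa using key _ (O.comul_mem f hf)
  neg_mem' {y} hy f hf := by
    have key : ∀ g : M × M → QA, g ∈ Submodule.span (Rl p)
        (Set.image2 (fun (a b : M → QA) (q : M × M) => a q.1 * b q.2) O.S O.S) →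
        A.valuation (g (-y, y) - g (-y, 0)) < 1 := by
      intro g hg
      induction hg using Submodule.span_induction with
      | mem g hg =>
        obtain ⟨a, ha, b, hb, rfl⟩ := hg
        rw [← mul_sub, map_mul, mul_comm]
        exact mul_lt_one_of_lt_of_le (hy b hb) (valuation_apply_le hA O ha _)
      | zero => simp
      | add g g' _ _ h h' =>
        simp only [Pi.add_apply, add_sub_add_comm]
        exact A.valuation.map_add_lt h h'
      | smul r g _ h =>
        simp only [Pi.smul_apply, smul_eq_algebraMap_mul, ← mul_sub, map_mul, mul_comm (A.valuation (algebraMap ℚ QA (r : ℚ)))]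
        exact mul_lt_one_of_lt_of_le h ((A.valuation_le_one_iff _).2 (algebraMap_Rl_mem hA r))
    rw [A.valuation.map_sub_swap]
    simpa using key _ (O.comul_mem f hf)

theorem mem_conn {y : M} : y ∈ conn hA O ↔ ∀ f ∈ O.S, A.valuation (f y - f 0) < 1 := Iff.rfl

theorem valuation_inertia_sub {σ : GG} (hσ : σ ∈ A.inertiaSubgroupIn ℚ) {z : QA} (hz : z ∈ A) :
    A.valuation (σ z - z) < 1 := by
  obtain ⟨g, hg, rfl⟩ := hσ
  have h : g • IsLocalRing.residue A ⟨z, hz⟩ = IsLocalRing.residue A ⟨z, hz⟩ :=
    RingEquiv.congr_fun (show MulSemiringAction.toRingAut _ _ g = 1 from hg) _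
  have h' : IsLocalRing.residue A (g • (⟨z, hz⟩ : A) - ⟨z, hz⟩) = 0 := by
    rw [map_sub, sub_eq_zero]
    exact h
  exact (A.valuation_lt_one_iff _).1 ((IsLocalRing.residue_eq_zero_iff _).1 h')

/-- Inertia moves points only by connected points. -/
theorem inertia_sub_mem_conn {σ : GG} (hσ : σ ∈ A.inertiaSubgroupIn ℚ) (x : M) :
    σ • x - x ∈ conn hA O := by
  intro f hf
  have key : ∀ g : M × M → QA, g ∈ Submodule.span (Rl p)
      (Set.image2 (fun (a b : M → QA) (q : M × M) => a q.1 * b q.2) O.S O.S) →
      A.valuation (g (σ • x, -x) - g (x, -x)) < 1 := by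
    intro g hg
    induction hg using Submodule.span_induction with
    | mem g hg =>
      obtain ⟨a, ha, b, hb, rfl⟩ := hg
      rw [← sub_mul, O.equivariant a ha, map_mul]
      exact mul_lt_one_of_lt_of_le (valuation_inertia_sub hσ (apply_mem hA O ha x))
        (valuation_apply_le hA O hb _)
    | zero => simp
    | add g g' _ _ h h' =>
      simp only [Pi.add_apply, add_sub_add_comm]
      exact A.valuation.map_add_lt h h'
    | smul r g _ h =>
      simp only [Pi.smul_apply, smul_eq_algebraMap_mul, ← mul_sub, map_mul, mul_comm (A.valuation (algebraMap ℚ QA (r : ℚ)))]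
      exact mul_lt_one_of_lt_of_le h ((A.valuation_le_one_iff _).2 (algebraMap_Rl_mem hA r))
  have h := key _ (O.comul_mem f hf)
  rw [show σ • x - x = σ • x + -x from sub_eq_add_neg _ _]
  simpa using h

section Main

variable [Finite M]

/-- Linear combinations of the basis. -/
def comb : (Module.Free.ChooseBasisIndex (Rl p) O.S → QA) →ₗ[QA] (M → QA) :=
  Fintype.linearCombination QA fun i => (O.basis i : M → QA)

theorem comb_apply (c : Module.Free.ChooseBasisIndex (Rl p) O.S → QA) (y : M) :
    comb O c y = ∑ i, c i * (O.basis i : M → QA) y := by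
  simp [comb, Fintype.linearCombination_apply, Finset.sum_apply]

theorem comb_injective : Function.Injective (comb O) :=
  O.linearIndependent_basis.fintypeLinearCombination_injective

theorem exists_comb_eq (g : M → QA) : ∃ c, comb O c = g := by
  have h1 : Submodule.span QA (O.S : Set (M → QA)) ≤
      Submodule.span QA (Set.range fun i => (O.basis i : M → QA)) := by
    rw [Submodule.span_le]
    intro f hf
    have h1 : (⟨f, hf⟩ : O.S) ∈ Submodule.span (Rl p) (Set.range O.basis) := by
      rw [O.basis.span_eq]; exact Submodule.mem_top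
    have h2 := Submodule.apply_mem_span_image_of_mem_span O.S.toSubmodule.subtype h1
    rw [← Set.range_comp] at h2
    exact Submodule.span_subset_span (Rl p) QA _ h2
  have h2 := h1 (O.span_top ▸ Submodule.mem_top (x := g))
  rw [← Fintype.range_linearCombination] at h2
  exact h2

include hA in
/-- Translates in coordinates. -/
theorem exists_translate (f : O.S) :
    ∃ c : Module.Free.ChooseBasisIndex (Rl p) O.S → Module.Free.ChooseBasisIndex (Rl p) O.S → QA,
      (∀ i j, c i j ∈ A) ∧ ∀ y z, (f : M → QA) (y + z) =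
        ∑ i, comb O (c i) z * (O.basis i : M → QA) y := by
  classical
  obtain ⟨d, hd⟩ : ∃ d, d = (O.basis.tensorProduct O.basis).repr (O.comulHom f) := ⟨_, rfl⟩
  refine ⟨fun i j => algebraMap ℚ QA ((d (i, j) : Rl p) : ℚ), fun i j => algebraMap_Rl_mem hA _,
    fun y z => ?_⟩
  rw [← O.ev2_comulHom f (y, z), ← (O.basis.tensorProduct O.basis).sum_repr (O.comulHom f), ← hd,
    map_sum, Finset.sum_apply, Fintype.sum_prod_type]
  refine Finset.sum_congr rfl fun i _ => ?_
  rw [comb_apply, Finset.sum_mul]
  refine Finset.sum_congr rfl fun j _ => ?_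
  rw [map_smul, Pi.smul_apply, smul_eq_algebraMap_mul, Module.Basis.tensorProduct_apply',
    HopfOrder.ev2_tmul]
  ring

set_option maxHeartbeats 1600000 in
include hA in
/-- **No trivial quotient.** -/
theorem mem_of_conn (hp3 : 3 ≤ p) {L : AddSubgroup M}
    (hL : ∀ σ ∈ A.inertiaSubgroupIn ℚ, ∀ l ∈ L, σ • l ∈ L) {x : M} (hx : x ∈ conn hA O)
    (hfix : ∀ σ ∈ A.inertiaSubgroupIn ℚ, σ • x - x ∈ L) (hpx : p • x ∈ L) : x ∈ L := by
  classical
  have hp : p.Prime := Fact.out
  set ι := Module.Free.ChooseBasisIndex (Rl p) O.S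
  set π := A.valuation (p : QA)
  have hπ1 : π < 1 := Mazur.valuation_natCast_lt_one A hA
  have hπ0 : π ≠ 0 := Mazur.valuation_natCast_ne_zero A hp
  -- the functions invariant under `L`
  let W : Submodule QA (ι → QA) :=
    { carrier := {c | ∀ y, ∀ l ∈ L, comb O c (y + l) = comb O c y}
      zero_mem' := by simp
      add_mem' := fun {a b} ha hb y l hl => by simp [map_add, ha y l hl, hb y l hl]
      smul_mem' := fun r a ha y l hl => by simp [map_smul, ha y l hl] }
  have hσ : ∀ (σ : GG) c z, comb O (fun i => σ (c i)) z = σ (comb O c (σ⁻¹ • z)) := fun σ c z => by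
    rw [comb_apply, comb_apply, map_sum]
    refine Finset.sum_congr rfl fun i _ => ?_
    rw [map_mul, ← O.equivariant _ (O.basis i).2, smul_inv_smul]
  have hWst : ∀ σ ∈ (A.inertiaSubgroupIn ℚ : Set GG), ∀ c ∈ W, (fun i => σ (c i)) ∈ W :=
    fun σ hs c hc y l hl => by
      rw [hσ, hσ, smul_add, hc _ _ (hL _ (inv_mem hs) l hl)]
  let Good : ℕ → Prop := fun m => ∀ c ∈ W, (∀ i, c i ∈ A) →
    A.valuation (comb O c x - comb O c 0) ≤ π ^ m
  have hconn : ∀ c : ι → QA, (∀ i, c i ∈ A) → A.valuation (comb O c x - comb O c 0) < 1 := by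
    intro c hc
    rw [comb_apply, comb_apply, ← Finset.sum_sub_distrib]
    refine A.valuation.map_sum_lt' zero_lt_one fun i _ => ?_
    rw [← mul_sub, map_mul, mul_comm]
    exact mul_lt_one_of_lt_of_le (hx _ (O.basis i).2) ((A.valuation_le_one_iff _).2 (hc i))
  -- it suffices to bound the functions with fixed coefficients
  have hspan : ∀ r : A.ValueGroup, (∀ c ∈ W, (∀ i, c i ∈ A) →
      (∀ σ ∈ A.inertiaSubgroupIn ℚ, ∀ i, σ (c i) = c i) →
        A.valuation (comb O c x - comb O c 0) ≤ r) →
      ∀ c ∈ W, (∀ i, c i ∈ A) → A.valuation (comb O c x - comb O c 0) ≤ r := by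
    intro r hr c hc hcA
    have h := le_span_fixed (A := A) (A.inertiaSubgroupIn ℚ : Set GG) W hWst hc hcA
    clear hc hcA
    induction h using Submodule.span_induction with
    | mem w hw => exact hr w hw.1 hw.2.1 hw.2.2
    | zero => simp
    | add u v _ _ hu hv =>
      simp only [map_add, Pi.add_apply, add_sub_add_comm]
      exact A.valuation.map_add_le hu hv
    | smul a w _ hw =>
      rw [show a • w = (a : QA) • w from rfl, map_smul, Pi.smul_apply, Pi.smul_apply, smul_eq_mul,
        smul_eq_mul, ← mul_sub, map_mul]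
      exact (mul_le_of_le_one_left' ((A.valuation_le_one_iff _).2 a.2)).trans hw
  have hinv : ∀ c ∈ W, (∀ σ ∈ A.inertiaSubgroupIn ℚ, ∀ i, σ (c i) = c i) →
      ∀ σ ∈ A.inertiaSubgroupIn ℚ, σ (comb O c x - comb O c 0) = comb O c x - comb O c 0 := by
    intro c hc hcfix σ hs
    have e : ∀ z, σ (comb O c z) = comb O c (σ • z) := fun z => by
      have := hσ σ c (σ • z)
      rw [show (fun i => σ (c i)) = c from funext (hcfix σ hs), inv_smul_smul] at this
      exact this.symm
    rw [map_sub, e, e, smul_zero]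
    congr 1
    conv_lhs => rw [show σ • x = x + (σ • x - x) by abel]
    exact hc x _ (hfix σ hs)
  have hone : Good 1 := hspan _ fun c hc hcA hcfix => by
    rcases eq_or_ne (comb O c x - comb O c 0) 0 with h0 | h0
    · rw [h0, map_zero]; exact zero_le
    obtain ⟨i, hi⟩ := Mazur.exists_zpow_valuation A hp hA h0 (hinv c hc hcfix)
    have h1 := hconn c hcA
    rw [hi] at h1 ⊢
    rw [pow_one]
    have hi1 : 1 ≤ i := by
      by_contra hh
      exact (not_le.2 h1) (one_le_zpow_of_nonpos₀ (zero_lt_iff.2 hπ0) hπ1.le (by omega))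
    calc π ^ i ≤ π ^ (1 : ℤ) := zpow_le_zpow_right_of_le_one₀ (zero_lt_iff.2 hπ0) hπ1.le hi1
      _ = π := zpow_one π
  -- translation by `x`
  let Sx : Module.End QA (M → QA) := LinearMap.funLeft QA QA (· + x)
  have hSx : ∀ g y, Sx g y = g (y + x) := fun _ _ => rfl
  have hstep : ∀ m, Good m → ∀ c ∈ W, (∀ i, c i ∈ A) →
      ∃ d ∈ W, (∀ i, d i ∈ A) ∧ (Sx - 1) (comb O c) = ((p : QA) ^ m) • comb O d := by
    intro m hm c hc hcA
    choose t ht htr using fun i => exists_translate hA O (O.basis i)
    let e : ι → ι → QA := fun j k => ∑ i, c i * t i j k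
    have he : ∀ y z, comb O c (y + z) = ∑ j, comb O (e j) z * (O.basis j : M → QA) y := by
      intro y z
      rw [comb_apply]
      simp only [htr, Finset.mul_sum]
      rw [Finset.sum_comm]
      refine Finset.sum_congr rfl fun j _ => ?_
      simp only [comb_apply, e, Finset.sum_mul, Finset.mul_sum]
      rw [Finset.sum_comm]
      refine Finset.sum_congr rfl fun i _ => Finset.sum_congr rfl fun k _ => ?_
      ring
    have heA : ∀ j k, e j k ∈ A := fun j k => sum_mem fun i _ => mul_mem (hcA i) (ht i j k)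
    have heW : ∀ j, e j ∈ W := by
      intro j z l hl
      have h : ∀ w, comb O (fun j => comb O (e j) w) = fun y => comb O c (y + w) := fun w =>
        funext fun y => by rw [comb_apply, he]
      have := comb_injective O (show comb O (fun j => comb O (e j) (z + l)) =
          comb O (fun j => comb O (e j) z) by
        rw [h, h]; funext y; rw [← add_assoc, hc _ l hl])
      exact congrFun this j
    set d : ι → QA := fun j => ((p : QA) ^ m)⁻¹ * (comb O (e j) x - comb O (e j) 0)
    have hd : (Sx - 1) (comb O c) = ((p : QA) ^ m) • comb O d := by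
      funext y
      have h2 := he y 0
      rw [add_zero] at h2
      rw [Pi.smul_apply, smul_eq_mul, LinearMap.sub_apply, Pi.sub_apply, hSx,
        Module.End.one_apply, he, h2, comb_apply, Finset.mul_sum, ← Finset.sum_sub_distrib]
      refine Finset.sum_congr rfl fun j _ => ?_
      simp only [d]
      rw [← mul_assoc ((p : QA) ^ m), mul_inv_cancel_left₀ (pow_ne_zero _ (Nat.cast_ne_zero.2 hp.ne_zero))]
      ring
    refine ⟨d, fun y l hl => ?_, fun j => ?_, hd⟩
    · refine mul_left_cancel₀ (pow_ne_zero m (Nat.cast_ne_zero.2 hp.ne_zero : (p : QA) ≠ 0)) ?_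
      have h1 := congrFun hd (y + l)
      have h2 := congrFun hd y
      simp only [Pi.smul_apply, smul_eq_mul, LinearMap.sub_apply, Pi.sub_apply, hSx,
        Module.End.one_apply] at h1 h2
      rw [← h1, ← h2, add_right_comm, hc _ l hl, hc _ l hl]
    · rw [← A.valuation_le_one_iff, map_mul, map_inv₀, map_pow]
      exact inv_mul_le_one_of_le₀ (hm _ (heW j) (heA j)) zero_le
  -- the bound doubles
  have hdouble : ∀ m, 1 ≤ m → Good m → Good (2 * m) := by
    intro m hm1 hm c hc hcA
    have hiter : ∀ j : ℕ, ∃ d ∈ W, (∀ i, d i ∈ A) ∧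
        ((Sx - 1) ^ j) (comb O c) = ((p : QA) ^ (m * j)) • comb O d := by
      intro j
      induction j with
      | zero => exact ⟨c, hc, hcA, by simp⟩
      | succ j ih =>
        obtain ⟨d, hd, hdA, e⟩ := ih
        obtain ⟨d', hd', hd'A, e'⟩ := hstep m hm d hd hdA
        refine ⟨d', hd', hd'A, ?_⟩
        rw [pow_succ', Module.End.mul_apply, e, map_smul, e', smul_smul, ← pow_add]
        ring_nf
    have hval : ∀ j, A.valuation (((Sx - 1) ^ j) (comb O c) 0) ≤ π ^ (m * j) := fun j => by
      obtain ⟨d, -, hdA, e⟩ := hiter j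
      rw [e, Pi.smul_apply, smul_eq_mul, map_mul, map_pow]
      refine mul_le_of_le_one_right' ?_
      rw [comb_apply]
      refine A.valuation.map_sum_le fun i _ => ?_
      rw [map_mul]
      exact mul_le_one' ((A.valuation_le_one_iff _).2 (hdA i))
        (valuation_apply_le hA O (O.basis i).2 0)
    have hpow : ∀ (k : ℕ) g y, (Sx ^ k) g y = g (y + k • x) := fun k => by
      induction k with
      | zero => intro g y; simp
      | succ k ih => intro g y; rw [pow_succ, Module.End.mul_apply, ih, hSx, succ_nsmul, add_assoc]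
    have hbin : (Sx ^ p) (comb O c) 0 = ∑ j ∈ Finset.range (p + 1),
        (p.choose j : QA) * ((Sx - 1) ^ j) (comb O c) 0 := by
      conv_lhs => rw [show Sx = (Sx - 1) + 1 by abel]
      rw [(Commute.one_right _).add_pow, LinearMap.sum_apply, Finset.sum_apply]
      refine Finset.sum_congr rfl fun j _ => ?_
      rw [one_pow, mul_one, (Nat.cast_commute _ _).symm.eq, ← nsmul_eq_mul, LinearMap.smul_apply,
        Pi.smul_apply, nsmul_eq_mul]
    rw [hpow, hc 0 _ hpx, Finset.sum_range_succ' _ p] at hbin
    simp only [Nat.choose_zero_right, Nat.cast_one, pow_zero, Module.End.one_apply, one_mul,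
      right_eq_add] at hbin
    obtain ⟨q, rfl⟩ : ∃ q, p = q + 1 := ⟨p - 1, by omega⟩
    rw [Finset.sum_range_succ' _ q, add_eq_zero_iff_eq_neg'] at hbin
    simp only [zero_add, Nat.choose_one_right, pow_one, LinearMap.sub_apply, Pi.sub_apply, hSx,
      Module.End.one_apply] at hbin
    have hb : A.valuation ((↑(q + 1) : QA) * (comb O c x - comb O c 0)) ≤ π ^ (2 * m + 1) := by
      rw [hbin, Valuation.map_neg]
      refine A.valuation.map_sum_le fun j hj => ?_
      rw [map_mul]
      rcases eq_or_ne (j + 1 + 1) (q + 1) with hjq | hjq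
      · refine (mul_le_mul' ((A.valuation_le_one_iff _).2 (natCast_mem A _)) (hval _)).trans ?_
        rw [one_mul]
        exact pow_le_pow_right_of_le_one' hπ1.le (by rw [hjq]; nlinarith)
      · obtain ⟨r, hr⟩ := hp.dvd_choose_self (k := j + 1 + 1) (by omega)
          (by have := Finset.mem_range.1 hj; omega)
        rw [hr, Nat.cast_mul, map_mul, show π ^ (2 * m + 1) = π * π ^ (m * 2) by
          rw [pow_succ', mul_comm 2 m]]
        refine mul_le_mul' (mul_le_of_le_one_right' ((A.valuation_le_one_iff _).2 (natCast_mem A r)))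
          ((hval _).trans ?_)
        exact pow_le_pow_right_of_le_one' hπ1.le (Nat.mul_le_mul_left m (by omega))
    rw [map_mul, pow_succ'] at hb
    exact le_of_mul_le_mul_left hb (zero_lt_iff.2 hπ0)
  have hall : ∀ m, Good (2 ^ m) := fun m => by
    induction m with
    | zero => simpa using hone
    | succ m ih => rw [pow_succ']; exact hdouble _ Nat.one_le_two_pow ih
  -- so all invariant functions take the same value at `x` and `0`
  have hzero : ∀ c ∈ W, (∀ i, c i ∈ A) → comb O c x = comb O c 0 := fun c hc hcA => by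
    refine sub_eq_zero.1 ((Valuation.zero_iff _).1 (le_zero_iff.1 (hspan 0 ?_ c hc hcA)))
    intro c hc hcA hcfix
    rcases eq_or_ne (comb O c x - comb O c 0) 0 with h0 | h0
    · rw [h0, map_zero]
    exfalso
    obtain ⟨i, hi⟩ := Mazur.exists_zpow_valuation A hp hA h0 (hinv c hc hcfix)
    have h1 := hall i.natAbs c hc hcA
    rw [hi, ← zpow_natCast] at h1
    have h2 := (zpow_right_strictAnti₀ (zero_lt_iff.2 hπ0) hπ1).le_iff_ge.1 h1
    have h3 : i.natAbs < 2 ^ i.natAbs := Nat.lt_two_pow_self
    omega
  by_contra hxL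
  obtain ⟨c, hc⟩ := exists_comb_eq O (fun y => if y ∈ L then 1 else 0)
  obtain ⟨r, hr⟩ : ∃ r : QA, r ≠ 0 ∧ ∀ i, r * c i ∈ A := by
    obtain ⟨i₀, hi₀⟩ := Function.ne_iff.1 (show c ≠ 0 from fun h => by
      have := congrFun hc 0
      simp [h] at this)
    obtain ⟨a, -, hmax⟩ := Finset.exists_max_image Finset.univ (fun i => A.valuation (c i))
      ⟨i₀, Finset.mem_univ _⟩
    have ha : c a ≠ 0 := fun h => hi₀ (by
      have h1 := hmax i₀ (Finset.mem_univ _)
      rw [h, map_zero, le_zero_iff, Valuation.zero_iff] at h1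
      exact h1)
    refine ⟨(c a)⁻¹, inv_ne_zero ha, fun i => ?_⟩
    rw [← A.valuation_le_one_iff, map_mul, map_inv₀]
    exact inv_mul_le_one_of_le₀ (hmax i (Finset.mem_univ i)) zero_le
  have h := hzero (r • c) (fun y l hl => by
    simp only [map_smul, hc, Pi.smul_apply, add_mem_cancel_right hl]) hr.2
  simp only [map_smul, hc, Pi.smul_apply, smul_eq_mul, if_neg hxL, if_pos (zero_mem L), mul_zero,
    mul_one] at h
  exact hr.1 h.symm

end Main

end FLTAgent.Ordinary
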