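import Fermat.Agent.Ordinary.Deep
import Fermat.Agent.BadRed.Level
import Fermat.Agent.EigenLattice.Push

/-!
# Deep classes of `J₀(Mp)` at `p`
-/

set_option autoImplicit false
set_option linter.style.haveILetI false
set_option linter.unusedSectionVars false
set_option synthInstance.maxHeartbeats 400000
set_option maxHeartbeats 1000000

noncomputable section

open AlgebraicCurve ModularCurve IntermediateField IsLocalRing

namespace FLTAgent.Ordinary

open FLTAgent.Curves FLTAgent.Specialization FLTAgent.BadRed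
open FLTAgent.EigenLattice (pushPic isPrincipal_of_pushPic_eq_zero)

local notation "QA" => AlgebraicClosure ℚ
local notation "GG" => (AlgebraicClosure ℚ ≃ₐ[ℚ] AlgebraicClosure ℚ)

variable {A : ValuationSubring QA} {p : ℕ} [Fact p.Prime]

theorem root_mem {ζ : QA} {n : ℕ} (hn : 0 < n) (hζ : ζ ^ n = 1) : ζ ∈ A := by
  rcases A.mem_or_inv_mem ζ with h | h
  · exact h
  · have : ζ = ζ⁻¹ ^ (n - 1) := by
      have hζ0 : ζ ≠ 0 := fun h0 => by simp [h0, zero_pow hn.ne'] at hζ
      refine mul_right_cancel₀ (inv_ne_zero hζ0) ?_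
      rw [mul_inv_cancel₀ hζ0, ← pow_succ, Nat.sub_add_cancel hn, inv_pow, hζ, inv_one]
    rw [this]; exact pow_mem h _

/-- The critical scale `ζ - 1`. -/
theorem exists_critScale [CharP (ResidueField A) p] {ζ : QA} (hζ : IsPrimitiveRoot ζ p) :
    ∃ c : CritScale (residue A) p, (c.s : QA) = ζ - 1 := by
  have hp : p.Prime := Fact.out
  have hζA : ζ ∈ A := root_mem hp.pos hζ.pow_eq_one
  set z : A := ⟨ζ, hζA⟩
  have hz1 : residue A z = 1 := by
    refine frobenius_inj (ResidueField A) p ?_
    simp only [frobenius_def, one_pow, ← map_pow]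
    rw [show z ^ p = 1 from Subtype.ext (by push_cast; exact hζ.pow_eq_one), map_one]
  have hne : ζ ≠ 1 := fun h => hp.ne_one (IsPrimitiveRoot.one_left_iff.1 (h ▸ hζ))
  obtain ⟨n, hn⟩ : ∃ n, p = n + 1 := ⟨p - 1, by have := hp.pos; omega⟩
  set ε : A := ∏ k ∈ Finset.range n, -(∑ i ∈ Finset.range (k + 1), z ^ i) with hε
  refine ⟨{ s := z - 1, s_res := by rw [map_sub, hz1, map_one, sub_self], s_ne := ?_,
            ε := ε, ε_res := ?_, eq := ?_ }, rfl⟩
  · simpa [z, sub_eq_zero] using hne
  · simp only [ε, map_prod, map_neg, map_sum, map_pow, hz1, one_pow, Finset.sum_const,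
      Finset.card_range, nsmul_eq_mul, mul_one]
    refine Finset.prod_ne_zero_iff.2 fun k hk => neg_ne_zero.2 fun h => ?_
    rw [CharP.cast_eq_zero_iff (ResidueField A) p] at h
    have := Nat.le_of_dvd (Nat.succ_pos k) h
    have := Finset.mem_range.1 hk
    omega
  · have h := IsPrimitiveRoot.prod_one_sub_pow_eq_order (R := QA) (n := n) (hn ▸ hζ)
    rw [show (p : QA) = n + 1 by rw [hn]; push_cast; rfl, ← h, hn, Nat.add_sub_cancel]
    simp only [ε, z]
    push_cast
    rw [show (ζ - 1) ^ n = ∏ _k ∈ Finset.range n, (ζ - 1) by rw [Finset.prod_const, Finset.card_range],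
      ← Finset.prod_mul_distrib]
    refine Finset.prod_congr rfl fun k _ => ?_
    rw [mul_neg, mul_comm, geom_sum_mul]
    ring

variable {M : ℕ} [NeZero M] [NeZero p] [NeZero (M * p)] (hA : A.LiesOverPrime p) (hpM : ¬ p ∣ M)

include hA in
theorem isAlgClosed_res : IsAlgClosed (ResidueField A) := FrobTrace.isAlgClosed_residueField A

section Sheet

variable [IsAlgClosed (ResidueField A)] [CharP (ResidueField A) p]
  [IsFunctionField (ResidueField A) (modularFunctionFieldFullC (ResidueField A) M)]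

/-- The deep classes of `J₀(Mp)`. -/
def deepAt (n : ℕ) : AddSubgroup (JZero (M * p)) := deep (sheetAt hpM hA) n

theorem inertia_sub_mem_deepAt {σ : GG} (hσ : σ ∈ A.inertiaSubgroupIn ℚ) {n : ℕ}
    {x : JZero (M * p)} (hx : n • x = 0) : σ • x - x ∈ deepAt hA hpM n := by
  obtain ⟨g, hg, rfl⟩ := hσ
  exact smul_sub_mem_deep (symAt hpM hA g) (symAt_inertia hpM hA hg)
    (Pic0.mem_torsion.2 (by rw [natCast_zsmul]; exact hx))

theorem mem_deepAt_prime {a : ℕ} {x : JZero (M * p)} (hx : x ∈ deepAt hA hpM (p ^ (a + 1)))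
    (hpx : p • x = 0) : x ∈ deepAt hA hpM p :=
  mem_deep_prime hx (Pic0.mem_torsion.2 (by rw [natCast_zsmul]; exact hpx))

/-- Inertia acts on deep classes killed by the push forwards through the cyclotomic character. -/
theorem inertia_smul_eq_of_deep
    (hsm : (modularModel (π := residue A) residue_surjective M
      (natCast_ne_zero hpM (ResidueField A))).Smooth)
    {ζ : QA} (hζ : IsPrimitiveRoot ζ p) {x : JZero (M * p)} (hx : x ∈ deepAt hA hpM p)
    (hα : pushPic M p (heckeAlphaBar QA M p) x = 0)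
    (hβ : pushPic M p (heckeBetaBar QA M p) x = 0)
    {σ : GG} (hσ : σ ∈ A.inertiaSubgroupIn ℚ) {a : ℕ} (ha : a < p) (hσζ : σ ζ = ζ ^ a) :
    σ • x = a • x := by
  obtain ⟨g, hg, rfl⟩ := hσ
  obtain ⟨c, hc⟩ := exists_critScale (A := A) hζ
  set z : A := ⟨ζ, root_mem (Fact.out : p.Prime).pos hζ.pow_eq_one⟩
  have hz1 : residue A z = 1 := by
    refine frobenius_inj (ResidueField A) p ?_
    simp only [frobenius_def, one_pow, ← map_pow]
    rw [show z ^ p = 1 from Subtype.ext (by push_cast; exact hζ.pow_eq_one), map_one]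
  refine smul_eq_of_deep (S := sheetAt hpM hA)
    (modularSheet_good hpM residue_surjective (rankOne_residue hA) hsm)
    (fun y => ⟨_, specialV_coeffMap M p y⟩) (finrankAlong_beta hpM) c
    (Kronecker.isIntegralAlong _) (Kronecker.finiteAlong _)
    (Kronecker.normFormulaAlong _ (Kronecker.finiteAlong _))
    (Kronecker.isIntegralAlong _) (Kronecker.finiteAlong _)
    (Kronecker.normFormulaAlong _ (Kronecker.finiteAlong _)) hx
    (fun D hD => isPrincipal_of_pushPic_eq_zero M p _ D (by
      rw [show (Pic0.mk D : JZero (M * p)) = x from hD]; exact hα))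
    (fun D hD => isPrincipal_of_pushPic_eq_zero M p _ D (by
      rw [show (Pic0.mk D : JZero (M * p)) = x from hD]; exact hβ))
    (symAt hpM hA g) (symAt_inertia hpM hA hg) ha (e := ∑ i ∈ Finset.range a, z ^ i) ?_ ?_
  · show (g : GG) (c.s : QA) = _
    rw [hc, map_sub, map_one, show (g : GG) ζ = ζ ^ a from hσζ]
    push_cast
    rw [mul_comm, geom_sum_mul]
  · simp [map_sum, hz1]

end Sheet

end FLTAgent.Ordinary
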