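import Fermat.Agent.Mazur.Idem
import Fermat.Agent.FlatModel.HeckeFlat
import Fermat.Prelude.Thm_Algebra_finite_maximalSpectrum_and_bijective_localization_of_module_finite
import Mathlib.RingTheory.Henselian

/-!
# Local idempotents, and projectors onto the roots of a split quadratic relation
-/

set_option autoImplicit false
set_option linter.style.haveILetI false
set_option linter.unusedSectionVars false

noncomputable section

open Polynomial

namespace FLTAgent.Ordinary

section Idem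

variable {p : ℕ} [Fact p.Prime] {A : Type} [CommRing A] [Algebra ℤ_[p] A] [Module.Finite ℤ_[p] A]
  [Module.Free ℤ_[p] A]

/-- The idempotent of a maximal ideal, with the properties of the local factor. -/
theorem exists_localIdem (𝔪 : Ideal A) [h𝔪 : 𝔪.IsMaximal] :
    ∃ e : A, e * e = e ∧ e ∉ 𝔪 ∧ (∀ c, c ∉ 𝔪 → ∃ c', c * c' * e = e) ∧
      (∃ N, ∀ x ∈ 𝔪 ^ N, ∃ y, x * e = (p : A) * y) ∧
      ∀ t d, 1 - t + d ∈ 𝔪 → 1 - d ∉ 𝔪 → ∃ z, z - 1 ∈ 𝔪 ∧ e * (z * z - t * z + d) = 0 := by
  classical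
  obtain ⟨-, hbij, -, hcomp⟩ :=
    Algebra.finite_maximalSpectrum_and_bijective_localization_of_module_finite (𝒪 := ℤ_[p]) A
  set P : MaximalSpectrum A := ⟨𝔪, h𝔪⟩
  set L := Localization.AtPrime P.asIdeal
  set f := RingHom.pi fun I : MaximalSpectrum A => algebraMap A (Localization.AtPrime I.asIdeal)
    with hf
  have hfap : ∀ x I, f x I = algebraMap A (Localization.AtPrime I.asIdeal) x := fun x I => rfl
  obtain ⟨e, he⟩ := hbij.2 (Pi.single P 1)
  have he1 : algebraMap A L e = 1 := by rw [← hfap, he, Pi.single_eq_same]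
  have hkill : ∀ x, algebraMap A L x = 0 → e * x = 0 := fun x hx => hbij.1 (funext fun I => by
    rw [map_mul, map_zero, Pi.mul_apply, he, Pi.zero_apply]
    rcases eq_or_ne I P with rfl | hI
    · rw [hfap, hx, mul_zero]
    · rw [Pi.single_eq_of_ne hI, zero_mul])
  have hlift : ∀ z : L, ∃ x, algebraMap A L x = z := fun z => by
    obtain ⟨x, hx⟩ := hbij.2 (Pi.single P z)
    exact ⟨x, by rw [← hfap, hx, Pi.single_eq_same]⟩
  have hmem : ∀ x, algebraMap A L x ∈ IsLocalRing.maximalIdeal L ↔ x ∈ 𝔪 := fun x =>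
    IsLocalization.AtPrime.to_map_mem_maximal_iff L P.asIdeal x
  refine ⟨e, ?_, fun hc => ?_, fun c hc => ?_, ?_, fun t d htd hd => ?_⟩
  · have := hkill (e - 1) (by rw [map_sub, he1, map_one, sub_self])
    rwa [mul_sub, mul_one, sub_eq_zero] at this
  · have := (hmem e).2 hc
    rw [he1] at this
    exact (IsLocalRing.mem_maximalIdeal _).1 this isUnit_one
  · obtain ⟨v, hv⟩ := ((IsLocalRing.notMem_maximalIdeal).1 fun h => hc ((hmem c).1 h)).exists_right_inv
    obtain ⟨c', rfl⟩ := hlift v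
    refine ⟨c', sub_eq_zero.1 ?_⟩
    rw [← hkill (c * c' - 1) (by rw [map_sub, map_mul, hv, map_one, sub_self])]
    ring
  · haveI : IsNoetherianRing A := IsNoetherianRing.of_finite ℤ_[p] A
    haveI : IsNoetherianRing L := IsLocalization.isNoetherianRing P.asIdeal.primeCompl L inferInstance
    haveI : Finite (L ⧸ Ideal.span {(p : L)}) := by
      haveI := Mazur.finite_quotient_natCast_pow (l := p) (R := A) 1
      refine Finite.of_surjective (Ideal.quotientMap (Ideal.span {(p : L)}) (algebraMap A L)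
        (show Ideal.span {(p : A) ^ 1} ≤ _ by
          rw [Ideal.span_singleton_le_iff_mem, Ideal.mem_comap, map_pow, map_natCast, pow_one]
          exact Ideal.mem_span_singleton_self _)) ?_
      intro z
      obtain ⟨z, rfl⟩ := Ideal.Quotient.mk_surjective z
      obtain ⟨x, rfl⟩ := hlift z
      exact ⟨Ideal.Quotient.mk _ x, rfl⟩
    obtain ⟨N, hN⟩ := FlatModel.exists_maximalIdeal_pow_le (Ideal.span {(p : L)})
    refine ⟨N, fun x hx => ?_⟩
    have hle : (𝔪 ^ N).map (algebraMap A L) ≤ Ideal.span {(p : L)} := by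
      rw [Ideal.map_pow]
      exact (Ideal.pow_right_mono (Ideal.map_le_iff_le_comap.2 fun y hy => Ideal.mem_comap.2 ((hmem y).2 hy)) N).trans hN
    obtain ⟨w, hw⟩ := Ideal.mem_span_singleton.1 (hle (Ideal.mem_map_of_mem _ hx))
    obtain ⟨y, rfl⟩ := hlift w
    have := hkill (x - (p : A) * y) (by rw [map_sub, map_mul, map_natCast, hw, sub_self])
    exact ⟨e * y, by rw [mul_sub, sub_eq_zero] at this; rw [mul_comm, this]; ring⟩
  · haveI := hcomp P
    set g : L[X] := X ^ 2 - C (algebraMap A L t) * X + C (algebraMap A L d)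
    obtain ⟨z, hz, hz1⟩ := HenselianRing.is_henselian (I := IsLocalRing.maximalIdeal L) g
      (by simp only [g]; monicity!) 1
      (by simpa [g] using (hmem _).2 htd)
      (by
        refine IsUnit.map _ ((IsLocalRing.notMem_maximalIdeal).1 fun h => hd ?_)
        have h2 : algebraMap A L (2 - t) ∈ IsLocalRing.maximalIdeal L := by
          rw [map_sub, map_ofNat]
          simpa [g, derivative_pow, one_add_one_eq_two] using h
        convert sub_mem ((hmem _).1 h2) htd using 1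
        ring)
    obtain ⟨x, rfl⟩ := hlift z
    refine ⟨x, (hmem _).1 (by rw [map_sub, map_one]; exact hz1), hkill _ ?_⟩
    rw [map_add, map_sub, map_mul, map_mul, ← hz]
    simp [g, sq]

end Idem

section Projector

variable {A R G : Type*} [CommRing A] [Ring R] [Group G]

/-- A commutative ring acting with a group, every element having a trace. -/
structure TraceData (φ : A →+* R) (g : G →* R) (t d : G → A) : Prop where
  comm : ∀ (a : A) (σ : G), g σ * φ a = φ a * g σ
  tr : ∀ σ, g σ + φ (d σ) * g σ⁻¹ = φ (t σ)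
  mul : ∀ σ τ, d (σ * τ) = d σ * d τ

variable {φ : A →+* R} {g : G →* R} {t d : G → A} (h : TraceData φ g t d)

include h in
/-- The polarised quadratic relation. -/
theorem TraceData.polar (σ τ : G) :
    g σ * g τ + g τ * g σ =
      φ (t τ) * g σ + φ (t σ) * g τ - φ (t σ * t τ) + φ (t (σ * τ)) := by
  have hs : ∀ ρ, φ (d ρ) * g ρ⁻¹ = φ (t ρ) - g ρ := fun ρ => by rw [← h.tr ρ]; abel
  have h1 : φ (d (σ * τ)) * g (σ * τ)⁻¹ = (φ (t τ) - g τ) * (φ (t σ) - g σ) := by
    rw [← hs, ← hs, h.mul, mul_comm (d σ), map_mul, _root_.mul_inv_rev, map_mul,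
      mul_assoc, mul_assoc, ← mul_assoc (g τ⁻¹), h.comm, ← mul_assoc, ← mul_assoc, ← mul_assoc,
      ← mul_assoc, ← map_mul]
  have h2 := h.tr (σ * τ)
  rw [h1, map_mul g, sub_mul, mul_sub, mul_sub, h.comm] at h2
  rw [mul_comm (t σ) (t τ), map_mul φ, ← h2]
  abel

include h in
theorem TraceData.quad (σ : G) : g σ * g σ = φ (t σ) * g σ - φ (d σ) := by
  rw [← h.tr σ, add_mul, mul_assoc (φ (d σ)), ← map_mul g σ⁻¹, inv_mul_cancel, map_one, mul_one,
    add_sub_cancel_right]

variable (φ g) in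
/-- The element `a + b σ₀`. -/
def proj (σ₀ : G) (a b : A) : R := φ a + φ b * g σ₀

include h in
theorem TraceData.proj_mul (σ₀ : G) (a b a' b' : A) :
    proj φ g σ₀ a b * proj φ g σ₀ a' b' =
      proj φ g σ₀ (a * a' - b * b' * d σ₀) (a * b' + b * a' + b * b' * t σ₀) := by
  have h1 : φ b * g σ₀ * (φ b' * g σ₀) = φ (b * b') * (φ (t σ₀) * g σ₀ - φ (d σ₀)) := by
    rw [← h.quad, mul_assoc, ← mul_assoc (g σ₀), h.comm, map_mul, mul_assoc, mul_assoc]
  simp only [proj, add_mul, mul_add, h1]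
  rw [mul_sub, mul_assoc (φ b), h.comm]
  simp only [← mul_assoc, ← map_mul, map_add, map_sub, add_mul]
  abel

theorem phi_mul_proj (σ₀ : G) (c a b : A) :
    φ c * proj φ g σ₀ a b = proj φ g σ₀ (c * a) (c * b) := by
  rw [proj, proj, mul_add, ← mul_assoc, ← map_mul, ← map_mul]

include h in
theorem TraceData.proj_comm (σ₀ : G) (c a b : A) :
    proj φ g σ₀ a b * φ c = φ c * proj φ g σ₀ a b := by
  rw [proj, add_mul, mul_add, mul_assoc, h.comm, ← mul_assoc, ← mul_assoc, ← map_mul, ← map_mul,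
    ← map_mul, ← map_mul, mul_comm a, mul_comm b]

variable (t) in
/-- The trace of `(a + b σ₀) σ`. -/
def tp (σ₀ : G) (a b : A) (σ : G) : A := a * t σ + b * t (σ₀ * σ)

include h in
/-- **A projector of trace one compresses to a scalar.** -/
theorem TraceData.sandwich {σ₀ : G} {a b : A}
    (hX : proj φ g σ₀ a b * proj φ g σ₀ a b = proj φ g σ₀ a b)
    (he : φ (2 * a + b * t σ₀) * proj φ g σ₀ a b = proj φ g σ₀ a b) (σ : G) :
    proj φ g σ₀ a b * g σ * proj φ g σ₀ a b = φ (tp t σ₀ a b σ) * proj φ g σ₀ a b := by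
  set X := proj φ g σ₀ a b with hXd
  have h1 : X * g σ + g σ * X = φ (2 * a + b * t σ₀) * g σ + φ (t σ) * X +
      φ (tp t σ₀ a b σ - t σ * (2 * a + b * t σ₀)) := by
    rw [hXd, phi_mul_proj, proj, proj, add_mul, mul_add, h.comm, mul_assoc, ← mul_assoc (g σ),
      h.comm, mul_assoc, add_add_add_comm, ← mul_add (φ b), h.polar σ₀ σ,
      show tp t σ₀ a b σ - t σ * (2 * a + b * t σ₀) =
        b * t (σ₀ * σ) - b * (t σ₀ * t σ) - t σ * a by rw [tp]; ring]
    simp only [mul_add, mul_sub, add_mul, ← mul_assoc, ← map_mul, two_mul, map_add, map_sub]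
    rw [mul_comm (t σ) b]
    abel
  have h2 : g σ * X = φ (2 * a + b * t σ₀) * g σ + φ (t σ) * X +
      φ (tp t σ₀ a b σ - t σ * (2 * a + b * t σ₀)) - X * g σ := by rw [← h1]; abel
  have hc : ∀ c, X * φ c = φ c * X := h.proj_comm σ₀ (a := a) (b := b)
  rw [mul_assoc, h2, mul_sub, mul_add, mul_add, ← mul_assoc X, hc, he, ← mul_assoc X (φ (t σ)), hc,
    mul_assoc, hX, hc, ← mul_assoc X X, hX, map_sub, map_mul, sub_mul, mul_assoc, he]
  abel

include h in
/-- Compression through a second element `a' + b' σ₀`. -/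
theorem TraceData.sandwich_link {σ₀ : G} {a b : A}
    (hX : ∀ σ, proj φ g σ₀ a b * g σ * proj φ g σ₀ a b =
      φ (tp t σ₀ a b σ) * proj φ g σ₀ a b) (a' b' : A) (σ ρ : G) :
    proj φ g σ₀ a b * g σ * proj φ g σ₀ a' b' * g ρ * proj φ g σ₀ a b =
      φ (a' * tp t σ₀ a b (σ * ρ) + b' * tp t σ₀ a b (σ * σ₀ * ρ)) * proj φ g σ₀ a b := by
  set P := proj φ g σ₀ a b with hP
  have hcP : ∀ c y, P * (φ c * y) = φ c * (P * y) := fun c y => by
    rw [← mul_assoc, hP, h.proj_comm, mul_assoc]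
  have hcg : ∀ c τ y, g τ * (φ c * y) = φ c * (g τ * y) := fun c τ y => by
    rw [← mul_assoc, h.comm, mul_assoc]
  rw [map_add, add_mul, map_mul φ a', map_mul φ b', mul_assoc (φ a'), mul_assoc (φ b'), ← hX, ← hX,
    map_mul, map_mul g (σ * σ₀), map_mul, proj]
  simp only [mul_assoc, mul_add, add_mul, hcg, hcP]

include h in
/-- An off-diagonal entry is a multiple of any invertible one. -/
theorem TraceData.offDiag {σ₀ σ ρ ρ' : G} {a b a' b' e c w v : A}
    (heY : φ e * proj φ g σ₀ a' b' = proj φ g σ₀ a' b')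
    (h1 : proj φ g σ₀ a b * g σ * proj φ g σ₀ a' b' * g ρ * proj φ g σ₀ a b =
      φ c * proj φ g σ₀ a b)
    (h2 : proj φ g σ₀ a' b' * g ρ * proj φ g σ₀ a b * g ρ' * proj φ g σ₀ a' b' =
      φ w * proj φ g σ₀ a' b') (hv : w * v * e = e) :
    proj φ g σ₀ a b * g σ * proj φ g σ₀ a' b' =
      φ (v * c) * (proj φ g σ₀ a b * g ρ' * proj φ g σ₀ a' b') := by
  set P := proj φ g σ₀ a b with hP
  set Q := proj φ g σ₀ a' b' with hQ
  have hY : φ v * (φ w * Q) = Q := by
    conv_rhs => rw [← heY, ← hv, mul_comm w v, map_mul, mul_assoc, heY, map_mul, mul_assoc]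
  conv_lhs => rw [← hY, ← h2]
  rw [mul_assoc P, ← mul_assoc (g σ), h.comm, mul_assoc (φ v), ← mul_assoc P (φ v), hP, h.proj_comm,
    mul_assoc (φ v), ← hP, map_mul, mul_assoc (φ v)]
  congr 1
  rw [← mul_assoc (φ c), ← mul_assoc (φ c), ← h1]
  simp only [mul_assoc]

include h in
/-- What kills one projector kills the linked one. -/
theorem TraceData.kill_linked {σ₀ ρ ρ' : G} {a b a' b' e c w v : A}
    (heY : φ e * proj φ g σ₀ a' b' = proj φ g σ₀ a' b')
    (h1 : φ c * proj φ g σ₀ a b = 0)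
    (h2 : proj φ g σ₀ a' b' * g ρ * proj φ g σ₀ a b * g ρ' * proj φ g σ₀ a' b' =
      φ w * proj φ g σ₀ a' b') (hv : w * v * e = e) :
    φ c * proj φ g σ₀ a' b' = 0 := by
  set P := proj φ g σ₀ a b with hP
  set Q := proj φ g σ₀ a' b' with hQ
  have hY : φ v * (φ w * Q) = Q := by
    conv_rhs => rw [← heY, ← hv, mul_comm w v, map_mul, mul_assoc, heY, map_mul, mul_assoc]
  rw [← hY, ← h2, ← mul_assoc, ← map_mul, mul_comm c v, map_mul, mul_assoc,
    show φ c * (Q * g ρ * P * g ρ' * Q) = Q * g ρ * (φ c * P) * g ρ' * Q by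
      simp only [← mul_assoc]
      rw [hQ, ← h.proj_comm σ₀ c a' b', mul_assoc _ (φ c) (g ρ), ← h.comm, ← mul_assoc],
    h1, mul_zero, zero_mul, zero_mul, mul_zero]

/-- The hypotheses on a split quadratic relation over a local factor. -/
structure SplitData (e u l₁ l₂ t₀ d₀ : A) : Prop where
  idem : e * e = e
  sum : e * (l₁ + l₂) = e * t₀
  prod : e * (l₁ * l₂) = e * d₀
  inv : e * u * (l₁ - l₂) = e

variable {e u l₁ l₂ : A} {σ₀ : G} (hs : SplitData e u l₁ l₂ (t σ₀) (d σ₀))

include hs in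
theorem SplitData.two_mul_add : 2 * (-(e * u * l₂)) + e * u * t σ₀ = e := by
  linear_combination (-u) * hs.sum + hs.inv

include h hs in
theorem TraceData.projector_mul_self :
    proj φ g σ₀ (-(e * u * l₂)) (e * u) * proj φ g σ₀ (-(e * u * l₂)) (e * u) =
      proj φ g σ₀ (-(e * u * l₂)) (e * u) := by
  rw [h.proj_mul]
  congr 1
  · linear_combination (e * u * u) * hs.prod - u * l₂ * hs.inv - (u * u * l₁ * l₂ - u * u * l₂ * l₂) * hs.idem
  · linear_combination (-(e * u * u)) * hs.sum + u * hs.inv + (u * u * l₁ - u * u * l₂) * hs.idem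

include h hs in
/-- `σ₀` is the root `l₁` on the image. -/
theorem TraceData.map_mul_projector :
    g σ₀ * proj φ g σ₀ (-(e * u * l₂)) (e * u) =
      φ l₁ * proj φ g σ₀ (-(e * u * l₂)) (e * u) := by
  rw [show g σ₀ = proj φ g σ₀ 0 1 by simp [proj], h.proj_mul, phi_mul_proj]
  congr 1
  · linear_combination u * hs.prod
  · linear_combination (-u) * hs.sum

include hs in
theorem phi_mul_projector :
    φ e * proj φ g σ₀ (-(e * u * l₂)) (e * u) = proj φ g σ₀ (-(e * u * l₂)) (e * u) := by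
  rw [phi_mul_proj]
  congr 1
  · linear_combination (-(u * l₂)) * hs.idem
  · linear_combination u * hs.idem

end Projector

end FLTAgent.Ordinary
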