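import Fermat.Agent.Ordinary.HeckeLat
import Fermat.Agent.Ordinary.Projector
import Fermat.Agent.Ordinary.Connected
import Fermat.Agent.Ordinary.Modular
import Fermat.Agent.FlatModel.Modular

/-!
# The projector to the trivial root kills inertia on the lattice
-/

set_option autoImplicit false
set_option linter.style.haveILetI false
set_option linter.unusedSectionVars false
set_option synthInstance.maxHeartbeats 400000
set_option maxHeartbeats 1000000

noncomputable section

open AlgebraicCurve ModularCurve IsLocalRing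
open scoped TensorProduct

namespace FLTAgent.Ordinary

open FLTAgent.EigenLattice (pushPic pushTors alpha_compat beta_compat)
open FLTAgent.Mazur.Tate (Lat lev levT gal hecke)
open FLTAgent.Specialization FLTAgent.BadRed

local notation "QA" => AlgebraicClosure ℚ
local notation "GG" => (AlgebraicClosure ℚ ≃ₐ[ℚ] AlgebraicClosure ℚ)

theorem conj_mem_inertia {A : ValuationSubring QA} {δ σ : GG}
    (hδ : δ ∈ A.inertiaSubgroupIn ℚ) (hσ : σ ∈ A.inertiaSubgroupIn ℚ) :
    δ * σ * δ⁻¹ ∈ A.inertiaSubgroupIn ℚ :=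
  mul_mem (mul_mem hδ hσ) (inv_mem hδ)

variable {M : ℕ} [NeZero M] {p : ℕ} [Fact p.Prime] [NeZero p] [NeZero (M * p)] {S : Finset ℕ}
  (hpS : p ∈ S) (hNS : ∀ q : ℕ, q.Prime → q ∣ M * p → q ∈ S)

local notation "LL" => Lat (M * p) p
local notation "AA" => Alg (M * p) p S
local notation "act" => actL (M * p) p S

theorem lev_smul (k : ℕ) (c : ℤ_[p]) (z : LL) :
    lev (M * p) p k (c • z) = (PadicInt.toZModPow k c).val • lev (M * p) p k z := by
  obtain ⟨y, hy⟩ := (Mazur.Tate.toZModPow_eq_zero_iff p (k := k)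
    (x := c - (PadicInt.toZModPow k c).val)).1 (by
      rw [map_sub, map_natCast, ZMod.natCast_zmod_val, sub_self])
  rw [← map_nsmul, ← sub_eq_zero, ← map_sub, Mazur.Tate.lev_eq_zero_iff]
  intro i
  refine ⟨y * z i, ?_⟩
  rw [Pi.sub_apply, Pi.smul_apply, Pi.smul_apply, nsmul_eq_mul, smul_eq_mul, ← sub_mul, hy,
    mul_assoc]

/-- The push forward of the class at level one. -/
def pushLev (φ : modularFunctionFieldBar M →ₐ[QA] modularFunctionFieldBar (M * p)) :
    LL →+ JZero M :=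
  (pushPic M p φ).comp (lev (M * p) p 1)

variable {φ : modularFunctionFieldBar M →ₐ[QA] modularFunctionFieldBar (M * p)}
  (hφ : ∀ (σ : GG) (x : modularFunctionFieldBar M),
    φ (arithmeticGalois (modularFunctionFieldFull M) σ • x) =
      arithmeticGalois (modularFunctionFieldFull (M * p)) σ • φ x)

include hφ in
theorem pushPic_gal (σ : GG) (y : JZero (M * p)) :
    pushPic M p φ (σ • y) = σ • pushPic M p φ y :=
  EigenLattice.pushPic_smul M p φ σ (hφ σ) y

include hφ in
theorem pushLev_gal (σ : GG) (z : LL) : pushLev φ (gal (M * p) p σ z) = σ • pushLev φ z := by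
  rw [pushLev, AddMonoidHom.comp_apply, Mazur.Tate.lev_gal, pushPic_gal hφ]
  rfl

include hpS hNS hφ in
/-- Hecke operators preserve the kernel of the push forward. -/
theorem pushLev_actL {z : LL} (hz : pushLev φ z = 0) (x : AA) : pushLev φ (act x z) = 0 := by
  have hsmul : ∀ (c : ℤ_[p]) (w : LL), pushLev φ w = 0 → pushLev φ (c • w) = 0 := fun c w hw => by
    rw [pushLev, AddMonoidHom.comp_apply, lev_smul, map_nsmul]
    exact (congrArg _ hw).trans (nsmul_zero _)
  induction x using TensorProduct.induction_on with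
  | zero => simp
  | add x y hx hy => rw [map_add, LinearMap.add_apply, map_add, hx, hy, add_zero]
  | tmul c t =>
    rw [actL_tmul]
    refine hsmul c _ ?_
    obtain ⟨t, ht⟩ := t
    induction ht using Algebra.adjoin_induction generalizing z with
    | mem u hu =>
      rcases hu with ⟨ℓ, hℓ, hℓN, hℓS, rfl⟩ | ⟨q, hqN, hq, hqS, rfl⟩
      · show pushLev φ (hecke (M * p) p
          (EigenReps.toFull (M * p) S (CuspForm.heckeAlgebra.T hℓ hℓN hℓS)) z) = 0
        rw [EigenReps.toFull_T, pushLev, AddMonoidHom.comp_apply,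
          Mazur.Tate.lev_heckeGen (M * p) p 1 ⟨ℓ, hℓ⟩ z]
        have h1 : pushTors (p ^ 1) φ (levT (M * p) p 1 z) = 0 := Subtype.ext hz
        have h2 := congrArg Subtype.val (EigenLattice.pushTors_heckeTors (p ^ 1) φ hφ ⟨ℓ, hℓ⟩ hℓN
          (fun h => hℓS ((Nat.prime_dvd_prime_iff_eq hℓ Fact.out).1 (hℓ.dvd_of_dvd_pow h) ▸ hpS))
          (levT (M * p) p 1 z))
        rw [h1, map_zero] at h2
        refine Eq.trans ?_ h2
        exact congrArg (pushPic M p φ) (TorsionHom.coe_heckeTors (p ^ 1) ⟨ℓ, hℓ⟩ _).symm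
      · exact absurd (hNS q hq hqN) hqS
    | algebraMap r =>
      show pushLev φ (hecke (M * p) p (EigenReps.toFull (M * p) S (algebraMap ℤ _ r)) z) = 0
      rw [eq_intCast, map_intCast, map_intCast, Module.End.intCast_apply, map_zsmul, hz, zsmul_zero]
    | add a b ha hb iha ihb =>
      show pushLev φ (hecke (M * p) p (EigenReps.toFull (M * p) S (⟨a, ha⟩ + ⟨b, hb⟩)) z) = 0
      rw [map_add, map_add, LinearMap.add_apply, map_add, iha hz, ihb hz, add_zero]
    | mul a b ha hb iha ihb =>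
      show pushLev φ (hecke (M * p) p (EigenReps.toFull (M * p) S (⟨a, ha⟩ * ⟨b, hb⟩)) z) = 0
      rw [map_mul, map_mul, Module.End.mul_apply]
      exact iha (ihb hz)

/-- The vectors divisible by a power of an ideal. -/
def mpow (𝔪 : Ideal AA) (j : ℕ) : AddSubgroup LL :=
  AddSubgroup.closure {y | ∃ x ∈ 𝔪 ^ j, ∃ z, act x z = y}

theorem mem_mpow_of_map {𝔪 : Ideal AA} {i j : ℕ} (f : LL →+ LL)
    (hf : ∀ x ∈ 𝔪 ^ i, ∀ z, f (act x z) ∈ mpow 𝔪 j) {y : LL} (hy : y ∈ mpow 𝔪 i) :
    f y ∈ mpow 𝔪 j := by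
  have : mpow 𝔪 i ≤ (mpow 𝔪 j).comap f := by
    refine (AddSubgroup.closure_le _).2 ?_
    rintro _ ⟨x, hx, z, rfl⟩
    exact hf x hx z
  exact this hy

theorem map_mem_mpow {𝔪 : Ideal AA} {j : ℕ} (f : Module.End ℤ_[p] LL)
    (hf : ∀ x, f * act x = act x * f) {y : LL} (hy : y ∈ mpow 𝔪 j) : f y ∈ mpow 𝔪 j :=
  mem_mpow_of_map f.toAddMonoidHom (fun x hx z => AddSubgroup.subset_closure
    ⟨x, hx, f z, (LinearMap.congr_fun (hf x) z).symm⟩) hy

theorem act_mem_mpow_succ {𝔪 : Ideal AA} {j : ℕ} {w : AA} (hw : w ∈ 𝔪) {y : LL}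
    (hy : y ∈ mpow 𝔪 j) : act w y ∈ mpow 𝔪 (j + 1) :=
  mem_mpow_of_map (act w).toAddMonoidHom (fun x hx z => AddSubgroup.subset_closure
    ⟨w * x, pow_succ' 𝔪 j ▸ Ideal.mul_mem_mul hw hx, z, by
      rw [map_mul]; rfl⟩) hy

variable {A : ValuationSubring QA} (hA : A.LiesOverPrime p) (hpM : ¬ p ∣ M)
  [IsAlgClosed (ResidueField A)] [CharP (ResidueField A) p]
  [Curves.IsFunctionField (ResidueField A) (modularFunctionFieldFullC (ResidueField A) M)]

set_option maxHeartbeats 2000000 in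
include hpS hNS hA hpM in
/-- **The core.** -/
theorem projector_inertia_eq_zero (hp3 : 3 ≤ p)
    (hsm : (modularModel (π := residue A) residue_surjective M
      (natCast_ne_zero hpM (ResidueField A))).Smooth)
    {𝔪 : Ideal AA} {e u l₁ l₂ : AA} {σ₀ : GG} (hσ₀ : σ₀ ∈ A.inertiaSubgroupIn ℚ)
    (hs : SplitData e u l₁ l₂ (trS (M * p) p S hpS hNS σ₀) (detS (M * p) p S σ₀))
    (hunit : ∀ c, c ∉ 𝔪 → ∃ c', c * c' * e = e)
    (hnil : ∃ n, ∀ x ∈ 𝔪 ^ n, ∃ y, x * e = (p : AA) * y)
    (hl1 : l₁ - 1 ∈ 𝔪) {ζ : QA} (hζ : IsPrimitiveRoot ζ p) {a : ℕ} (ha : a < p)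
    (hσζ : σ₀ ζ = ζ ^ a) (ha1 : (a : AA) - 1 ∉ 𝔪)
    (hdiag : ∀ σ ∈ A.inertiaSubgroupIn ℚ,
      tp (trS (M * p) p S hpS hNS) σ₀ (-(e * u * l₂)) (e * u) σ - 1 ∈ 𝔪)
    (hoff : ∀ σ ∈ A.inertiaSubgroupIn ℚ, ∃ w ∈ 𝔪, ∃ g' : GG,
      proj act (gal (M * p) p) σ₀ (-(e * u * l₂)) (e * u) * gal (M * p) p σ *
          (act e - proj act (gal (M * p) p) σ₀ (-(e * u * l₂)) (e * u)) =
        act w * (proj act (gal (M * p) p) σ₀ (-(e * u * l₂)) (e * u) * gal (M * p) p g' *
          (act e - proj act (gal (M * p) p) σ₀ (-(e * u * l₂)) (e * u))))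
    {τ : GG} (hτ : τ ∈ A.inertiaSubgroupIn ℚ) :
    proj act (gal (M * p) p) σ₀ (-(e * u * l₂)) (e * u) * (gal (M * p) p τ - 1) = 0 := by
  classical
  have hT : TraceData (act).toRingHom (gal (M * p) p) (trS (M * p) p S hpS hNS)
      (detS (M * p) p S) :=
    ⟨fun x σ => LinearMap.ext (gal_actL (M * p) p S σ x), fun σ => actL_trS _ _ _ hpS hNS σ,
      detS_mul _ _ _⟩
  set g := gal (M * p) p
  set X := proj act g σ₀ (-(e * u * l₂)) (e * u) with hX
  set Y := act e - X with hY
  have hXX : X * X = X := hT.projector_mul_self hs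
  have heX : act e * X = X := phi_mul_projector (g := g) hs
  have hqX : g σ₀ * X = act l₁ * X := hT.map_mul_projector hs
  have hsand : ∀ σ, X * g σ * X =
      act (tp (trS (M * p) p S hpS hNS) σ₀ (-(e * u * l₂)) (e * u) σ) * X := fun σ =>
    hT.sandwich hXX (by rw [hs.two_mul_add]; exact heX) σ
  have hcX : ∀ x, X * act x = act x * X := fun x => hT.proj_comm σ₀ x _ _
  have hcg : ∀ σ x, g σ * act x = act x * g σ := fun σ x => hT.comm x σ
  have hcY : ∀ x, Y * act x = act x * Y := fun x => by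
    rw [hY, sub_mul, mul_sub, hcX, ← map_mul, ← map_mul, mul_comm e x]
  have hXe : X * act e = X := by rw [hcX, heX]
  have hXY : X * Y = 0 := by rw [hY, mul_sub, hXe, hXX, sub_self]
  have hp : p.Prime := Fact.out
  by_contra hne
  obtain ⟨z, hz⟩ := DFunLike.ne_iff.1 hne
  set w₀ := (X * (g τ - 1)) z with hw₀
  -- divide by the exact power of `p`
  obtain ⟨n, hn⟩ : ∃ n, ¬ ∀ i, (p : ℤ_[p]) ^ n ∣ w₀ i := by
    by_contra hall
    push Not at hall
    exact hz (Mazur.Tate.eq_zero_of_lev (M * p) p fun k =>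
      (Mazur.Tate.lev_eq_zero_iff (M * p) p).2 (hall k))
  obtain ⟨b, hb, hb1⟩ : ∃ b, (∀ i, (p : ℤ_[p]) ^ b ∣ w₀ i) ∧
      ¬ ∀ i, (p : ℤ_[p]) ^ (b + 1) ∣ w₀ i := by
    have hex : ∃ n, ¬ ∀ i, (p : ℤ_[p]) ^ n ∣ w₀ i := ⟨n, hn⟩
    refine ⟨Nat.find hex - 1, ?_, ?_⟩
    · rcases Nat.eq_zero_or_pos (Nat.find hex) with h0 | h0
      · exact absurd (fun i => by rw [h0, pow_zero]; exact one_dvd _) (Nat.find_spec hex)
      · exact not_not.1 (Nat.find_min hex (Nat.sub_one_lt (by omega)))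
    · rcases Nat.eq_zero_or_pos (Nat.find hex) with h0 | h0
      · exact absurd (fun i => by rw [h0, pow_zero]; exact one_dvd _) (Nat.find_spec hex)
      · rw [Nat.sub_add_cancel h0]; exact Nat.find_spec hex
  choose v hv using hb
  have hwv : w₀ = (p : ℤ_[p]) ^ b • v := funext fun i => by rw [hv i]; rfl
  have hpb : ((p : ℤ_[p]) ^ b) ≠ 0 := pow_ne_zero _ (Nat.cast_ne_zero.2 hp.ne_zero)
  have hXv : X v = v := by
    refine smul_right_injective LL hpb ?_
    show (p : ℤ_[p]) ^ b • X v = (p : ℤ_[p]) ^ b • v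
    rw [← map_smul, ← hwv, hw₀, ← Module.End.mul_apply, ← mul_assoc, hXX]
  have hev : act e v = v := by rw [← hXv, ← Module.End.mul_apply, heX]
  have hvp : ∀ y : LL, v ≠ (p : ℤ_[p]) • y := fun y hy => hb1 fun i => ⟨y i, by
    rw [hv i, hy, Pi.smul_apply, smul_eq_mul, pow_succ, mul_assoc]⟩
  -- the class at level one is a combination of images of inertia minus one
  set τ' := σ₀ * τ * σ₀⁻¹ with hτ'
  have hτ'm : τ' ∈ A.inertiaSubgroupIn ℚ := conj_mem_inertia hσ₀ hτ
  obtain ⟨z₁, z₂, hwz⟩ : ∃ z₁ z₂ : LL, w₀ = (g τ z₁ - z₁) + (g τ' z₂ - z₂) := by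
    refine ⟨act (-(e * u * l₂)) z, act (e * u) (g σ₀ z), ?_⟩
    have h1 : X * (g τ - 1) = (g τ - 1) * act (-(e * u * l₂)) +
        (g τ' - 1) * (act (e * u) * g σ₀) := by
      rw [hX, proj, add_mul, sub_mul (g τ) 1, one_mul, hcg, sub_mul (g τ') 1, one_mul,
        ← mul_assoc (g τ'), hcg, mul_assoc _ (g τ'), ← map_mul g, hτ', inv_mul_cancel_right,
        map_mul g, mul_sub, mul_one, mul_sub, mul_one, mul_assoc]
      simp only [RingHom.coe_coe, mul_assoc]
    have h2 := LinearMap.congr_fun h1 z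
    rw [hw₀, h2]
    rfl
  set y := lev (M * p) p 1 v with hy
  have hyw : y = lev (M * p) p (b + 1) (g τ z₁ - z₁) + lev (M * p) p (b + 1) (g τ' z₂ - z₂) := by
    rw [← map_add, ← hwz, hwv, ← Nat.cast_pow, Nat.cast_smul_eq_nsmul, map_nsmul, hy, add_comm b 1,
      Mazur.Tate.nsmul_pow_lev]
  have hy0 : y ∈ deepAt hA hpM p := by
    refine mem_deepAt_prime hA hpM (a := b) ?_ (by
      have := Mazur.Tate.nsmul_lev (M * p) p 1 v
      rwa [pow_one] at this)
    rw [hyw, map_sub, map_sub, Mazur.Tate.lev_gal, Mazur.Tate.lev_gal]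
    exact add_mem (inertia_sub_mem_deepAt hA hpM hτ (Mazur.Tate.nsmul_lev _ _ _ _))
      (inertia_sub_mem_deepAt hA hpM hτ'm (Mazur.Tate.nsmul_lev _ _ _ _))
  -- both push forwards vanish
  have hpush : ∀ φ : modularFunctionFieldBar M →ₐ[QA] modularFunctionFieldBar (M * p),
      (∀ (σ : GG) (x : modularFunctionFieldBar M),
        φ (arithmeticGalois (modularFunctionFieldFull M) σ • x) =
          arithmeticGalois (modularFunctionFieldFull (M * p)) σ • φ x) →
      pushPic M p φ y = 0 := by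
    intro φ hφ
    set K := (pushLev (M := M) (p := p) φ).ker with hK
    have hKact : ∀ x, ∀ k ∈ K, act x k ∈ K := fun x k hk => pushLev_actL hpS hNS hφ hk x
    have hKg : ∀ σ, ∀ k ∈ K, g σ k ∈ K := fun σ k hk => by
      rw [hK, AddMonoidHom.mem_ker] at hk ⊢
      rw [pushLev_gal hφ, hk, smul_zero]
    have hKX : ∀ k ∈ K, X k ∈ K := fun k hk => by
      rw [hX, proj, LinearMap.add_apply, Module.End.mul_apply]
      exact add_mem (hKact _ _ hk) (hKact _ _ (hKg _ _ hk))
    have hKY : ∀ k ∈ K, Y k ∈ K := fun k hk => sub_mem (hKact _ _ hk) (hKX k hk)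
    by_contra hvK
    have hv0 : v ∉ K := hvK
    -- the largest `j` with `v ∈ 𝔪 ^ j Λ + K`
    let F : ℕ → AddSubgroup LL := fun j => mpow 𝔪 j ⊔ K
    have hF0 : v ∈ F 0 := AddSubgroup.mem_sup_left (AddSubgroup.subset_closure
      ⟨1, by simp, v, by rw [map_one]; rfl⟩)
    obtain ⟨N, hN⟩ := hnil
    have hFN : v ∉ F N := fun hmem => hv0 (by
      obtain ⟨m, hm, k, hk, hmk⟩ := AddSubgroup.mem_sup.1 hmem
      have hEm : act e m ∈ K := by
        have : mpow 𝔪 N ≤ K.comap (act e).toAddMonoidHom := by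
          refine (AddSubgroup.closure_le _).2 ?_
          rintro _ ⟨x, hx, z, rfl⟩
          obtain ⟨c, hc⟩ := hN x hx
          show act e (act x z) ∈ K
          rw [← Module.End.mul_apply, ← map_mul, mul_comm e x, hc, map_mul, map_natCast,
            Module.End.mul_apply, Module.End.natCast_apply, hK, AddMonoidHom.mem_ker]
          show pushPic M p φ (lev (M * p) p 1 (p • act c z)) = 0
          rw [map_nsmul (lev (M * p) p 1)]
          have := Mazur.Tate.nsmul_lev (M * p) p 1 (act c z)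
          rw [pow_one] at this
          rw [this, map_zero]
        exact this hm
      rw [← hev, ← hmk, map_add]
      exact add_mem hEm (hKact _ _ hk))
    obtain ⟨j, hj, hj1⟩ : ∃ j, v ∈ F j ∧ v ∉ F (j + 1) := by
      by_contra hall
      push Not at hall
      exact hFN (Nat.rec hF0 (fun j h => hall j h) N)
    let L₀ : AddSubgroup LL := mpow 𝔪 (j + 1) ⊔ K ⊔ (mpow 𝔪 j).map Y.toAddMonoidHom
    have hL₀g : ∀ σ ∈ A.inertiaSubgroupIn ℚ, ∀ l ∈ L₀, g σ l ∈ L₀ := by
      intro σ hσ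
      obtain ⟨w, hw, g', hwg⟩ := hoff σ hσ
      have hA : L₀ ≤ L₀.comap (g σ).toAddMonoidHom := by
        refine sup_le (sup_le (fun m hm => ?_) fun k hk => ?_) ?_
        · exact AddSubgroup.mem_sup_left (AddSubgroup.mem_sup_left
            (map_mem_mpow (g σ) (hcg σ) hm))
        · exact AddSubgroup.mem_sup_left (AddSubgroup.mem_sup_right (hKg σ k hk))
        · rintro _ ⟨m, hm, rfl⟩
          have e1 : g σ * Y = X * g σ * Y + Y * g σ * Y := by
            rw [← add_mul, ← add_mul, hY, add_sub_cancel, ← hcg, mul_assoc]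
            congr 1
            rw [mul_sub, heX, ← map_mul, hs.idem]
          show g σ (Y m) ∈ L₀
          rw [← Module.End.mul_apply, e1, LinearMap.add_apply, hwg]
          refine add_mem (AddSubgroup.mem_sup_left (AddSubgroup.mem_sup_left ?_))
            (AddSubgroup.mem_sup_right ⟨g σ (Y m), ?_, rfl⟩)
          · refine act_mem_mpow_succ hw (map_mem_mpow (X * g g' * Y) (fun x => ?_) hm)
            rw [mul_assoc _ Y, hcY, ← mul_assoc, mul_assoc X, hcg, ← mul_assoc X, hcX, mul_assoc,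
              mul_assoc, mul_assoc]
          · refine map_mem_mpow (g σ) (hcg σ) (map_mem_mpow Y hcY hm)
      exact fun l hl => hA hl
    -- a Hopf order on the torsion of the lower level
    obtain ⟨O'⟩ := FlatModel.exists_hopfOrder_jZero (ℓ := p) M hpM hA (b + 1)
    letI := FlatModel.torsionByAction M ((p : ℤ) ^ (b + 1))
    haveI : Finite (Submodule.torsionBy ℤ (JZero M) ((p : ℤ) ^ (b + 1))) := by
      haveI : NeZero (p ^ (b + 1)) := ⟨pow_ne_zero _ hp.ne_zero⟩
      haveI := EigenReps.finite_torsion M (p ^ (b + 1))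
      exact Finite.of_injective (β := Pic0.torsion QA (modularFunctionFieldBar M) (p ^ (b + 1)))
        (fun y => ⟨(y : JZero M), (EigenReps.mem_torsion_iff_nsmul M).2 (by
          have := (Submodule.mem_torsionBy_iff _ _).1 y.2
          rw [← natCast_zsmul]; push_cast
          exact this)⟩)
        fun y₁ y₂ h => Subtype.ext (congrArg Subtype.val h :)
    have hmem : ∀ z : LL, pushPic M p φ (lev (M * p) p (b + 1) z) ∈
        Submodule.torsionBy ℤ (JZero M) ((p : ℤ) ^ (b + 1)) := fun z => by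
      rw [Submodule.mem_torsionBy_iff, ← Nat.cast_pow, natCast_zsmul, ← map_nsmul,
        Mazur.Tate.nsmul_lev, map_zero]
    let ι : LL →+ Submodule.torsionBy ℤ (JZero M) ((p : ℤ) ^ (b + 1)) :=
      { toFun := fun z => ⟨_, hmem z⟩
        map_zero' := Subtype.ext (by simp)
        map_add' := fun z z' => Subtype.ext (by simp) }
    have hι : ∀ σ z, ι (g σ z) = σ • ι z := fun σ z => Subtype.ext (by
      show pushPic M p φ (lev (M * p) p (b + 1) (g σ z)) = σ • _
      rw [Mazur.Tate.lev_gal, pushPic_gal hφ]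
      rfl)
    let ι₁ : LL →+ Submodule.torsionBy ℤ (JZero M) ((p : ℤ) ^ (b + 1)) := p ^ b • ι
    have hι₁ : ∀ z, (ι₁ z : JZero M) = pushLev φ z := fun z => by
      show p ^ b • pushPic M p φ (lev (M * p) p (b + 1) z) = _
      rw [← map_nsmul, add_comm b 1, Mazur.Tate.nsmul_pow_lev]
      rfl
    have hι₁g : ∀ σ z, ι₁ (g σ z) = σ • ι₁ z := fun σ z => Subtype.ext (by
      show (ι₁ (g σ z) : JZero M) = σ • (ι₁ z : JZero M)
      rw [hι₁, hι₁, pushLev_gal hφ])
    have hxconn : ι₁ v ∈ conn hA O' := by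
      have e : ι₁ v = ι w₀ := by
        show p ^ b • ι v = ι w₀
        rw [← map_nsmul ι, hwv]
        exact congrArg ι ((Nat.cast_smul_eq_nsmul ℤ_[p] _ v).symm.trans (by rw [Nat.cast_pow]))
      rw [e, hwz, map_add, map_sub, map_sub, hι, hι]
      exact add_mem (inertia_sub_mem_conn hA O' hτ _) (inertia_sub_mem_conn hA O' hτ'm _)
    have hfix : ∀ σ ∈ A.inertiaSubgroupIn ℚ, g σ v - v ∈ L₀ := by
      intro σ hσ
      obtain ⟨m, hm, k, hk, hmk⟩ := AddSubgroup.mem_sup.1 hj
      have hge : g σ v = X (g σ v) + Y (g σ v) := by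
        rw [← LinearMap.add_apply, hY, add_sub_cancel, ← Module.End.mul_apply, ← hcg,
          Module.End.mul_apply, hev]
      have hXg : X (g σ v) - v =
          act (tp (trS (M * p) p S hpS hNS) σ₀ (-(e * u * l₂)) (e * u) σ - 1) v := by
        rw [map_sub, map_one, LinearMap.sub_apply, Module.End.one_apply, sub_left_inj]
        conv_lhs => rw [← hXv]
        rw [← Module.End.mul_apply, ← Module.End.mul_apply, hsand, Module.End.mul_apply, hXv]
      rw [hge, add_sub_right_comm, hXg]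
      refine add_mem ?_ ?_
      · rw [← hmk, map_add]
        exact add_mem
          (AddSubgroup.mem_sup_left (AddSubgroup.mem_sup_left
            (act_mem_mpow_succ (hdiag σ hσ) hm)))
          (AddSubgroup.mem_sup_left (AddSubgroup.mem_sup_right (hKact _ _ hk)))
      · rw [← hmk, map_add, map_add]
        exact add_mem (AddSubgroup.mem_sup_right ⟨g σ m, map_mem_mpow (g σ) (hcg σ) hm, rfl⟩)
          (AddSubgroup.mem_sup_left (AddSubgroup.mem_sup_right (hKY _ (hKg σ k hk))))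
    have hx : ι₁ v ∈ L₀.map ι₁ := by
      refine mem_of_conn hA O' hp3 ?_ hxconn (fun σ hσ => ⟨g σ v - v, hfix σ hσ, by
        rw [map_sub, hι₁g]⟩) ?_
      · rintro σ hσ _ ⟨l, hl, rfl⟩
        exact ⟨g σ l, hL₀g σ hσ l hl, hι₁g σ l⟩
      · have h0 : p • ι₁ v = 0 := Subtype.ext (by
          show p • (ι₁ v : JZero M) = 0
          rw [hι₁, pushLev, AddMonoidHom.comp_apply, ← map_nsmul]
          have := Mazur.Tate.nsmul_lev (M * p) p 1 v
          rw [pow_one] at this
          rw [this, map_zero])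
        rw [h0]
        exact zero_mem _
    obtain ⟨l, hl, hlv⟩ := hx
    have hvl : v - l ∈ K := by
      rw [hK, AddMonoidHom.mem_ker, map_sub, ← hι₁, ← hι₁, hlv, sub_self]
    refine hj1 ?_
    have hXl : X l ∈ F (j + 1) := by
      have : L₀ ≤ (F (j + 1)).comap X.toAddMonoidHom := by
        refine sup_le (sup_le (fun m hm => ?_) fun k hk => ?_) ?_
        · exact AddSubgroup.mem_sup_left (map_mem_mpow X hcX hm)
        · exact AddSubgroup.mem_sup_right (hKX k hk)
        · rintro _ ⟨m, -, rfl⟩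
          show X (Y m) ∈ F (j + 1)
          rw [← Module.End.mul_apply, hXY]
          exact zero_mem _
      exact this hl
    rw [← hXv, show X v = X (v - l) + X l by rw [map_sub, sub_add_cancel]]
    exact add_mem (AddSubgroup.mem_sup_right (hKX _ hvl)) hXl
  -- so `σ₀` is the scalar `a` on `v` modulo `p`
  have hscal := inertia_smul_eq_of_deep hA hpM hsm hζ hy0
    (hpush _ fun σ x => alpha_compat M p σ x) (hpush _ fun σ x => beta_compat M p σ x) hσ₀ ha hσζ
  have hq : g σ₀ v = act l₁ v := by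
    rw [← hXv, ← Module.End.mul_apply, hqX, Module.End.mul_apply]
  have hmem : ∀ i, (p : ℤ_[p]) ∣ (act (l₁ - (a : AA)) v) i := fun i => by
    have h : lev (M * p) p 1 (act (l₁ - (a : AA)) v) = 0 := by
      rw [map_sub, LinearMap.sub_apply, ← hq, map_natCast, Module.End.natCast_apply, map_sub,
        map_nsmul, Mazur.Tate.lev_gal, ← hy, hscal, sub_self]
    simpa using (Mazur.Tate.lev_eq_zero_iff (M * p) p).1 h i
  choose y' hy' using hmem
  have hy'' : act (l₁ - (a : AA)) v = (p : ℤ_[p]) • y' := funext hy'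
  have hnot : l₁ - (a : AA) ∉ 𝔪 := fun h => ha1 (by
    convert sub_mem hl1 h using 1
    ring)
  obtain ⟨c', hc'⟩ := hunit _ hnot
  refine hvp (act (c' * e) y') ?_
  rw [← map_smul, ← hy'', ← Module.End.mul_apply, ← map_mul,
    show c' * e * (l₁ - (a : AA)) = e by linear_combination hc', hev]

end FLTAgent.Ordinary
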