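import Fermat.Agent.BadRed.Linear

/-!
# Orthonormal bases adapted to part of the reduction
-/

set_option autoImplicit false
set_option linter.style.haveILetI false

noncomputable section

namespace FLTAgent.BadRed.LRed

open FLTAgent.Specialization

variable {L k : Type*} [Field L] [Field k] {A : ValuationSubring L} {π : A →+* k}
  {E W : Type*} [AddCommGroup E] [Module L E] [AddCommGroup W] [Module k W] {R : LRed π E W}

/-- A family with independent reductions extends to a basis by lifts of a complement. -/
theorem exists_adapted (hO : R.Orth) (hπ : Function.Surjective π) (U : Submodule L E)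
    [FiniteDimensional L U] {ι : Type*} [Fintype ι] {v : ι → E} {w : ι → W} (hv : ∀ i, v i ∈ U)
    (hvw : ∀ i, R.Res (v i) (w i)) (hw : LinearIndependent k w) :
    ∃ (n : ℕ) (c : Fin n → E) (cb : Fin n → W), (∀ j, c j ∈ U) ∧ (∀ j, R.Res (c j) (cb j)) ∧
      LinearIndependent k (Sum.elim w cb) ∧ Submodule.span L (Set.range (Sum.elim v c)) = U ∧
      Disjoint (Submodule.span k (Set.range w)) (Submodule.span k (Set.range cb)) := by
  classical
  haveI := finiteDimensional_image hO hπ U
  set U₁ := Submodule.span k (Set.range w)
  have hle : U₁ ≤ R.image U :=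
    Submodule.span_le.2 (by rintro _ ⟨i, rfl⟩; exact mem_image_of_res (hv i) (hvw i))
  obtain ⟨Q, hQ⟩ := exists_isCompl U₁
  set C : Submodule k W := Q ⊓ R.image U
  haveI : FiniteDimensional k C := Submodule.finiteDimensional_of_le inf_le_right
  haveI : FiniteDimensional k U₁ := FiniteDimensional.span_of_finite k (Set.finite_range w)
  have hsup : U₁ ⊔ C = R.image U := by
    rw [← sup_inf_assoc_of_le Q hle, hQ.sup_eq_top, top_inf_eq]
  have hdisj : Disjoint U₁ C := hQ.disjoint.mono_right inf_le_left
  let b := Module.finBasis k C
  have hb : ∀ j, (b j : W) ∈ R.image U := fun j => (b j).2.2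
  choose c hc hcr using fun j => (mem_image hπ).1 (hb j)
  have hbind : LinearIndependent k fun j => (b j : W) :=
    b.linearIndependent.map' C.subtype (Submodule.ker_subtype _)
  have hbspan : Submodule.span k (Set.range fun j => (b j : W)) ≤ C :=
    Submodule.span_le.2 (by rintro _ ⟨j, rfl⟩; exact (b j).2)
  have hind : LinearIndependent k (Sum.elim w fun j => (b j : W)) :=
    hw.sum_type hbind (hdisj.mono_right hbspan)
  refine ⟨_, c, fun j => (b j : W), hc, hcr, hind, ?_, hdisj.mono_right hbspan⟩
  refine span_eq_of_card (R := R) (v := Sum.elim v c) (w := Sum.elim w fun j => (b j : W)) hπ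
    (fun i => ?_) (fun i => ?_) hind ?_
  · rcases i with i | i
    exacts [hv i, hc i]
  · rcases i with i | i
    exacts [hvw i, hcr i]
  · have := Submodule.finrank_sup_add_finrank_inf_eq U₁ C
    rw [hsup, hdisj.eq_bot, finrank_bot, finrank_image hO hπ, finrank_span_eq_card hw] at this
    rw [Fintype.card_sum, Fintype.card_fin]
    omega

end FLTAgent.BadRed.LRed
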