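import Fermat.Agent.BadRed.Norm
import Mathlib

/-!
# The linear term of the norm of a function congruent to `1`

If the norm of `1 + τ Z` is a `p`-th power and `|τ|` exceeds `|p| ^ (p / (p - 1))`, the reduction
of `Z` on the first sheet is a `p`-th power.
-/

set_option autoImplicit false
set_option linter.style.haveILetI false
set_option linter.unusedSectionVars false

noncomputable section

namespace FLTAgent.Ordinary

open AlgebraicCurve FLTAgent.Curves FLTAgent.Specialization FLTAgent.BadRed Matrix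

variable {L k : Type*} [Field L] [Field k] {A : ValuationSubring L}

/-- A constant of the absolute value of `p ^ (1 / (p - 1))`. -/
structure CritScale (π : A →+* k) (p : ℕ) where
  s : A
  s_res : π s = 0
  s_ne : (s : L) ≠ 0
  ε : A
  ε_res : π ε ≠ 0
  eq : (p : L) = (s : L) ^ (p - 1) * ε

variable {π : A →+* k} {p : ℕ}

/-- If a `p`-th power is `1 + τ W` with `|τ|` above the critical value, the reduction of `W` is a
`p`-th power. -/
theorem exists_pow_of_root {E Eb : Type*} [Field E] [Field Eb] [Algebra L E] [Algebra k Eb]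
    {R : Reduction π E Eb} (hT : R.Total) (hπ : Function.Surjective π) [hp : Fact p.Prime]
    [IsAlgClosed L] (c : CritScale π p) {τ δ : A} (hδ : π δ = 0)
    (hδτ : (c.s : L) ^ p = τ * δ) {G W : E} {w : Eb} (hW : R.Res W w)
    (hG : G ^ p = 1 + (τ : L) • W) : ∃ y : Eb, y ^ p = w := by
  classical
  have hp1 : 1 < p := hp.out.one_lt
  obtain ⟨σ₀, hσ⟩ := IsAlgClosed.exists_pow_nat_eq (τ : L) (show 0 < p by omega)
  have hτ0 : (τ : L) ≠ 0 := fun h => c.s_ne (pow_eq_zero_iff (show p ≠ 0 by omega) |>.1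
    (by rw [hδτ, h, zero_mul]))
  have hσ0 : σ₀ ≠ 0 := fun h => hτ0 (by rw [← hσ, h, zero_pow (by omega)])
  have hmem : ∀ x : L, x ^ p ∈ A → x ∈ A := fun x hx => by
    by_contra hn
    have hinv : x⁻¹ ∈ A := (A.mem_or_inv_mem x).resolve_left hn
    have h0 : π ⟨x⁻¹, hinv⟩ = 0 := Reduction.map_eq_zero_of_inv_notMem hπ (by simpa)
    have hx0 : x ≠ 0 := fun h => hn (h ▸ A.zero_mem)
    have h1 : (⟨x⁻¹, hinv⟩ : A) ^ p * ⟨x ^ p, hx⟩ = 1 :=
      Subtype.ext (by push_cast; rw [← mul_pow, inv_mul_cancel₀ hx0, one_pow])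
    have := congrArg π h1
    rw [map_mul, map_pow, h0, zero_pow (by omega), zero_mul, map_one] at this
    exact zero_ne_one this
  have hσA : σ₀ ∈ A := hmem _ (hσ ▸ τ.2)
  have hηp : ((c.s : L) / σ₀) ^ p = δ := by
    rw [div_pow, hσ, hδτ, mul_div_cancel_left₀ _ hτ0]
  have hηA : (c.s : L) / σ₀ ∈ A := hmem _ (hηp ▸ δ.2)
  have hη : π ⟨_, hηA⟩ = 0 := by
    have h1 : (⟨_, hηA⟩ : A) ^ p = δ := Subtype.ext (by push_cast; exact hηp)
    have := congrArg π h1
    rw [map_pow, hδ] at this
    exact pow_eq_zero_iff (by omega) |>.1 this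
  set D := σ₀⁻¹ • (G - 1) with hD
  have hGD : G = σ₀ • D + 1 := by
    rw [hD, smul_smul, mul_inv_cancel₀ hσ0, one_smul, sub_add_cancel]
  let a : ℕ → A := fun i =>
    ((p.choose i / p : ℕ) : A) * c.ε * ⟨_, hηA⟩ ^ (p - 1) * ⟨σ₀, hσA⟩ ^ (i - 1)
  have ha0 : ∀ i, π (a i) = 0 := fun i => by
    simp only [a, map_mul, map_pow, hη, zero_pow (show p - 1 ≠ 0 by omega), mul_zero, zero_mul]
  have hcoef : ∀ i ∈ Finset.Ico 1 p,
      (τ : L)⁻¹ * (σ₀ ^ i * (p.choose i : L)) = (a i : L) := by
    intro i hi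
    rw [Finset.mem_Ico] at hi
    obtain ⟨m, hm⟩ := hp.out.dvd_choose_self (k := i) (by omega) hi.2
    simp only [a, hm, Nat.mul_div_cancel_left _ (show 0 < p by omega)]
    push_cast
    rw [c.eq, ← hσ, div_pow]
    obtain ⟨j, rfl⟩ : ∃ j, i = j + 1 := ⟨i - 1, by omega⟩
    obtain ⟨r, hr⟩ : ∃ r, p = r + 1 := ⟨p - 1, by omega⟩
    simp only [hr, add_tsub_cancel_right, pow_succ]
    field_simp
  have hsum : W = D ^ p + ∑ i ∈ Finset.Ico 1 p, (a i : L) • D ^ i := by
    have h1 : (τ : L) • W = G ^ p - 1 := by rw [hG, add_sub_cancel_left]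
    have h2 : W = (τ : L)⁻¹ • (G ^ p - 1) := by
      rw [← h1, smul_smul, inv_mul_cancel₀ hτ0, one_smul]
    rw [h2, hGD, add_pow, Finset.sum_range_succ, Finset.range_eq_Ico,
      Finset.sum_eq_sum_Ico_succ_bot (show 0 < p by omega)]
    simp only [one_pow, mul_one, pow_zero, Nat.choose_zero_right, Nat.choose_self, Nat.cast_one,
      zero_add]
    rw [show ∀ a b : E, 1 + a + b - 1 = b + a from fun a b => by ring, smul_add, Finset.smul_sum,
      _root_.smul_pow, smul_smul, hσ, inv_mul_cancel₀ hτ0, one_smul]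
    congr 1
    refine Finset.sum_congr rfl fun i hi => ?_
    rw [← hcoef i hi, _root_.smul_pow, mul_comm (σ₀ ^ i • D ^ i), ← map_natCast (algebraMap L E),
      ← Algebra.smul_def, smul_smul, smul_smul]
    congr 1
    ring
  have hDO : D ∈ R.O := by
    rcases hT D with h | h
    · exact h
    rcases eq_or_ne D 0 with hD0 | hD0
    · rw [hD0]; exact zero_mem _
    exfalso
    have hh : R.Res (W * D⁻¹ ^ p) 1 := by
      rw [hsum, add_mul, ← mul_pow, mul_inv_cancel₀ hD0, one_pow, Finset.sum_mul]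
      have h3 : R.Res (∑ i ∈ Finset.Ico 1 p, (a i : L) • D ^ i * D⁻¹ ^ p) 0 := by
        have := Reduction.Res.sum (R := R) (s := Finset.Ico 1 p)
          (a := fun i => (a i : L) • (D⁻¹ ^ (p - i))) (b := fun i => π (a i) • (0 : Eb) ^ (p - i))
          fun i _ => (h.pow _).smul _
        simp only [ha0, zero_smul, Finset.sum_const_zero] at this
        convert this using 1
        refine Finset.sum_congr rfl fun i hi => ?_
        rw [smul_mul_assoc, inv_pow, inv_pow, pow_sub₀ D hD0 (Finset.mem_Ico.1 hi).2.le, mul_inv,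
          inv_inv, mul_comm]
      simpa using R.res_one.add h3
    have h4 := hW.mul (h.pow p)
    rw [zero_pow (show p ≠ 0 by omega), mul_zero] at h4
    exact one_ne_zero (hh.unique h4)
  obtain ⟨d, hd⟩ := R.exists_res_of_mem hDO
  refine ⟨d, ?_⟩
  have h3 : R.Res (∑ i ∈ Finset.Ico 1 p, (a i : L) • D ^ i) 0 := by
    have := Reduction.Res.sum (R := R) (s := Finset.Ico 1 p)
      (a := fun i => (a i : L) • D ^ i) (b := fun i => π (a i) • d ^ i)
      fun i _ => (hd.pow _).smul _
    simpa [ha0] using this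
  have h5 := (hd.pow p).add h3
  rw [← hsum, add_zero] at h5
  exact h5.unique hW

variable {FC Fb F : Type*} [Field FC] [Field Fb] [Field F] [Algebra L FC]
  [Algebra k Fb] [Algebra L F] [IsAlgClosed L] [IsFunctionField L FC] [IsFunctionField L F]
  [IsAlgClosed k] [IsFunctionField k Fb]

/-- A matrix with scalar `p`-th power has trace zero in characteristic `p`. -/
theorem trace_eq_zero_of_pow {K : Type*} [Field K] [hp : Fact p.Prime] [CharP K p]
    {B : Matrix (Fin p) (Fin p) K} {b : K} (hB : B ^ p = b • 1) : B.trace = 0 := by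
  let K' := AlgebraicClosure K
  let φ : K →+* K' := algebraMap K K'
  haveI : CharP K' p := charP_of_injective_algebraMap φ.injective p
  haveI : Nonempty (Fin p) := ⟨⟨0, hp.out.pos⟩⟩
  obtain ⟨l, hl⟩ := IsAlgClosed.exists_pow_nat_eq (φ b) hp.out.pos
  set B' := φ.mapMatrix B
  haveI : CharP (Matrix (Fin p) (Fin p) K') p := inferInstance
  have hnil : IsNilpotent (B' - l • (1 : Matrix (Fin p) (Fin p) K')) := by
    refine ⟨p, ?_⟩
    rw [sub_pow_char_of_commute _ ((Commute.one_right B').smul_right l), _root_.smul_pow, one_pow,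
      ← map_pow, hB, hl]
    ext i j
    simp [Matrix.one_apply, apply_ite φ]
  have h := (Matrix.isNilpotent_trace_of_isNilpotent hnil).eq_zero
  rw [trace_sub, trace_smul, trace_one, Fintype.card_fin, CharP.cast_eq_zero, smul_zero, sub_zero,
    show B'.trace = φ B.trace by simp [B', Matrix.trace]] at h
  exact φ.injective (h.trans (map_zero φ).symm)

variable (S : Sheet π FC Fb F p)

/-- The norm down along `α` of `1 + τ Z` to first order. -/
theorem exists_norm_linear [Fact p.Prime] [CharP k p] (hV : ∀ a : Fb, ∃ b, S.V b = a ^ p) {Z : F}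
    {zb : Fb × Fb} (h : (S.pair 1).Res Z zb) (τ : A) (hτ : π τ = 0) :
    ∃ W : FC, S.MC.Res W zb.1 ∧
      @Algebra.norm FC F _ _ (algebraAlong S.α) (1 + (τ : L) • Z) = 1 + (τ : L) • W := by
  classical
  obtain ⟨v, hv, -⟩ := S.exists_col_family (d := (1 : L)) one_ne_zero
  letI := algebraAlong S.α
  haveI := isScalarTower_along S.α
  haveI : Module.Finite FC F := Kronecker.moduleFinite_of_functionField L
  have hsmul : ∀ (a : FC) (y : F), a • y = S.α a * y := fun a y => rfl
  have hli : LinearIndependent FC v := by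
    rw [Fintype.linearIndependent_iff]
    intro a ha
    by_contra hne
    have hne' : a ≠ 0 := fun h => hne fun z => congrFun h z
    obtain ⟨s, c, -, hc, hres⟩ := Sheet.col_scale hv hne'
    simp only [hsmul] at ha
    rw [ha, mul_zero] at hres
    exact hc ((S.pair 1).unique hres (S.pair 1).res_zero)
  have hcard : Fintype.card (Unit ⊕ Fin p) = Module.finrank FC F := by
    rw [show Module.finrank FC F = p + 1 from S.finrankAlong_α]
    simp [add_comm]
  let bas := basisOfLinearIndependentOfCardEqFinrank hli hcard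
  have hbas : ∀ z, bas z = v z := fun z => by simp [bas]
  set T := Algebra.leftMulMatrix bas Z
  have hsum : ∀ j, Z * v j = ∑ i, S.α (T i j) * v i := by
    intro j
    conv_lhs => rw [← hbas j, ← bas.sum_repr (Z * bas j)]
    refine Finset.sum_congr rfl fun i _ => ?_
    rw [hsmul, show bas.repr (Z * bas j) i = T i j from
      (Algebra.leftMulMatrix_eq_repr_mul bas Z i j).symm, hbas]
  have hres : ∀ j, (S.pair 1).Res (∑ i, S.α (T i j) * v i) (zb * S.colRed j) := fun j => by
    rw [← hsum]
    simpa using S.pair_mul h (hv j)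
  have hint : ∀ i j, T i j ∈ S.MC.O := fun i j => Sheet.col_coord hv (hres j) i
  let MO : Matrix (Unit ⊕ Fin p) (Unit ⊕ Fin p) S.MC.O :=
    Matrix.of fun i j => ⟨T i j, hint i j⟩
  let Mb := MO.map S.MC.red
  have hcol : ∀ j, S.colComb (fun i => Mb i j) = zb * S.colRed j := fun j =>
    (S.pair 1).unique (Sheet.colComb_res hv fun i => ⟨hint i j, rfl⟩) (hres j)
  have h11 : Mb (Sum.inl ()) (Sum.inl ()) = zb.1 := by
    simpa [Sheet.colComb, Sheet.colRed] using congrArg Prod.fst (hcol (Sum.inl ()))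
  let B := Mb.toBlocks₂₂
  have hB : ∀ i, ∑ l : Fin p, S.MC.xb ^ (l : ℕ) * S.V (B l i) = zb.2 * S.MC.xb ^ (i : ℕ) :=
    fun i => by
    simpa [Sheet.colComb, Sheet.colRed, B, Matrix.toBlocks₂₂] using
      congrArg Prod.snd (hcol (Sum.inr i))
  obtain ⟨b, hb⟩ := hV zb.2
  haveI : CharP Fb p := (Algebra.charP_iff k Fb p).1 inferInstance
  have htrB : B.trace = 0 := by
    refine trace_eq_zero_of_pow (b := b) ?_
    have hpow : ∀ (m : ℕ) i, ∑ l : Fin p, S.MC.xb ^ (l : ℕ) * S.V ((B ^ m) l i) =
        zb.2 ^ m * S.MC.xb ^ (i : ℕ) := by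
      intro m
      induction m with
      | zero =>
          intro i
          simp [Matrix.one_apply, apply_ite S.V, mul_ite, Finset.sum_ite_eq']
      | succ m ih =>
          intro i
          simp only [pow_succ B, Matrix.mul_apply, map_sum, map_mul, Finset.mul_sum]
          rw [Finset.sum_comm]
          simp only [← mul_assoc, ← Finset.sum_mul, ih]
          simp only [mul_assoc, ← Finset.mul_sum, hB]
          ring
    ext l i
    refine sub_eq_zero.1 (congrFun (S.indepV (fun l => (B ^ p) l i - (b • (1 : Matrix _ _ Fb)) l i)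
      ?_) l)
    simp only [map_sub, mul_sub, Finset.sum_sub_distrib, hpow, Matrix.smul_apply, smul_eq_mul,
      Matrix.one_apply, mul_ite, mul_one, mul_zero, apply_ite S.V, map_zero,
      Finset.sum_ite_eq', Finset.mem_univ, if_true, hb]
    ring
  have htr : Mb.trace = zb.1 := by
    rw [Matrix.trace, Fintype.sum_sum_type]
    simp only [Matrix.diag_apply, Finset.univ_unique, Finset.sum_singleton]
    rw [show Mb (Sum.inl default) (Sum.inl default) = zb.1 from h11,
      show ∑ i, Mb (Sum.inr i) (Sum.inr i) = B.trace from rfl, htrB, add_zero]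
  set τO : S.MC.O := ⟨algebraMap L FC τ, S.MC.algebraMap_mem τ⟩
  have hτO : S.MC.red τO = 0 := by
    rw [show S.MC.red τO = algebraMap k Fb (π τ) from S.MC.red_algebraMap τ, hτ, map_zero]
  have hdet := Matrix.det_one_add_smul τO MO
  set e := (det (1 + (Polynomial.X : Polynomial S.MC.O) • MO.map Polynomial.C)).divX.divX.eval τO
  set W : S.MC.O := MO.trace + e * τO
  refine ⟨(W : FC), ⟨W.2, ?_⟩, ?_⟩
  · show S.MC.red W = zb.1
    rw [map_add, map_mul, hτO, mul_zero, add_zero, ← htr]
    simp [Mb, Matrix.trace]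
  · rw [Algebra.norm_eq_matrix_det bas, map_add, map_one, show (τ : L) • Z = (τO : FC) • Z by
        rw [hsmul, AlgHom.commutes, ← Algebra.smul_def], map_smul]
    have hmap : (1 : Matrix (Unit ⊕ Fin p) (Unit ⊕ Fin p) FC) + (τO : FC) • T =
        (1 + τO • MO).map S.MC.O.subtype := by
      ext i j
      by_cases hij : i = j <;> simp [MO, hij]
    rw [hmap, ← RingHom.mapMatrix_apply, ← RingHom.map_det, hdet]
    simp only [W, map_add, map_one, map_mul, map_pow, Subring.coe_subtype, Subring.coe_add,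
      Subring.coe_mul, Algebra.smul_def]
    show _ = 1 + (τO : FC) * _
    ring

end FLTAgent.Ordinary
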