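import Fermat.Agent.BadRed.Linear
import Mathlib

/-!
# Homogeneous systems whose reduction is the Frobenius

A system of `r` forms of degree `p` in `r` variables with integral coefficients which reduces to
`Xᵢ ^ p` takes every integral value at an integral point.
-/

set_option autoImplicit false
set_option linter.style.haveILetI false

noncomputable section

open MvPolynomial

namespace FLTAgent.Ordinary

open FLTAgent.Specialization

theorem degree_of_homogeneous {R : Type*} [CommSemiring R] {ι : Type*} {P : MvPolynomial ι R}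
    {d : ℕ} (h : P.IsHomogeneous d) {μ : ι →₀ ℕ} (hμ : μ ∈ P.support) : μ.degree = d := by
  rw [Finsupp.degree_eq_weight_one]
  exact h (mem_support_iff.1 hμ)

theorem eval_smul_homogeneous {R : Type*} [CommRing R] {ι : Type*} {P : MvPolynomial ι R} {d : ℕ}
    (h : P.IsHomogeneous d) (s : R) (c : ι → R) :
    eval (fun i => s * c i) P = s ^ d * eval c P := by
  rw [eval_eq, eval_eq, Finset.mul_sum]
  refine Finset.sum_congr rfl fun μ hμ => ?_
  have hd : μ.degree = d := degree_of_homogeneous h hμ
  simp only [mul_pow, Finset.prod_mul_distrib, Finset.prod_pow_eq_pow_sum]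
  rw [show ∑ i ∈ μ.support, μ i = d from hd]
  ring

theorem map_eval_map {R T ι : Type*} [CommSemiring R] [CommSemiring T] (f : R →+* T) (b : ι → R)
    (Q : MvPolynomial ι R) : f (eval b Q) = eval (fun j => f (b j)) (MvPolynomial.map f Q) := by
  induction Q using MvPolynomial.induction_on with
  | C z => simp
  | add u v hu hv => simp only [map_add, hu, hv]
  | mul_X u i hu => simp only [map_mul, hu, MvPolynomial.map_X, eval_X]

variable {L k : Type*} [Field L] [Field k] {A : ValuationSubring L} {π : A →+* k}
  {p r : ℕ} {P : Fin r → MvPolynomial (Fin r) A}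

/-- In high degree every monomial is in the ideal of the system. -/
theorem homogeneous_le_span (hp : 0 < p) (hhom : ∀ i, (P i).IsHomogeneous p)
    (hred : ∀ i, MvPolynomial.map π (P i) = X i ^ p) {d : ℕ} (hd : r * (p - 1) < d) :
    homogeneousSubmodule (Fin r) A d ≤ Submodule.span A
      {q | ∃ (i : Fin r) (μ : Fin r →₀ ℕ), μ.degree + p = d ∧ q = monomial μ 1 * P i} := by
  classical
  set N := Submodule.span A
      {q | ∃ (i : Fin r) (μ : Fin r →₀ ℕ), μ.degree + p = d ∧ q = monomial μ 1 * P i} with hN
  refine Submodule.le_of_le_smul_of_le_jacobson_bot (homogeneousSubmodule_fg (Fin r) A d)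
    (IsLocalRing.maximalIdeal_le_jacobson ⊥) ?_
  intro q hq
  rw [mem_homogeneousSubmodule] at hq
  rw [q.as_sum]
  refine Submodule.sum_mem _ fun μ hμ => ?_
  have hμd : μ.degree = d := degree_of_homogeneous hq hμ
  rw [show monomial μ (coeff μ q) = coeff μ q • monomial μ (1 : A) by
    rw [smul_monomial, smul_eq_mul, mul_one]]
  refine Submodule.smul_mem _ _ ?_
  obtain ⟨i, hi⟩ : ∃ i, p ≤ μ i := by
    by_contra! hlt
    have : μ.degree ≤ r * (p - 1) := by
      rw [Finsupp.degree_eq_sum]
      refine (Finset.sum_le_card_nsmul Finset.univ _ (p - 1) fun i _ => ?_).trans_eq (by simp)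
      have := hlt i
      omega
    omega
  set ν := μ - Finsupp.single i p
  have hν : ν + Finsupp.single i p = μ :=
    tsub_add_cancel_of_le (Finsupp.single_le_iff.2 hi)
  have hνd : ν.degree + p = d := by rw [← hμd, ← hν, map_add, Finsupp.degree_single]
  have hsplit : monomial μ (1 : A) =
      monomial ν 1 * P i + monomial ν 1 * (X i ^ p - P i) := by
    rw [mul_sub, add_sub_cancel, X_pow_eq_monomial, monomial_mul, mul_one, hν]
  rw [hsplit]
  refine Submodule.add_mem_sup (Submodule.subset_span ⟨i, ν, hνd, rfl⟩) ?_
  have hw : (monomial ν (1 : A) * (X i ^ p - P i)).IsHomogeneous d := by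
    rw [← hνd]
    refine (isHomogeneous_monomial _ rfl).mul ?_
    exact (isHomogeneous_X_pow i p).sub (hhom i)
  set w := monomial ν (1 : A) * (X i ^ p - P i)
  have hwπ : MvPolynomial.map π w = 0 := by
    simp [w, map_mul, map_sub, hred]
  rw [w.as_sum]
  refine Submodule.sum_mem _ fun e he => ?_
  rw [show monomial e (coeff e w) = coeff e w • monomial e (1 : A) by
    rw [smul_monomial, smul_eq_mul, mul_one]]
  refine Submodule.smul_mem_smul ?_ ?_
  · rw [IsLocalRing.mem_maximalIdeal, mem_nonunits_iff]
    intro hu
    have h1 := (hu.map π).ne_zero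
    rw [← MvPolynomial.coeff_map, hwπ, coeff_zero] at h1
    exact h1 rfl
  · rw [mem_homogeneousSubmodule]
    exact isHomogeneous_monomial _ (degree_of_homogeneous hw he)

/-- A system reducing to the Frobenius takes every integral value. -/
theorem exists_eval_eq [IsAlgClosed L] [IsAlgClosed k] (hπ : Function.Surjective π) (hp : 0 < p)
    (hhom : ∀ i, (P i).IsHomogeneous p) (hred : ∀ i, MvPolynomial.map π (P i) = X i ^ p)
    (a : Fin r → A) : ∃ c : Fin r → A, ∀ i, eval c (P i) = a i := by
  classical
  set PL : Fin r → MvPolynomial (Fin r) L := fun i => MvPolynomial.map A.subtype (P i)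
  let φ : MvPolynomial (Fin r) L →ₐ[L] MvPolynomial (Fin r) L := aeval PL
  have hinj : Function.Injective φ := by
    rw [injective_iff_map_eq_zero]
    intro y hy
    by_contra hy0
    obtain ⟨e₀, he₀⟩ := MvPolynomial.ne_zero_iff.1 hy0
    have hne : (fun e : y.support => coeff (e : Fin r →₀ ℕ) y) ≠ 0 := fun h =>
      he₀ (congrFun h ⟨e₀, mem_support_iff.2 he₀⟩)
    obtain ⟨s, j, hs, hj⟩ := (Reduction.base_total hπ).exists_scale_family hne
    set y' : MvPolynomial (Fin r) A := ∑ e : y.support, monomial (e : Fin r →₀ ℕ) ⟨_, hs e⟩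
    have hy' : MvPolynomial.map A.subtype y' = s • y := by
      conv_rhs => rw [y.as_sum, ← Finset.sum_attach, Finset.smul_sum]
      rw [map_sum]
      refine Finset.sum_congr rfl fun e _ => ?_
      rw [MvPolynomial.map_monomial, smul_monomial]
      rfl
    have h0 : aeval P y' = 0 := by
      refine MvPolynomial.map_injective A.subtype Subtype.val_injective ?_
      rw [map_zero]
      have h1 : ∀ w, MvPolynomial.map A.subtype (aeval P w) =
          φ (MvPolynomial.map A.subtype w) := fun w => by
        induction w using MvPolynomial.induction_on with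
        | C z => simp [φ]
        | add u v hu hv => simp only [map_add, hu, hv]
        | mul_X u i hu => simp only [map_mul, hu, φ, aeval_X, MvPolynomial.map_X, PL]
      rw [h1, hy', map_smul, hy, smul_zero]
    have hz : MvPolynomial.map π y' = 0 := by
      refine MvPolynomial.funext fun x => ?_
      have hx : ∀ i, ∃ b : k, b ^ p = x i := fun i => IsAlgClosed.exists_pow_nat_eq (x i) hp
      choose b hb using hx
      have h1 := congrArg (fun q => eval b (MvPolynomial.map π q)) h0
      simp only [map_zero] at h1
      have h2 : ∀ w, eval b (MvPolynomial.map π (aeval P w)) = eval x (MvPolynomial.map π w) :=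
        fun w => by
        induction w using MvPolynomial.induction_on with
        | C z => simp
        | add u v hu hv => simp only [map_add, hu, hv]
        | mul_X u i hu =>
          simp only [map_mul, hu, aeval_X, MvPolynomial.map_X, hred, eval_X, map_pow, hb]
      rw [map_zero]
      exact (h2 y').symm.trans h1
    have h2 : coeff (j : Fin r →₀ ℕ) y' = 1 := by
      rw [coeff_sum, Finset.sum_eq_single j (fun e _ he => by
        rw [coeff_monomial, if_neg (fun h => he (Subtype.ext h))]) (by simp),
        coeff_monomial, if_pos rfl]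
      exact Subtype.ext hj
    have h3 := congrArg (coeff (j : Fin r →₀ ℕ)) hz
    rw [MvPolynomial.coeff_map, h2, map_one, coeff_zero] at h3
    exact one_ne_zero h3
  let e := AlgEquiv.ofInjective φ hinj
  have hsmul : ∀ (q : φ.range) (w : MvPolynomial (Fin r) L),
      q • w = (q : MvPolynomial (Fin r) L) * w := fun _ _ => rfl
  haveI : Module.Finite φ.range (MvPolynomial (Fin r) L) := by
    set T : Submodule φ.range (MvPolynomial (Fin r) L) := Submodule.span _
      ((fun μ => monomial μ (1 : L)) '' {μ : Fin r →₀ ℕ | μ.degree ≤ r * (p - 1)})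
    have hmem : ∀ d, ∀ μ : Fin r →₀ ℕ, μ.degree = d → monomial μ (1 : L) ∈ T := by
      intro d
      induction d using Nat.strong_induction_on with
      | _ d ih =>
        intro μ hμ
        rcases le_or_gt d (r * (p - 1)) with hd | hd
        · exact Submodule.subset_span ⟨μ, hμ.trans_le hd, rfl⟩
        have hin := homogeneous_le_span hp hhom hred hd
          ((mem_homogeneousSubmodule _ _).2 (isHomogeneous_monomial (1 : A) hμ))
        have key : ∀ q, q ∈ Submodule.span A
            {q | ∃ (i : Fin r) (ν : Fin r →₀ ℕ), ν.degree + p = d ∧ q = monomial ν 1 * P i} →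
            MvPolynomial.map A.subtype q ∈ T := by
          intro q hq
          induction hq using Submodule.span_induction with
          | mem q hq =>
            obtain ⟨i, ν, hν, rfl⟩ := hq
            have h1 := T.smul_mem (e (X i)) (ih ν.degree (by omega) ν rfl)
            rw [hsmul, AlgEquiv.ofInjective_apply, mul_comm] at h1
            simpa [φ, PL] using h1
          | zero => rw [map_zero]; exact T.zero_mem
          | add x y _ _ hx hy => rw [map_add]; exact T.add_mem hx hy
          | smul c x _ hx =>
            rw [MvPolynomial.smul_eq_C_mul, map_mul, MvPolynomial.map_C]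
            have h1 := T.smul_mem (algebraMap L φ.range (A.subtype c)) hx
            rwa [hsmul] at h1
        simpa using key _ hin
    refine ⟨Submodule.fg_def.2 ⟨_, (Finsupp.finite_of_degree_le (σ := Fin r) (r * (p - 1))).image (fun μ => monomial μ (1 : L)),
      eq_top_iff.2 fun w _ => ?_⟩⟩
    rw [w.as_sum]
    refine Submodule.sum_mem _ fun μ _ => ?_
    have h1 := T.smul_mem (algebraMap L φ.range (coeff μ w)) (hmem _ μ rfl)
    rwa [hsmul, Subalgebra.coe_algebraMap, MvPolynomial.algebraMap_eq, C_mul_monomial,
      mul_one] at h1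
  haveI : Algebra.IsIntegral φ.range (MvPolynomial (Fin r) L) :=
    Algebra.IsIntegral.of_finite _ _
  have hJ : (vanishingIdeal L {fun i => (a i : L)}).IsMaximal :=
    (isMaximal_iff_eq_vanishingIdeal_singleton).2 ⟨_, rfl⟩
  haveI := hJ
  haveI : ((vanishingIdeal L {fun i => (a i : L)}).comap e.symm).IsMaximal :=
    Ideal.comap_isMaximal_of_surjective _ e.symm.surjective
  obtain ⟨Q, hQ, hQJ⟩ := Ideal.exists_ideal_over_maximal_of_isIntegral
    (S := MvPolynomial (Fin r) L) ((vanishingIdeal L {fun i => (a i : L)}).comap e.symm) (by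
      rw [show RingHom.ker (algebraMap φ.range (MvPolynomial (Fin r) L)) = ⊥ from
        (RingHom.injective_iff_ker_eq_bot _).1 Subtype.val_injective]
      exact bot_le)
  obtain ⟨c, rfl⟩ := isMaximal_iff_eq_vanishingIdeal_singleton.1 hQ
  have hc : ∀ i, eval c (PL i) = a i := fun i => by
    have h : e (X i - C (a i : L)) ∈ (vanishingIdeal L {fun i => (a i : L)}).comap e.symm := by
      rw [Ideal.mem_comap, AlgEquiv.symm_apply_apply, mem_vanishingIdeal_singleton_iff]; simp
    rw [← hQJ, Ideal.mem_comap] at h
    change φ (X i - C (a i : L)) ∈ _ at h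
    simpa [mem_vanishingIdeal_singleton_iff, φ, sub_eq_zero] using h
  have heval : ∀ (b : Fin r → A) i, ((eval b (P i) : A) : L) = eval (fun j => (b j : L)) (PL i) :=
    fun b i => by
    exact map_eval_map A.subtype b (P i)
  have hA : ∀ i, c i ∈ A := by
    by_contra! hn
    obtain ⟨i₀, hi₀⟩ := hn
    have hne : c ≠ 0 := fun h => hi₀ (by rw [h]; exact A.zero_mem)
    obtain ⟨s, j, hs, hj⟩ := (Reduction.base_total hπ).exists_scale_family hne
    have hs0 : s ≠ 0 := left_ne_zero_of_mul_eq_one hj
    have hsinv : s⁻¹ ∉ A := fun h0 => hi₀ (by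
      have := mul_mem h0 (hs i₀)
      rwa [← mul_assoc, inv_mul_cancel₀ hs0, one_mul] at this)
    have hsA : s ∈ A := (A.mem_or_inv_mem s).resolve_right hsinv
    have hπs : π ⟨s, hsA⟩ = 0 := Reduction.map_eq_zero_of_inv_notMem hπ hsinv
    set b : Fin r → A := fun i => ⟨s * c i, hs i⟩
    have h1 : eval b (P j) = ⟨s, hsA⟩ ^ p * a j := Subtype.ext <| by
      rw [heval]
      show eval (fun i => s * c i) (PL j) = _
      rw [eval_smul_homogeneous ((hhom j).map A.subtype), hc]
      simp
    have h2 := congrArg π h1
    rw [map_mul, map_pow, hπs, zero_pow hp.ne', zero_mul] at h2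
    have h3 : π (eval b (P j)) = π (b j) ^ p := by
      rw [map_eval_map π, hred, map_pow, eval_X]
    rw [h3, show b j = 1 from Subtype.ext hj, map_one, one_pow] at h2
    exact one_ne_zero h2
  exact ⟨fun i => ⟨c i, hA i⟩, fun i => Subtype.ext ((heval _ i).trans (hc i))⟩

end FLTAgent.Ordinary
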