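import Fermat.Agent.Ordinary.Power
import Fermat.Agent.Ordinary.NormLin
import Fermat.Agent.Ordinary.Lin
import Fermat.Agent.Ordinary.PolySys

/-!
# Approximate `p`-th roots to the critical precision

For a function with divisor `p D`, reductions `p`-th powers on both sheets, and norms `p`-th powers
to both levels below, some `u` in `L(D + m · poles)` has `uᵖ f` congruent to a given target modulo
`|p| ^ (p / (p - 1))`: the error can be pushed into a complement of the `p`-th powers of the glued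
pairs, and above the critical value it has to reduce to a glued `p`-th power.
-/

set_option autoImplicit false
set_option linter.style.haveILetI false
set_option linter.unusedSectionVars false

noncomputable section

namespace FLTAgent.Ordinary

open AlgebraicCurve FLTAgent.Curves FLTAgent.Specialization FLTAgent.BadRed MvPolynomial

variable {L k : Type*} [Field L] [Field k] {A : ValuationSubring L} {π : A →+* k}
  {FC Fb F : Type*} [Field FC] [Field Fb] [Field F] [Algebra L FC]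
  [Algebra k Fb] [Algebra L F] [IsAlgClosed L] [IsFunctionField L FC] [IsFunctionField L F]
  [IsAlgClosed k] [IsFunctionField k Fb] {p : ℕ} {S : Sheet π FC Fb F p}

theorem pow_mem_poles {h : F} {m : ℕ} (hh : h ∈ riemannRochSpace ((m : ℤ) • poleDiv L S.X)) :
    ∀ j : ℕ, h ^ j ∈ riemannRochSpace (((j * m : ℕ) : ℤ) • poleDiv L S.X)
  | 0 => by
    rw [pow_zero]
    exact one_mem_rrSpace fun v => by simp
  | j + 1 => by
    have h1 := mem_rrSpace_mul (pow_mem_poles hh j) hh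
    rw [← add_smul] at h1
    rw [pow_succ, Nat.succ_mul]
    exact_mod_cast h1

/-- The norm along an embedding of a product with a `p`-th power. -/
theorem norm_pow_mul {E E' : Type*} [Field E] [Field E'] [Algebra L E] [Algebra L E']
    (φ : E →ₐ[L] E') (hp : 0 < p) {u f h : E'} (hh : h ≠ 0) {a : L} {G : E}
    (ha : @Algebra.norm E E' _ _ (algebraAlong φ) f = a • G ^ p) :
    ∃ G' : E, @Algebra.norm E E' _ _ (algebraAlong φ) (u ^ p * f / h ^ p) = G' ^ p := by
  letI := algebraAlong φ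
  obtain ⟨r, hr⟩ := IsAlgClosed.exists_pow_nat_eq a hp
  refine ⟨r • (Algebra.norm E u * G / Algebra.norm E h), ?_⟩
  have hi : Algebra.norm E h⁻¹ = (Algebra.norm E h)⁻¹ :=
    eq_inv_of_mul_eq_one_left (by rw [← map_mul, inv_mul_cancel₀ hh, map_one])
  rw [div_eq_mul_inv (u ^ p * f), ← inv_pow, map_mul, map_mul, map_pow, map_pow, hi, inv_pow,
    ← div_eq_mul_inv, ha, _root_.smul_pow, hr, div_pow, mul_pow,
    mul_smul_comm, smul_div_assoc]

variable [Fact p.Prime] [CharP k p]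

theorem RootData.exists_critical (z : RootData S) (hS : S.Good) (N : S.Nodes)
    (hV : ∀ a : Fb, ∃ b, S.V b = a ^ p) (hβdeg : finrankAlong L S.β = p + 1) (c : CritScale π p)
    {aα aβ : L} {Gα Gβ : FC}
    (eα : @Algebra.norm FC F _ _ (algebraAlong S.α) z.f = aα • Gα ^ p)
    (eβ : @Algebra.norm FC F _ _ (algebraAlong S.β) z.f = aβ • Gβ ^ p)
    {m : ℕ} (hm : N.m₀ ≤ m) {h : F} {θ : Fb × Fb}
    (hh : h ∈ riemannRochSpace ((m : ℤ) • poleDiv L S.X)) (hθ : (S.pair 1).Res h θ)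
    (hθ1 : θ.1 ≠ 0) (hθ2 : θ.2 ≠ 0) :
    ∃ u ∈ z.space m, ∃ w, (S.pair z.d).Res u w ∧ w * z.g = θ ∧
      (S.pair 1).Small ((c.s : L) ^ p) (u ^ p * z.f - h ^ p) := by
  classical
  have hp : 0 < p := pos_of_sheet S
  have hπ := S.MC.surj
  haveI : CharP (Fb × Fb) p :=
    charP_of_injective_algebraMap (algebraMap k (Fb × Fb)).injective p
  obtain ⟨r, v, w, hv, hvw, hφ, hspan⟩ := z.exists_basis hS N hm
  set φ : Fin r → Fb × Fb := fun i => w i * z.g
  set E := riemannRochSpace (K := L) (((p * m : ℕ) : ℤ) • poleDiv L S.X) with hE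
  haveI : FiniteDimensional L E := finiteDimensional_rrSpace _
  have hqE : ∀ i, v i ^ p * z.f ∈ E := fun i => z.npow_mem (hv i)
  have hqr : ∀ i, (S.pair 1).Res (v i ^ p * z.f) (φ i ^ p) := fun i => z.res_pow (hvw i)
  have hqi : LinearIndependent k fun i => φ i ^ p := by
    rw [Fintype.linearIndependent_iff]
    intro a ha
    choose b hb using fun i => IsAlgClosed.exists_pow_nat_eq (a i) hp
    have h1 : (∑ i, b i • φ i) ^ p = 0 := by
      rw [sum_pow_char, ← ha]
      exact Finset.sum_congr rfl fun i _ => by rw [_root_.smul_pow, hb]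
    have h2 : ∑ i, b i • φ i = 0 := by
      simp only [Prod.ext_iff, Prod.pow_fst, Prod.pow_snd, Prod.fst_zero, Prod.snd_zero] at h1
      exact Prod.ext (pow_eq_zero_iff hp.ne' |>.1 h1.1) (pow_eq_zero_iff hp.ne' |>.1 h1.2)
    intro i
    rw [← hb i, Fintype.linearIndependent_iff.1 hφ b h2 i, zero_pow hp.ne']
  obtain ⟨n, cj, cb, hcE, hcr, hind, hbas, hdisj⟩ :=
    LRed.exists_adapted S.orth_one hπ E hqE hqr hqi
  set V := Sum.elim (fun i => v i ^ p * z.f) cj
  set W := Sum.elim (fun i => φ i ^ p) cb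
  have hVW : ∀ l, (S.pair 1).Res (V l) (W l) := by
    rintro (i | j)
    exacts [hqr i, hcr j]
  have hcoord : ∀ {e : F} {g : Fb × Fb}, e ∈ E → (S.pair 1).Res e g →
      ∃ a : Fin r ⊕ Fin n → A, e = ∑ l, (a l : L) • V l ∧ g = ∑ l, π (a l) • W l := by
    intro e g he hg
    obtain ⟨a, ha⟩ := (Submodule.mem_span_range_iff_exists_fun L).1 (hbas.symm ▸ he)
    obtain ⟨b, hb, hgb⟩ := LRed.coord_res hπ hVW hind (a := a) (by rwa [ha])
    exact ⟨b, by rw [← ha]; exact Finset.sum_congr rfl fun l _ => by rw [hb], hgb⟩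
  -- the monomials
  have hmon : ∀ κ : Fin p → Fin r, ∃ a : Fin r ⊕ Fin n → A,
      (∏ j, v (κ j)) * z.f = ∑ l, (a l : L) • V l ∧ ∏ j, φ (κ j) = ∑ l, π (a l) • W l := fun κ =>
    hcoord (z.prod_mul_mem fun j => hv (κ j)) (z.res_prod fun j => hvw (κ j))
  choose a ha har using hmon
  obtain ⟨b, hb, hbr⟩ := hcoord (pow_mem_poles hh p)
    (show (S.pair 1).Res (h ^ p) (θ ^ p) by simpa using S.pair_pow hθ p)
  -- the system
  let P : Fin r → MvPolynomial (Fin r) A := fun i =>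
    ∑ κ : Fin p → Fin r, C (a κ (Sum.inl i)) * ∏ j, X (κ j)
  have hhom : ∀ i, (P i).IsHomogeneous p := fun i => by
    refine IsHomogeneous.sum _ _ _ fun κ _ => ?_
    have h1 := (isHomogeneous_C (Fin r) (a κ (Sum.inl i))).mul
      (IsHomogeneous.prod Finset.univ (fun j => (X (κ j) : MvPolynomial (Fin r) A))
        (fun _ => 1) fun j _ => isHomogeneous_X A (κ j))
    simpa using h1
  have hcomb : ∀ x : Fin r → k, ∀ l, (∑ κ : Fin p → Fin r, (∏ j, x (κ j)) * π (a κ l)) =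
      Sum.elim (fun i => x i ^ p) 0 l := by
    intro x
    refine fun l => sub_eq_zero.1 (Fintype.linearIndependent_iff.1 hind (fun l =>
      (∑ κ : Fin p → Fin r, (∏ j, x (κ j)) * π (a κ l)) - Sum.elim (fun i => x i ^ p) 0 l) ?_ l)
    simp only [sub_smul, Finset.sum_sub_distrib, Finset.sum_smul, mul_smul]
    rw [Finset.sum_comm]
    simp only [← Finset.smul_sum, ← har]
    have h2 : ∑ κ : Fin p → Fin r, (∏ j, x (κ j)) • ∏ j, φ (κ j) = (∑ i, x i • φ i) ^ p := by
      rw [Fintype.sum_pow]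
      exact Finset.sum_congr rfl fun κ _ => (Finset.prod_smul _ _ _).symm
    rw [h2, sum_pow_char, Fintype.sum_sum_type]
    simp [W, _root_.smul_pow]
  have hred : ∀ i, MvPolynomial.map π (P i) = X i ^ p := fun i => by
    refine MvPolynomial.funext fun x => ?_
    rw [eval_map, map_pow, eval_X]
    simp only [P, eval₂_sum, eval₂_mul, eval₂_C, eval₂_prod, eval₂_X]
    refine Eq.trans ?_ (hcomb x (Sum.inl i))
    exact Finset.sum_congr rfl fun κ _ => mul_comm _ _
  obtain ⟨cc, hcc⟩ := exists_eval_eq hπ hp hhom hred fun i => b (Sum.inl i)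
  set u := ∑ i, (cc i : L) • v i with hu
  have huS : u ∈ z.space m := Submodule.sum_mem _ fun i _ => Submodule.smul_mem _ _ (hv i)
  set E' : Fin n → A := fun j =>
    (∑ κ : Fin p → Fin r, (∏ l, cc (κ l)) * a κ (Sum.inr j)) - b (Sum.inr j)
  have he : u ^ p * z.f - h ^ p = ∑ j, (E' j : L) • cj j := by
    have h1 : u ^ p * z.f = ∑ l, (∑ κ : Fin p → Fin r, (∏ j, (cc (κ j) : L)) * (a κ l : L)) • V l := by
      rw [hu, Fintype.sum_pow, Finset.sum_mul]
      simp only [Finset.prod_smul, smul_mul_assoc, ha, Finset.smul_sum, smul_smul, Finset.sum_smul]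
      exact Finset.sum_comm
    rw [h1, hb, ← Finset.sum_sub_distrib]
    simp only [← sub_smul]
    rw [Fintype.sum_sum_type, Finset.sum_eq_zero (fun i _ => ?_), zero_add]
    · exact Finset.sum_congr rfl fun j _ => by simp [E', V]
    · have h2 := congrArg (fun x : A => (x : L)) (hcc i)
      simp only [P, map_sum, map_mul, eval_C, map_prod, eval_X] at h2
      push_cast at h2
      rw [sub_eq_zero.2, zero_smul]
      rw [← h2]
      exact Finset.sum_congr rfl fun κ _ => mul_comm _ _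
  set wu := ∑ i, π (cc i) • w i
  have hwu : (S.pair z.d).Res u wu := LRed.res_comb (fun i _ => hvw i) cc
  have heres : (S.pair 1).Res (u ^ p * z.f - h ^ p) (∑ j, π (E' j) • cb j) := by
    rw [he]; exact LRed.res_comb (fun j _ => hcr j) E'
  have hφu : wu * z.g = ∑ i, π (cc i) • φ i := by
    simp only [wu, Finset.sum_mul, smul_mul_assoc, φ]
  have hθφ : θ ∈ Submodule.span k (Set.range φ) := hspan.symm ▸ LRed.mem_image_of_res hh hθ
  have hkey : ∑ j, π (E' j) • cb j = 0 := by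
    have h1 : ∑ j, π (E' j) • cb j = (wu * z.g) ^ p - θ ^ p :=
      (S.pair 1).unique heres (LRed.res_sub (z.res_pow hwu) (by simpa using S.pair_pow hθ p))
    obtain ⟨t, ht⟩ := (Submodule.mem_span_range_iff_exists_fun k).1 hθφ
    refine Submodule.disjoint_def.1 hdisj _ ?_ (Submodule.sum_mem _ fun j _ =>
      Submodule.smul_mem _ _ (Submodule.subset_span ⟨j, rfl⟩))
    rw [h1, hφu, ← ht, sum_pow_char, sum_pow_char]
    simp only [_root_.smul_pow]
    exact Submodule.sub_mem _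
      (Submodule.sum_mem _ fun i _ => Submodule.smul_mem _ _ (Submodule.subset_span ⟨i, rfl⟩))
      (Submodule.sum_mem _ fun i _ => Submodule.smul_mem _ _ (Submodule.subset_span ⟨i, rfl⟩))
  have hwg : wu * z.g = θ := by
    have h1 := (S.pair 1).unique heres (LRed.res_sub (z.res_pow hwu)
      (show (S.pair 1).Res (h ^ p) (θ ^ p) by simpa using S.pair_pow hθ p))
    rw [hkey, eq_comm, sub_eq_zero] at h1
    simp only [Prod.ext_iff, Prod.pow_fst, Prod.pow_snd] at h1 ⊢
    haveI : CharP Fb p := (Algebra.charP_iff k Fb p).1 inferInstance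
    exact ⟨frobenius_inj Fb p h1.1, frobenius_inj Fb p h1.2⟩
  refine ⟨u, huS, wu, hwu, hwg, ?_⟩
  -- the size of the error
  have hsp0 : ((c.s : L) ^ p) ≠ 0 := pow_ne_zero _ c.s_ne
  have hfin : (∀ j, ((c.s : L) ^ p)⁻¹ * E' j ∈ A) →
      (S.pair 1).Small ((c.s : L) ^ p) (u ^ p * z.f - h ^ p) := fun hA =>
    ⟨∑ j, (((c.s : L) ^ p)⁻¹ * E' j) • cj j,
      ⟨_, LRed.res_comb (fun j _ => hcr j) fun j => ⟨_, hA j⟩⟩, by
      rw [he, Finset.smul_sum]
      exact Finset.sum_congr rfl fun j _ => by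
        rw [smul_smul, mul_inv_cancel_left₀ hsp0]⟩
  obtain ⟨s₀, i₀, hs₀, hi₀⟩ := (Reduction.base_total hπ).exists_scale_family
    (c := Sum.elim (fun j => (E' j : L)) fun _ : Unit => (c.s : L) ^ p)
    (fun h0 => hsp0 (congrFun h0 (Sum.inr ())))
  rcases i₀ with j₀ | ⟨⟩
  swap
  · refine hfin fun j => ?_
    rw [show ((c.s : L) ^ p)⁻¹ = s₀ from (eq_inv_of_mul_eq_one_left hi₀).symm]
    exact hs₀ (Sum.inl j)
  set δ : A := ⟨s₀ * (c.s : L) ^ p, hs₀ (Sum.inr ())⟩
  by_cases hδ : π δ = 0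
  swap
  · refine hfin fun j => ?_
    have hinv : (δ : L)⁻¹ ∈ A := inv_mem_of_map_ne_zero hπ hδ
    have := mul_mem hinv (hs₀ (Sum.inl j))
    convert this using 1
    simp only [δ, Sum.elim_inl]
    have hs00 : s₀ ≠ 0 := left_ne_zero_of_mul_eq_one hi₀
    field_simp
  exfalso
  set τ := E' j₀
  have hs00 : s₀ ≠ 0 := left_ne_zero_of_mul_eq_one hi₀
  simp only [Sum.elim_inl] at hi₀
  have hτδ : (c.s : L) ^ p = τ * δ := by
    rw [← mul_assoc, mul_comm (τ : L), hi₀, one_mul]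
  have hτ : π τ = 0 := by
    by_contra hne
    have h1 := congrArg (fun g => g) hkey
    have hall := Fintype.linearIndependent_iff.1
      (hind.comp Sum.inr Sum.inr_injective) (fun j => π (E' j)) (by simpa [W] using hkey) j₀
    exact hne hall
  set y := ∑ j, (s₀ * E' j) • cj j
  set yb := ∑ j, π ⟨s₀ * E' j, hs₀ (Sum.inl j)⟩ • cb j
  have hy : (S.pair 1).Res y yb :=
    LRed.res_comb (fun j _ => hcr j) fun j => ⟨s₀ * E' j, hs₀ (Sum.inl j)⟩
  have hey : u ^ p * z.f - h ^ p = (τ : L) • y := by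
    rw [he, Finset.smul_sum]
    exact Finset.sum_congr rfl fun j _ => by
      rw [smul_smul, ← mul_assoc, mul_comm (τ : L), hi₀, one_mul]
  have hhp : (S.pair 1).Res (h ^ p)⁻¹ ((θ.1 ^ p)⁻¹, (θ.2 ^ p)⁻¹) := by
    have h1 : (S.pair 1).Res (h ^ p) (θ ^ p) := by simpa using S.pair_pow hθ p
    obtain ⟨q1, q2⟩ := h1
    rw [one_smul] at q2
    exact ⟨q1.inv (pow_ne_zero _ hθ1), by rw [one_smul]; exact q2.inv (pow_ne_zero _ hθ2)⟩
  have hZ : (S.pair 1).Res (y * (h ^ p)⁻¹) (yb * ((θ.1 ^ p)⁻¹, (θ.2 ^ p)⁻¹)) := by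
    simpa using S.pair_mul hy hhp
  have hh0 : h ≠ 0 := hθ.1.ne_zero hθ1
  have h1Z : u ^ p * z.f / h ^ p = 1 + (τ : L) • (y * (h ^ p)⁻¹) := by
    rw [← smul_mul_assoc, ← hey, ← div_eq_mul_inv, sub_div, div_self (pow_ne_zero _ hh0)]
    ring
  have key : ∀ (S' : Sheet π FC Fb F p) (a : L) (G : FC), (∀ x, ∃ b, S'.V b = x ^ p) →
      @Algebra.norm FC F _ _ (algebraAlong S'.α) z.f = a • G ^ p →
      ∀ zb, (S'.pair 1).Res (y * (h ^ p)⁻¹) zb → ∃ d : Fb, d ^ p = zb.1 := by
    intro S' a G hV' ha' zb hzb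
    obtain ⟨W', hW', hN⟩ := exists_norm_linear S' hV' hzb τ hτ
    obtain ⟨G', hG'⟩ := norm_pow_mul S'.α hp (u := u) hh0 ha'
    rw [h1Z, hN] at hG'
    exact exists_pow_of_root S'.MC.total S'.MC.surj c hδ hτδ hW' hG'.symm
  obtain ⟨d₁, hd₁⟩ := key S aα Gα hV eα _ hZ
  obtain ⟨d₂, hd₂⟩ := key (S.swap hβdeg) aβ Gβ hV eβ
    ((yb * ((θ.1 ^ p)⁻¹, (θ.2 ^ p)⁻¹)).2, (yb * ((θ.1 ^ p)⁻¹, (θ.2 ^ p)⁻¹)).1)
    ⟨by have := hZ.2; rwa [one_smul] at this, by rw [one_smul]; exact hZ.1⟩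
  have hyp : yb = (d₁ * θ.1, d₂ * θ.2) ^ p := by
    simp only [Prod.fst_mul, Prod.snd_mul] at hd₁ hd₂
    refine Prod.ext ?_ ?_
    · simp only [Prod.pow_fst, mul_pow, hd₁]
      field_simp
    · simp only [Prod.pow_snd, mul_pow, hd₂]
      field_simp
  have hyE : y ∈ E := Submodule.sum_mem _ fun j _ => Submodule.smul_mem _ _ (hcE j)
  have hψ : (d₁ * θ.1, d₂ * θ.2) ∈ Submodule.span k (Set.range φ) :=
    hspan.symm ▸ mem_rimg_of_pow N hm (hyp ▸ LRed.mem_image_of_res hyE hy)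
  obtain ⟨t, ht⟩ := (Submodule.mem_span_range_iff_exists_fun k).1 hψ
  have h0 : yb = 0 := by
    refine Submodule.disjoint_def.1 hdisj _ ?_ (Submodule.sum_mem _ fun j _ =>
      Submodule.smul_mem _ _ (Submodule.subset_span ⟨j, rfl⟩))
    rw [hyp, ← ht, sum_pow_char]
    simp only [_root_.smul_pow]
    exact Submodule.sum_mem _ fun i _ => Submodule.smul_mem _ _ (Submodule.subset_span ⟨i, rfl⟩)
  have hall := Fintype.linearIndependent_iff.1 (hind.comp Sum.inr Sum.inr_injective)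
    (fun j => π ⟨s₀ * E' j, hs₀ (Sum.inl j)⟩) (by simpa [W, yb] using h0) j₀
  rw [show (⟨s₀ * E' j₀, hs₀ (Sum.inl j₀)⟩ : A) = 1 from Subtype.ext hi₀, map_one] at hall
  exact one_ne_zero hall

end FLTAgent.Ordinary
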