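import Fermat.Agent.Ordinary.Twist

/-!
# Classes whose functions reduce to powers on both sheets

Images of `σ - 1` for `σ` trivial on both reductions are such classes; on those of order `p` killed
by both push forwards `σ` is the scalar by which it multiplies the critical scale.
-/

set_option autoImplicit false
set_option linter.style.haveILetI false
set_option linter.unusedSectionVars false

noncomputable section

namespace FLTAgent.Ordinary

open AlgebraicCurve FLTAgent.Curves FLTAgent.Specialization FLTAgent.BadRed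
open AlgebraicCurve.SemilinearAut (baseAut)

variable {L k : Type*} [Field L] [Field k] {A : ValuationSubring L} {π : A →+* k}
  {FC Fb F : Type*} [Field FC] [Field Fb] [Field F] [Algebra L FC]
  [Algebra k Fb] [Algebra L F] [IsAlgClosed L] [IsFunctionField L FC] [IsFunctionField L F]
  [IsAlgClosed k] [IsFunctionField k Fb] {p : ℕ} (S : Sheet π FC Fb F p)

/-- A class with a function whose reductions on both sheets are `n`-th powers. -/
def IsDeep (n : ℕ) (x : Pic0 L F) : Prop :=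
  ∃ (D : Divisor.degZero (K := L) (F := F)) (f : F) (c₁ c₂ : L) (g₁ g₂ : Fb), Pic0.mk D = x ∧
    f ≠ 0 ∧ (∀ v : Place L F, v.ord f = (n : ℤ) * (D : Divisor L F) v) ∧ g₁ ≠ 0 ∧ g₂ ≠ 0 ∧
    S.R₁.Res (c₁ • f) (g₁ ^ n) ∧ S.R₂.Res (c₂ • f) (g₂ ^ n)

/-- The group of these classes. -/
def deep (n : ℕ) : AddSubgroup (Pic0 L F) where
  carrier := {x | IsDeep S n x}
  zero_mem' := ⟨0, 1, 1, 1, 1, 1, rfl, one_ne_zero, fun v => by rw [v.ord_one]; simp, one_ne_zero,
    one_ne_zero, by rw [one_smul, one_pow]; exact S.R₁.res_one,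
    by rw [one_smul, one_pow]; exact S.R₂.res_one⟩
  add_mem' := by
    rintro x y ⟨D, f, c₁, c₂, g₁, g₂, rfl, hf, hD, h1, h2, r1, r2⟩
      ⟨D', f', c₁', c₂', g₁', g₂', rfl, hf', hD', h1', h2', r1', r2'⟩
    refine ⟨D + D', f * f', c₁ * c₁', c₂ * c₂', g₁ * g₁', g₂ * g₂', rfl, mul_ne_zero hf hf',
      fun v => ?_, mul_ne_zero h1 h1', mul_ne_zero h2 h2', ?_, ?_⟩
    · rw [v.ord_mul hf hf', hD, hD', AddSubgroup.coe_add, Finsupp.add_apply, mul_add]
    · rw [mul_pow, ← smul_mul_smul_comm]; exact r1.mul r1'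
    · rw [mul_pow, ← smul_mul_smul_comm]; exact r2.mul r2'
  neg_mem' := by
    rintro x ⟨D, f, c₁, c₂, g₁, g₂, rfl, hf, hD, h1, h2, r1, r2⟩
    refine ⟨-D, f⁻¹, c₁⁻¹, c₂⁻¹, g₁⁻¹, g₂⁻¹, rfl, inv_ne_zero hf, fun v => ?_, inv_ne_zero h1,
      inv_ne_zero h2, ?_, ?_⟩
    · rw [v.ord_inv, hD, NegMemClass.coe_neg, Finsupp.neg_apply, mul_neg]
    · rw [inv_pow, Algebra.smul_def, map_inv₀, ← mul_inv, ← Algebra.smul_def]
      exact r1.inv (pow_ne_zero _ h1)
    · rw [inv_pow, Algebra.smul_def, map_inv₀, ← mul_inv, ← Algebra.smul_def]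
      exact r2.inv (pow_ne_zero _ h2)

variable {S}

/-- The image of `σ - 1` on torsion. -/
theorem smul_sub_mem_deep (P : S.Sym) (hb : P.σb = RingHom.id Fb) {n : ℕ} {x : Pic0 L F}
    (hx : x ∈ Pic0.torsion L F n) : P.σ • x - x ∈ deep S n := by
  obtain ⟨D, f, rfl, hf, hD⟩ := exists_torsion_rep hx
  obtain ⟨c₁, a₁, ha₁, r₁⟩ := S.scaled₁ f hf
  obtain ⟨c₂, a₂, ha₂, r₂⟩ := S.scaled₂ f hf
  have q₁ := (P.smul_res₁ r₁).div r₁ ha₁
  have q₂ := (P.smul_res₂ r₂).div r₂ ha₂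
  simp only [hb, RingHom.id_apply, div_self ha₁, div_self ha₂, Algebra.smul_def, ← map_div₀,
    mul_div_mul_comm] at q₁ q₂
  rw [← Algebra.smul_def, ← one_pow n] at q₁ q₂
  have hσf : P.σ • f ≠ 0 := (smul_ne_zero_iff_ne P.σ).2 hf
  rw [SemilinearAut.pic0_smul_mk]
  refine ⟨_, P.σ • f / f, _, _, 1, 1, QuotientAddGroup.mk_sub _ _ _, div_ne_zero hσf hf,
    fun v => ?_, one_ne_zero, one_ne_zero, q₁, q₂⟩
  rw [ord_div v hσf hf, ord_smul', hD, hD, AddSubgroupClass.coe_sub,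
    SemilinearAut.coe_degZeroSMulHom, Finsupp.sub_apply, SemilinearAut.divisor_smul_apply, mul_sub]

variable [Fact p.Prime] [CharP k p]

/-- Classes of order `p` deep at a power of `p` are deep at `p`. -/
theorem mem_deep_prime {a : ℕ} {x : Pic0 L F} (hx : x ∈ deep S (p ^ (a + 1)))
    (hpx : x ∈ Pic0.torsion L F p) : x ∈ deep S p := by
  have hp : 0 < p := pos_of_sheet S
  haveI : CharP Fb p := (Algebra.charP_iff k Fb p).1 inferInstance
  obtain ⟨D, f, c₁, c₂, g₁, g₂, rfl, hf, hD, h1, h2, r1, r2⟩ := hx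
  obtain ⟨D', w, hDD, hw, hD'⟩ := exists_torsion_rep hpx
  -- move `w` to the divisor `D`
  obtain ⟨v₀, hv₀, hv⟩ : ∃ v₀ : F, v₀ ≠ 0 ∧ ∀ v : Place L F,
      v.ord v₀ = (D : Divisor L F) v - (D' : Divisor L F) v := by
    have h := QuotientAddGroup.eq_iff_sub_mem.1 hDD
    obtain ⟨v₀, hv₀, hv⟩ := AddSubgroup.mem_addSubgroupOf.1 h
    refine ⟨v₀⁻¹, inv_ne_zero hv₀, fun v => ?_⟩
    rw [v.ord_inv, ← hv v, AddSubgroupClass.coe_sub, Finsupp.sub_apply]
    ring
  set w' := w * v₀ ^ p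
  have hw' : w' ≠ 0 := mul_ne_zero hw (pow_ne_zero _ hv₀)
  have hwD : ∀ v : Place L F, v.ord w' = (p : ℤ) * (D : Divisor L F) v := fun v => by
    rw [v.ord_mul hw (pow_ne_zero _ hv₀), ord_pow, hD', hv]; ring
  obtain ⟨γ, hγ⟩ := eq_algebraMap_of_forall_ord_nonneg (K := L) (f := f / w' ^ p ^ a) fun v => by
    rw [ord_div v hf (pow_ne_zero _ hw'), ord_pow, hD, hwD, pow_succ]
    push_cast
    linarith
  have hfw : f = algebraMap L F γ * w' ^ p ^ a := by
    rw [← hγ, div_mul_cancel₀ _ (pow_ne_zero _ hw')]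
  have key : ∀ (R : Reduction π F Fb), R.Scaled → ∀ {c : L} {g : Fb}, g ≠ 0 →
      R.Res (c • f) (g ^ p ^ (a + 1)) → ∃ (c' : L) (b : Fb), b ≠ 0 ∧ R.Res (c' • w') (b ^ p) := by
    intro R hR c g hg hr
    obtain ⟨e, b, hb, heb⟩ := hR w' hw'
    have he0 : e ≠ 0 := fun h0 => hb (by
      rw [h0, zero_smul] at heb
      exact heb.unique R.res_zero)
    set s := c * γ / e ^ p ^ a
    have hs : c • f = algebraMap L F s * (e • w') ^ p ^ a := by
      rw [hfw, _root_.smul_pow, Algebra.smul_def, Algebra.smul_def, ← mul_assoc, ← mul_assoc,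
        ← map_mul, ← map_mul]
      simp only [s, div_mul_cancel₀ _ (pow_ne_zero _ he0)]
    rw [hs] at hr
    have hbn := pow_ne_zero (p ^ a) hb
    have h1 := hr.div (heb.pow (p ^ a)) hbn
    rw [mul_div_assoc, div_self ((heb.pow (p ^ a)).ne_zero hbn), mul_one] at h1
    have hsA : s ∈ A := by
      by_contra hsn
      have hinv : s⁻¹ ∈ A := (A.mem_or_inv_mem s).resolve_left hsn
      have hs0 : s ≠ 0 := fun h0 => hsn (h0 ▸ A.zero_mem)
      have hπ : π ⟨s⁻¹, hinv⟩ = 0 := Reduction.map_eq_zero_of_inv_notMem S.MC.surj (by simpa)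
      have h2 := (R.res_algebraMap ⟨s⁻¹, hinv⟩).mul h1
      rw [← map_mul, inv_mul_cancel₀ hs0, map_one, hπ, map_zero, zero_mul] at h2
      exact one_ne_zero (R.res_one.unique h2)
    have h2 := h1.unique (R.res_algebraMap ⟨s, hsA⟩)
    have hπs : π ⟨s, hsA⟩ ≠ 0 := fun h0 => by
      rw [h0, map_zero, div_eq_zero_iff] at h2
      exact h2.elim (pow_ne_zero _ hg) hbn
    obtain ⟨r, hr'⟩ := IsAlgClosed.exists_pow_nat_eq (π ⟨s, hsA⟩)
      (show 0 < p ^ (a + 1) from pow_pos hp _)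
    have hr0 : r ≠ 0 := fun h0 => hπs (by rw [← hr', h0, zero_pow (pow_pos hp _).ne'])
    refine ⟨e, g / algebraMap k Fb r, div_ne_zero hg (by simpa using hr0), ?_⟩
    rw [show (g / algebraMap k Fb r) ^ p = b from iterateFrobenius_inj Fb p a (by
      simp only [iterateFrobenius_def]
      rw [← pow_mul, mul_comm p, ← pow_succ, div_pow, ← map_pow, hr', ← h2,
        div_div_cancel₀ (pow_ne_zero _ hg)])]
    exact heb
  obtain ⟨c₁', b₁, hb₁, q₁⟩ := key S.R₁ S.scaled₁ h1 r1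
  obtain ⟨c₂', b₂, hb₂, q₂⟩ := key S.R₂ S.scaled₂ h2 r2
  exact ⟨D, w', c₁', c₂', b₁, b₂, rfl, hw', hwD, hb₁, hb₂, q₁, q₂⟩

/-- **Inertia is a scalar on deep classes killed by both push forwards.** -/
theorem smul_eq_of_deep (hS : S.Good) (hV : ∀ x : Fb, ∃ y, S.V y = x ^ p)
    (hβdeg : finrankAlong L S.β = p + 1) (c : CritScale π p)
    (hαi : S.α.toRingHom.IsIntegral) (hαf : FiniteAlong L S.α) (hαN : NormFormulaAlong L S.α hαf)
    (hβi : S.β.toRingHom.IsIntegral) (hβf : FiniteAlong L S.β) (hβN : NormFormulaAlong L S.β hβf)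
    {x : Pic0 L F} (hx : x ∈ deep S p)
    (hpushα : ∀ D : Divisor.degZero (K := L) (F := F), Pic0.mk D = x →
      (Divisor.pushforwardAlong S.α hαi (D : Divisor L F)).IsPrincipal)
    (hpushβ : ∀ D : Divisor.degZero (K := L) (F := F), Pic0.mk D = x →
      (Divisor.pushforwardAlong S.β hβi (D : Divisor L F)).IsPrincipal)
    (P : S.Sym) (hb : P.σb = RingHom.id Fb) {a : ℕ} (ha : a < p) {e : A}
    (hse : baseAut P.σ (c.s : L) = c.s * e) (he : π e = (a : k)) :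
    P.σ • x = a • x := by
  obtain ⟨N⟩ := hS.nonempty_nodes
  have hp : 0 < p := pos_of_sheet S
  obtain ⟨D, f, c₁, c₂, g₁, g₂, rfl, hf, hD, h1, h2, r1, r2⟩ := hx
  obtain ⟨aα, Gα, -, -, eα⟩ := Sheet.exists_norm_eq hαi hαf hαN hf hD (hpushα D rfl)
  obtain ⟨aβ, Gβ, -, -, eβ⟩ := Sheet.exists_norm_eq hβi hβf hβN hf hD (hpushβ D rfl)
  have hc1 : c₁ ≠ 0 := by
    rintro rfl
    rw [zero_smul] at r1
    exact pow_ne_zero p h1 (r1.unique S.R₁.res_zero)
  have hc2 : c₂ ≠ 0 := by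
    rintro rfl
    rw [zero_smul] at r2
    exact pow_ne_zero p h2 (r2.unique S.R₂.res_zero)
  obtain ⟨d, hd⟩ := IsAlgClosed.exists_pow_nat_eq (c₁ / c₂) hp
  let z : RootData S :=
    { f := c₁ • f
      f_ne := smul_ne_zero hc1 hf
      dvd := fun v => ⟨(D : Divisor L F) v, by
        rw [Algebra.smul_def, v.ord_mul (by simpa using hc1) hf, ord_algebraMap, zero_add, hD]⟩
      d := d
      d_ne := fun h => div_ne_zero hc1 hc2 (by rw [← hd, h, zero_pow hp.ne'])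
      g := (g₁, g₂)
      g₁_ne := h1
      g₂_ne := h2
      res := ⟨r1, by rw [smul_smul, inv_pow, hd, inv_div, div_mul_cancel₀ _ hc1]; exact r2⟩ }
  have hnorm : ∀ (φ : FC →ₐ[L] F) {aφ : L} {Gφ : FC}, FiniteAlong L φ →
      @Algebra.norm FC F _ _ (algebraAlong φ) f = aφ • Gφ ^ p →
      ∃ a' : L, @Algebra.norm FC F _ _ (algebraAlong φ) (c₁ • f) = a' • Gφ ^ p := by
    intro φ aφ Gφ hfin he
    letI := algebraAlong φ
    haveI := isScalarTower_along φ
    haveI : Module.Finite FC F := hfin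
    refine ⟨c₁ ^ Module.finrank FC F * aφ, ?_⟩
    rw [Algebra.smul_def, IsScalarTower.algebraMap_apply L FC F, map_mul, Algebra.norm_algebraMap,
      he, mul_smul, Algebra.smul_def (c₁ ^ _), map_pow]
  obtain ⟨aα', eα'⟩ := hnorm S.α hαf eα
  obtain ⟨aβ', eβ'⟩ := hnorm S.β hβf eβ
  obtain ⟨r, hr⟩ := z.exists_twist_root hS N hV hβdeg c eα' eβ' P hb ha hse he
  have hσf : P.σ • f ≠ 0 := (smul_ne_zero_iff_ne P.σ).2 hf
  have hr0 : r ≠ 0 := by
    rintro rfl
    rw [zero_pow hp.ne'] at hr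
    exact mul_ne_zero ((smul_ne_zero_iff_ne P.σ).2 z.f_ne) (pow_ne_zero _ z.f_ne) hr.symm
  have hord : ∀ v : Place L F, v.ord r =
      (D : Divisor L F) (P.σ⁻¹ • v) + ((p - a : ℕ) : ℤ) * (D : Divisor L F) v := by
    intro v
    have h := congrArg v.ord hr
    rw [ord_pow, v.ord_mul ((smul_ne_zero_iff_ne P.σ).2 z.f_ne) (pow_ne_zero _ z.f_ne), ord_pow,
      ord_smul'] at h
    have hz : ∀ u : Place L F, u.ord z.f = (p : ℤ) * (D : Divisor L F) u := fun u => by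
      show u.ord (c₁ • f) = _
      rw [Algebra.smul_def, u.ord_mul (by simpa using hc1) hf, ord_algebraMap, zero_add, hD]
    rw [hz, hz] at h
    refine mul_left_cancel₀ (Int.natCast_ne_zero.2 hp.ne') ?_
    rw [h]; ring
  have hcl : P.σ • Pic0.mk D + (p - a) • (Pic0.mk D : Pic0 L F) = 0 := by
    rw [SemilinearAut.pic0_smul_mk]
    refine (QuotientAddGroup.eq_zero_iff
      (SemilinearAut.degZeroSMulHom P.σ D + (p - a) • D)).2
      (AddSubgroup.mem_addSubgroupOf.2 ⟨r, hr0, fun v => ?_⟩)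
    rw [hord, AddSubgroup.coe_add, AddSubgroupClass.coe_nsmul, SemilinearAut.coe_degZeroSMulHom,
      Finsupp.add_apply, Finsupp.smul_apply, SemilinearAut.divisor_smul_apply, nsmul_eq_mul]
  have htors : p • (Pic0.mk D : Pic0 L F) = 0 :=
    (QuotientAddGroup.eq_zero_iff (p • D)).2 (AddSubgroup.mem_addSubgroupOf.2 ⟨f, hf, fun v => by
      rw [hD, AddSubgroupClass.coe_nsmul, Finsupp.smul_apply, nsmul_eq_mul]⟩)
  rw [eq_neg_of_add_eq_zero_left hcl, neg_eq_iff_add_eq_zero, ← add_nsmul,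
    show p - a + a = p by omega, htors]

end FLTAgent.Ordinary
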