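import Fermat.Agent.Mazur.Tate
import Fermat.Agent.FlatModel.HeckeFlat
import Mathlib.RingTheory.AdicCompletion.RingHom
import Mathlib.RingTheory.Flat.Basic

/-!
# The `p`-adic Hecke algebra away from `S` on the Tate lattice
-/

set_option autoImplicit false
set_option linter.style.haveILetI false
set_option linter.unusedSectionVars false
set_option synthInstance.maxHeartbeats 400000
set_option maxHeartbeats 1000000

noncomputable section

open Matrix CongruenceSubgroup TensorProduct AlgebraicCurve IsLocalRing Polynomial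

namespace FLTAgent.Ordinary

open FLTAgent.EigenLattice (Ix bas heckeMx)
open FLTAgent.Mazur (latticeHom)
open FLTAgent.Mazur.Tate (Lat lev gal hecke chi)

local notation "QA" => AlgebraicClosure ℚ
local notation "GG" => (AlgebraicClosure ℚ ≃ₐ[ℚ] AlgebraicClosure ℚ)

/-- The Hecke algebra of level `N` away from `S`. -/
abbrev HS (N : ℕ) [NeZero N] (S : Finset ℕ) : Type :=
  CuspForm.heckeAlgebra N 2 (↑S : Set ℕ)

/-- Its extension of scalars to `ℤ_p`. -/
abbrev Alg (N : ℕ) [NeZero N] (p : ℕ) [Fact p.Prime] (S : Finset ℕ) : Type :=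
  ℤ_[p] ⊗[ℤ] HS N S

variable (N : ℕ) [NeZero N] (p : ℕ) [Fact p.Prime] (S : Finset ℕ)

theorem finite_HS : Module.Finite ℤ (HS N S) :=
  haveI := PeriodHecke.finite_hecke N
  Module.Finite.of_injective (EigenReps.toFull N S).toAddMonoidHom.toIntLinearMap
    (EigenReps.toFull_injective N S)

instance instFreeHS : Module.Free ℤ (HS N S) :=
  haveI := finite_HS N S
  Module.free_of_finite_type_torsion_free'

instance instFiniteHS : Module.Finite ℤ (HS N S) := finite_HS N S

/-- The action on the lattice. -/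
def actL : Alg N p S →ₐ[ℤ_[p]] Module.End ℤ_[p] (Lat N p) :=
  latticeHom p ((hecke N p).comp (EigenReps.toFull N S))

theorem actL_tmul (c : ℤ_[p]) (t : HS N S) (v : Lat N p) :
    actL N p S (c ⊗ₜ[ℤ] t) v = c • hecke N p (EigenReps.toFull N S t) v := by
  simp [actL, latticeHom, Algebra.TensorProduct.lift_tmul, Algebra.ofId_apply,
    Module.algebraMap_end_apply]

theorem heckeMx_injective : Function.Injective (heckeMx N) := fun s t h => by
  have h1 : PeriodHecke.actDual N s = PeriodHecke.actDual N t :=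
    (LinearMap.toMatrix (bas N) (bas N)).injective (Matrix.transpose_injective h)
  refine PeriodHecke.actInt_injective N (LinearMap.ext fun φ => ?_)
  refine (Module.evalEquiv ℤ (PeriodHecke.Hpar (Gamma0 N) ℤ)).injective (LinearMap.ext fun w => ?_)
  exact (PeriodHecke.actDual_apply N _ w φ).symm.trans
    ((LinearMap.congr_fun (LinearMap.congr_fun h1 w) φ).trans (PeriodHecke.actDual_apply N _ w φ))

/-- The entries of the integral matrices. -/
def entries : HS N S →ₗ[ℤ] (Ix N × Ix N → ℤ) :=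
  AddMonoidHom.toIntLinearMap
    { toFun := fun t jk => heckeMx N (EigenReps.toFull N S t) jk.1 jk.2
      map_zero' := funext fun jk => by
        have h : heckeMx N (0 : CuspForm.heckeAlgebra N 2 (∅ : Set ℕ)) = 0 :=
          add_eq_left.1 ((EigenLattice.heckeMx_add N 0 0).symm.trans (by rw [add_zero]))
        rw [map_zero, h]; rfl
      map_add' := fun s t => funext fun jk => by
        rw [map_add, EigenLattice.heckeMx_add]; rfl }

/-- **The action is faithful.** -/
theorem actL_injective : Function.Injective (actL N p S) := by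
  have hinj : Function.Injective (entries N S) := fun s t h =>
    EigenReps.toFull_injective N S (heckeMx_injective N (Matrix.ext fun j k => congrFun h (j, k)))
  have h2 := Module.Flat.lTensor_preserves_injective_linearMap (M := ℤ_[p]) (entries N S) hinj
  classical
  let e := TensorProduct.piScalarRight ℤ ℤ ℤ_[p] (Ix N × Ix N)
  have key : ∀ x : Alg N p S, ∀ jk : Ix N × Ix N,
      e ((entries N S).lTensor ℤ_[p] x) jk = actL N p S x (Pi.single jk.2 1) jk.1 := by
    intro x jk
    induction x using TensorProduct.induction_on with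
    | zero => simp
    | add x y hx hy => simp [map_add, hx, hy]
    | tmul c t =>
      rw [LinearMap.lTensor_tmul, actL_tmul]
      simp [e, TensorProduct.piScalarRight_apply, entries, hecke, EigenLattice.heckeO,
        Matrix.mulVec_single, mul_comm]
  intro x y h
  exact h2 (e.injective (funext fun jk => by rw [key, key, h]))

theorem gal_actL (σ : GG) (x : Alg N p S) (v : Lat N p) :
    gal N p σ (actL N p S x v) = actL N p S x (gal N p σ v) := by
  induction x using TensorProduct.induction_on with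
  | zero => simp
  | add x y hx hy => simp [map_add, hx, hy]
  | tmul c t => rw [actL_tmul, actL_tmul, Mazur.Tate.gal_comm, map_smul]

section Trace

variable (hpS : p ∈ S) (hNS : ∀ q : ℕ, q.Prime → q ∣ N → q ∈ S)

/-- The approximation of the trace modulo `p ^ k`. -/
def liftS (σ : GG) (k : ℕ) : HS N S :=
  EigenReps.liftOp N S p hpS hNS (EigenReps.shift N S p + k) σ

theorem liftS_compat (σ : GG) {k m : ℕ} (hkm : k ≤ m) :
    ∃ s : HS N S, liftS N p S hpS hNS σ m = liftS N p S hpS hNS σ k + (p ^ k : ℕ) • s := by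
  obtain ⟨s, hs⟩ := (EigenReps.isLift_liftOp N S p hpS hNS (n := EigenReps.shift N S p + m)
    (n' := EigenReps.shift N S p + k) (by omega) σ).eq_add (Nat.le_add_right _ _)
      (EigenReps.isLift_liftOp N S p hpS hNS (n := EigenReps.shift N S p + k) le_rfl σ)
  exact ⟨s, by rw [liftS, hs, Nat.add_sub_cancel_left]; rfl⟩

theorem exists_trS (σ : GG) : ∃ x : Alg N p S, ∀ k, ∃ z : Alg N p S,
    x - (1 : ℤ_[p]) ⊗ₜ[ℤ] liftS N p S hpS hNS σ k = ((p : ℤ_[p]) ^ k) • z := by
  let b := Module.Free.chooseBasis ℤ (HS N S)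
  let a : ℕ → _ → ℤ := fun k i => b.repr (liftS N p S hpS hNS σ k) i
  have ha : ∀ i {k m}, k ≤ m → ((p ^ k : ℕ) : ℤ_[p]) ∣ (a m i : ℤ_[p]) - a k i := by
    intro i k m hkm
    obtain ⟨s, hs⟩ := liftS_compat N p S hpS hNS σ hkm
    refine ⟨(b.repr s i : ℤ), ?_⟩
    simp only [a]
    rw [hs, map_add, map_nsmul, Finsupp.add_apply, Finsupp.smul_apply, nsmul_eq_mul]
    push_cast
    ring
  choose x hx using fun i => EigenLattice.exists_limit_natPow p (Mazur.Tate.natCast_mem p)
    (fun k => (a k i : ℤ_[p])) (ha i)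
  choose y hy using hx
  refine ⟨∑ i, x i ⊗ₜ[ℤ] b i, fun k => ⟨∑ i, y i k ⊗ₜ[ℤ] b i, ?_⟩⟩
  conv_lhs => rw [← b.sum_repr (liftS N p S hpS hNS σ k), tmul_sum]
  rw [← Finset.sum_sub_distrib, Finset.smul_sum]
  refine Finset.sum_congr rfl fun i _ => ?_
  rw [← smul_tmul, zsmul_one, ← sub_tmul, smul_tmul', smul_eq_mul, ← Nat.cast_pow, ← hy i k]

/-- The trace of `σ` in the `p`-adic Hecke algebra. -/
def trS (σ : GG) : Alg N p S := (exists_trS N p S hpS hNS σ).choose

theorem trS_spec (σ : GG) (k : ℕ) : ∃ z : Alg N p S,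
    trS N p S hpS hNS σ - (1 : ℤ_[p]) ⊗ₜ[ℤ] liftS N p S hpS hNS σ k = ((p : ℤ_[p]) ^ k) • z :=
  (exists_trS N p S hpS hNS σ).choose_spec k

/-- The determinant of `σ`. -/
def detS (σ : GG) : Alg N p S := algebraMap ℤ_[p] _ (chi p σ)

theorem detS_mul (σ τ : GG) : detS N p S (σ * τ) = detS N p S σ * detS N p S τ := by
  rw [detS, detS, detS, Mazur.Tate.chi_mul, map_mul]

theorem actL_detS (σ : GG) (v : Lat N p) : actL N p S (detS N p S σ) v = chi p σ • v := by
  rw [detS, AlgHom.commutes, Module.algebraMap_end_apply]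

theorem actL_trS (σ : GG) :
    gal N p σ + actL N p S (detS N p S σ) * gal N p σ⁻¹ = actL N p S (trS N p S hpS hNS σ) := by
  refine LinearMap.ext fun v => sub_eq_zero.1 (Mazur.Tate.eq_zero_of_lev N p fun k => ?_)
  obtain ⟨z, hz⟩ := trS_spec N p S hpS hNS σ k
  have hL := EigenReps.isLift_liftOp N S p hpS hNS (n := EigenReps.shift N S p + k)
    (Nat.le_add_left k _) σ
  have e : lev N p k (actL N p S (trS N p S hpS hNS σ) v) =
      lev N p k (hecke N p (EigenReps.toFull N S (liftS N p S hpS hNS σ k)) v) := by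
    rw [sub_eq_iff_eq_add'.1 hz, map_add, map_smul, LinearMap.add_apply, LinearMap.smul_apply,
      map_add, Mazur.Tate.lev_smul_pow, add_zero, actL_tmul, one_smul]
  rw [map_sub, LinearMap.add_apply, Module.End.mul_apply, actL_detS, map_add, e, liftS,
    Mazur.Tate.lev_toFull, hL.2, Mazur.Tate.lev_chi_smul N p k σ hL.1, Mazur.Tate.lev_gal,
    Mazur.Tate.lev_gal]
  exact sub_self _

theorem trS_sq (σ : GG) : trS N p S hpS hNS σ * trS N p S hpS hNS σ =
    trS N p S hpS hNS (σ * σ) + 2 * detS N p S σ := by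
  refine actL_injective N p S ?_
  have hd : actL N p S (detS N p S (σ * σ)) =
      actL N p S (detS N p S σ) * actL N p S (detS N p S σ) := by rw [detS_mul, map_mul]
  have hc : ∀ g : GG, gal N p g * actL N p S (detS N p S σ) =
      actL N p S (detS N p S σ) * gal N p g := fun g => LinearMap.ext (gal_actL N p S g _)
  rw [map_mul, map_add, two_mul, map_add, ← actL_trS N p S hpS hNS σ,
    ← actL_trS N p S hpS hNS (σ * σ), hd, _root_.mul_inv_rev]
  simp only [map_mul, mul_add, add_mul]
  rw [show gal N p σ * (actL N p S (detS N p S σ) * gal N p σ⁻¹) = actL N p S (detS N p S σ) by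
      rw [← mul_assoc, hc, mul_assoc, ← map_mul (gal N p), mul_inv_cancel, map_one, mul_one],
    show actL N p S (detS N p S σ) * gal N p σ⁻¹ * gal N p σ = actL N p S (detS N p S σ) by
      rw [mul_assoc, ← map_mul (gal N p), inv_mul_cancel, map_one, mul_one],
    show actL N p S (detS N p S σ) * gal N p σ⁻¹ * (actL N p S (detS N p S σ) * gal N p σ⁻¹) =
        actL N p S (detS N p S σ) * actL N p S (detS N p S σ) * (gal N p σ⁻¹ * gal N p σ⁻¹) by
      rw [mul_assoc, ← mul_assoc (gal N p σ⁻¹), hc, mul_assoc, mul_assoc]]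
  abel

end Trace

section Coefficients

variable {p} {T : Type} [CommRing T] [IsLocalRing T] [IsAdicComplete (maximalIdeal T) T]
  (hpT : (p : T) ∈ maximalIdeal T)

include hpT in
theorem natCast_pow_quot (n : ℕ) : ((p ^ n : ℕ) : T ⧸ maximalIdeal T ^ n) = 0 := by
  rw [← map_natCast (Ideal.Quotient.mk (maximalIdeal T ^ n)), Ideal.Quotient.eq_zero_iff_mem,
    Nat.cast_pow]
  exact Ideal.pow_mem_pow hpT n

/-- Reduction of `p`-adic integers into a truncation. -/
def quotHom (n : ℕ) : ℤ_[p] →+* T ⧸ maximalIdeal T ^ n :=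
  ((Int.castRingHom (ZMod (p ^ n))).liftOfRightInverse ZMod.cast (fun x => ZMod.intCast_zmod_cast x)
    ⟨Int.castRingHom _, fun x hx => by
      rw [RingHom.mem_ker] at hx ⊢
      obtain ⟨c, rfl⟩ := (ZMod.intCast_zmod_eq_zero_iff_dvd x (p ^ n)).1 hx
      rw [map_mul, map_natCast, natCast_pow_quot hpT n, zero_mul]⟩).comp (PadicInt.toZModPow n)

theorem quotHom_eq {n : ℕ} {x : ℤ_[p]} {a : ℕ}
    (h : PadicInt.toZModPow n x = (a : ZMod (p ^ n))) : quotHom hpT n x = a := by
  rw [quotHom, RingHom.comp_apply, h, map_natCast]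

/-- The structure map from `ℤ_p`. -/
def padicTo : ℤ_[p] →+* T :=
  IsAdicComplete.liftRingHom (maximalIdeal T) (quotHom hpT) fun {m n} hle => by
    refine RingHom.ext fun x => ?_
    have hn : PadicInt.toZModPow n x = ((PadicInt.toZModPow n x).val : ZMod (p ^ n)) :=
      (ZMod.natCast_zmod_val _).symm
    have hm : PadicInt.toZModPow m x = ((PadicInt.toZModPow n x).val : ZMod (p ^ m)) := by
      have h1 : (p : ℤ_[p]) ^ n ∣ x - (PadicInt.toZModPow n x).val := by
        refine (Mazur.Tate.toZModPow_eq_zero_iff p).1 ?_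
        rw [map_sub, map_natCast, ← hn, sub_self]
      have h2 := (Mazur.Tate.toZModPow_eq_zero_iff p).2 ((pow_dvd_pow _ hle).trans h1)
      rwa [map_sub, map_natCast, sub_eq_zero] at h2
    rw [RingHom.comp_apply, quotHom_eq hpT hn, quotHom_eq hpT hm, map_natCast]

variable {S} (π : HS N S →+* T)

/-- The extension of `π`. -/
def psi : Alg N p S →+* T :=
  (Algebra.TensorProduct.lift (R := ℤ) (S := ℤ) (padicTo hpT).toIntAlgHom π.toIntAlgHom
    fun _ _ => Commute.all _ _).toRingHom

theorem psi_tmul (c : ℤ_[p]) (t : HS N S) :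
    psi N hpT π (c ⊗ₜ[ℤ] t) = padicTo hpT c * π t := by
  simp [psi]

theorem psi_algebraMap (c : ℤ_[p]) : psi N hpT π (algebraMap ℤ_[p] _ c) = padicTo hpT c := by
  rw [Algebra.TensorProduct.algebraMap_apply, psi_tmul, map_one, mul_one]
  rfl

theorem eq_of_forall_sub_mem_pow {x y : T} (h : ∀ k, x - y ∈ maximalIdeal T ^ k) : x = y :=
  sub_eq_zero.1 (IsHausdorff.haus (inferInstance : IsHausdorff (maximalIdeal T) T) _ fun k => by
    rw [SModEq.zero, smul_eq_mul, Ideal.mul_top]; exact h k)

variable (hpS : p ∈ S) (hNS : ∀ q : ℕ, q.Prime → q ∣ N → q ∈ S) (r : GG →* Deformation.M2 T)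
  (hr : Deformation.MatCts r)
  (hchar : ∀ (ℓ : ℕ) (hℓ : ℓ.Prime) (hℓN : ¬ ℓ ∣ N) (hℓS : ℓ ∉ (↑S : Set ℕ)),
    ∀ V : ValuationSubring QA, V.LiesOverPrime ℓ → ∀ τ : GG, V.IsFrobeniusAt τ ℓ →
      (r τ).charpoly = X ^ 2 - C (π (CuspForm.heckeAlgebra.T hℓ hℓN hℓS)) * X + C ((ℓ : T)))

include hr hchar in
theorem psi_trS (σ : GG) : psi N hpT π (trS N p S hpS hNS σ) = (r σ).trace := by
  refine eq_of_forall_sub_mem_pow fun k => ?_
  obtain ⟨z, hz⟩ := trS_spec N p S hpS hNS σ k
  obtain ⟨c, t, hlift, htr⟩ := FlatModel.exists_lift_trace (p := p) π r hpS hNS hr hchar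
    (I := maximalIdeal T ^ k) le_rfl (EigenReps.shift N S p + k) σ
  obtain ⟨s, hs⟩ := (EigenReps.isLift_liftOp N S p hpS hNS
    (n := EigenReps.shift N S p + k) le_rfl σ).eq_add (Nat.le_add_right _ _) hlift
  have h1 : psi N hpT π (trS N p S hpS hNS σ) - π (liftS N p S hpS hNS σ k) ∈
      maximalIdeal T ^ k := by
    have := congrArg (psi N hpT π) hz
    rw [map_sub, psi_tmul, map_one, one_mul, ← Nat.cast_pow, Nat.cast_smul_eq_nsmul, map_nsmul,
      nsmul_eq_mul, Nat.cast_pow] at this
    rw [this]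
    exact Ideal.mul_mem_right _ _ (Ideal.pow_mem_pow hpT k)
  have h2 : π (liftS N p S hpS hNS σ k) - π t ∈ maximalIdeal T ^ k := by
    rw [liftS, hs, map_add, map_nsmul, add_sub_cancel_left, nsmul_eq_mul, Nat.add_sub_cancel_left,
      Nat.cast_pow]
    exact Ideal.mul_mem_right _ _ (Ideal.pow_mem_pow hpT k)
  have := add_mem (add_mem h1 h2) htr
  convert this using 1
  ring

include hr hchar in
/-- The determinant is cyclotomic. -/
theorem psi_detS (h2 : IsUnit (2 : T)) (hpS : p ∈ S)
    (hNS : ∀ q : ℕ, q.Prime → q ∣ N → q ∈ S) (σ : GG) :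
    psi N hpT π (detS N p S σ) = (r σ).det := by
  have h := congrArg (psi N hpT π) (trS_sq N p S hpS hNS σ)
  rw [map_mul, map_add, map_mul, map_ofNat, psi_trS N hpT π hpS hNS r hr hchar σ,
    psi_trS N hpT π hpS hNS r hr hchar (σ * σ), map_mul] at h
  refine h2.mul_left_cancel ?_
  rw [Matrix.det_fin_two]
  simp only [Matrix.trace_fin_two, Matrix.mul_apply, Fin.sum_univ_two] at h
  linear_combination -h

end Coefficients

end FLTAgent.Ordinary
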