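import Fermat.Agent.BadRed.Galois

/-!
# Functions with divisor divisible by the residue characteristic and reductions `p`-th powers

In characteristic `p` the gluing constants of such a function are trivial: the normalised
reductions of `L(D + m · poles)` are the reductions of `L(m · poles)`.
-/

set_option autoImplicit false
set_option linter.style.haveILetI false
set_option linter.unusedSectionVars false

noncomputable section

namespace FLTAgent.Ordinary

open AlgebraicCurve FLTAgent.Curves FLTAgent.Specialization FLTAgent.BadRed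

variable {L k : Type*} [Field L] [Field k] {A : ValuationSubring L} {π : A →+* k}
  {FC Fb F : Type*} [Field FC] [Field Fb] [Field F] [Algebra L FC]
  [Algebra k Fb] [Algebra L F] [IsAlgClosed L] [IsFunctionField L FC] [IsFunctionField L F]
  [IsAlgClosed k] [IsFunctionField k Fb] {p : ℕ}

variable (S : Sheet π FC Fb F p)

/-- A function with divisor divisible by `p` whose reductions on both sheets are `p`-th powers. -/
structure RootData where
  f : F
  f_ne : f ≠ 0
  dvd : ∀ v : Place L F, (p : ℤ) ∣ v.ord f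
  d : L
  d_ne : d ≠ 0
  g : Fb × Fb
  g₁_ne : g.1 ≠ 0
  g₂_ne : g.2 ≠ 0
  res : (S.pair (d⁻¹ ^ p)).Res f (g ^ p)

variable {S}

theorem pos_of_sheet (S : Sheet π FC Fb F p) : 0 < p := by have := S.one_lt; omega

/-- Powers of glued pairs are glued. -/
theorem rimg_pow {a : ℕ} {g : Fb × Fb} (hg : g ∈ S.rimg a) : ∀ j : ℕ, g ^ j ∈ S.rimg (j * a)
  | 0 => by
    rw [pow_zero, zero_mul]
    exact LRed.mem_image_of_res (one_mem_rrSpace fun v => by simp) S.pair_one
  | j + 1 => by
    rw [pow_succ, Nat.succ_mul]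
    exact S.rimg_mul (rimg_pow hg j) hg

theorem one_mem_rimg (m : ℕ) : (1 : Fb × Fb) ∈ S.rimg m :=
  LRed.mem_image_of_res (one_mem_rrSpace fun v => by
    simpa using mul_nonneg (Int.natCast_nonneg m) (poleDiv_nonneg (K := L) S.X v)) S.pair_one

/-- A pair with glued `p`-th power is glued. -/
theorem mem_rimg_of_pow [Fact p.Prime] [CharP k p] (N : S.Nodes) {m : ℕ}
    (hm : N.m₀ ≤ m) {φ : Fb × Fb} (hpow : φ ^ p ∈ S.rimg (p * m)) : φ ∈ S.rimg m := by
  have hp : 0 < p := pos_of_sheet S
  obtain ⟨h1, h2⟩ := S.rimg_le_targ _ hpow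
  have key : ∀ (a : ℕ) (ψ : Fb), ψ ^ p ∈
      riemannRochSpace (((p * a : ℕ) : ℤ) • poleDiv k S.MC.xb) →
      ψ ∈ riemannRochSpace ((a : ℤ) • poleDiv k S.MC.xb) := by
    intro a ψ h
    refine mem_rrSpace.2 fun v => ?_
    rcases eq_or_ne ψ 0 with rfl | hψ0
    · exact ordGE_zero _ _
    have h' := (mem_rrSpace.1 h v).le_ord (pow_ne_zero p hψ0)
    rw [ord_pow, Finsupp.smul_apply, smul_eq_mul] at h'
    rw [Finsupp.smul_apply, smul_eq_mul]
    refine ordGE_of_le (le_of_mul_le_mul_left ?_ (Int.natCast_pos.2 hp))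
    push_cast at h' ⊢
    linarith
  have ht : φ ∈ S.targ m :=
    ⟨key m _ h1, key (p * m) _ (by rwa [show p * (p * m) = p * (p * m) from rfl])⟩
  refine N.char m hm φ ht fun i => frobenius_inj k p ?_
  have hr1 : φ.1 ∈ S.regular := (mem_rrSpace_poles.1 ht.1).1
  have hr2 : φ.2 ∈ S.regular := (mem_rrSpace_poles.1 ht.2).1
  simp only [frobenius_def]
  rw [← N.s_pow i hr1, ← N.s_pow i (S.V_mem_regular hr2), ← map_pow S.V, ← Prod.pow_fst,
    ← Prod.pow_snd]
  exact N.compat _ _ hpow i

namespace RootData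

variable (z : RootData S)

/-- One `p`-th of the divisor. -/
def D : Divisor L F := (divOf L z.f).mapRange (fun e => e / (p : ℤ)) (Int.zero_ediv _)

theorem mul_D (v : Place L F) : (p : ℤ) * z.D v = v.ord z.f := by
  rw [D, Finsupp.mapRange_apply, divOf_apply, Int.mul_ediv_cancel' (z.dvd v)]

theorem degree_D : Divisor.degree z.D = 0 := by
  have h : (p : ℤ) • z.D = divOf L z.f := Finsupp.ext fun v => by
    rw [Finsupp.smul_apply, smul_eq_mul, mul_D, divOf_apply]
  have h' := congrArg Divisor.degree h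
  rw [map_zsmul, degree_divOf, smul_eq_mul] at h'
  have := pos_of_sheet S
  rcases mul_eq_zero.1 h' with h'' | h''
  exacts [absurd h'' (by omega), h'']

/-- Functions `u` with `uᵖ f` having poles bounded by `p m` times those of the coordinate. -/
def space (m : ℕ) : Submodule L F := riemannRochSpace (z.D + (m : ℤ) • poleDiv L S.X)

theorem mem_space_iff {u : F} {m : ℕ} :
    u ∈ z.space m ↔ ∀ v, OrdGE v (-(z.D v + (m : ℤ) * poleDiv L S.X v)) u := by
  simp [space, mem_rrSpace]

instance finiteDimensional_space (m : ℕ) : FiniteDimensional L (z.space m) :=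
  finiteDimensional_rrSpace _

theorem mul_mem_space {u e : F} {a b : ℕ} (hu : u ∈ z.space a)
    (he : e ∈ riemannRochSpace ((b : ℤ) • poleDiv L S.X)) : u * e ∈ z.space (a + b) := by
  rw [mem_space_iff] at hu ⊢
  intro v
  refine ((hu v).mul (mem_rrSpace.1 he v)).mono (le_of_eq ?_)
  rw [Finsupp.smul_apply, smul_eq_mul]
  push_cast; ring

/-- Products of `p` elements of the space, times `f`. -/
theorem prod_mul_mem {m : ℕ} {u : Fin p → F} (hu : ∀ j, u j ∈ z.space m) :
    (∏ j, u j) * z.f ∈ riemannRochSpace (((p * m : ℕ) : ℤ) • poleDiv L S.X) := by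
  refine mem_rrSpace.2 fun v => ?_
  have h : ∀ s : Finset (Fin p),
      OrdGE v ((s.card : ℤ) * -(z.D v + (m : ℤ) * poleDiv L S.X v)) (∏ j ∈ s, u j) := by
    intro s
    induction s using Finset.induction with
    | empty => simpa using (ordGE_of_le (v.ord_one).ge : OrdGE v 0 (1 : F))
    | insert a s ha ih =>
      rw [Finset.prod_insert ha, Finset.card_insert_of_notMem ha]
      refine (((z.mem_space_iff).1 (hu a) v).mul ih).mono (le_of_eq ?_)
      push_cast; ring
  refine ((h Finset.univ).mul (ordGE_ord v z.f)).mono (le_of_eq ?_)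
  rw [← z.mul_D v, Finsupp.smul_apply, smul_eq_mul, Finset.card_univ, Fintype.card_fin]
  push_cast; ring

theorem mul_pow_mem {u u' : F} {m j l : ℕ} (hu : u ∈ z.space m) (hu' : u' ∈ z.space m)
    (hjl : j + l = p) :
    u' ^ j * u ^ l * z.f ∈ riemannRochSpace (((p * m : ℕ) : ℤ) • poleDiv L S.X) := by
  subst hjl
  have := z.prod_mul_mem (u := Fin.append (fun _ : Fin j => u') (fun _ : Fin l => u))
    (fun i => Fin.addCases (fun i => by rw [Fin.append_left]; exact hu')
      (fun i => by rw [Fin.append_right]; exact hu) i)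
  simpa [Fin.prod_univ_add] using this

theorem npow_mem {u : F} {m : ℕ} (hu : u ∈ z.space m) :
    u ^ p * z.f ∈ riemannRochSpace (((p * m : ℕ) : ℤ) • poleDiv L S.X) := by
  simpa using z.mul_pow_mem hu hu (Nat.zero_add p)

theorem mem_space_of_pow {u : F} {m : ℕ}
    (h : u ^ p * z.f ∈ riemannRochSpace (((p * m : ℕ) : ℤ) • poleDiv L S.X)) : u ∈ z.space m := by
  rw [mem_space_iff]
  intro v
  rcases eq_or_ne u 0 with rfl | hu
  · exact ordGE_zero _ _
  have h' := (mem_rrSpace.1 h v).le_ord (mul_ne_zero (pow_ne_zero p hu) z.f_ne)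
  rw [v.ord_mul (pow_ne_zero p hu) z.f_ne, ord_pow, ← z.mul_D v, Finsupp.smul_apply, smul_eq_mul]
    at h'
  refine ordGE_of_le (le_of_mul_le_mul_left ?_ (Int.natCast_pos.2 (pos_of_sheet S)))
  push_cast at h'
  linarith

theorem finrank_space {m : ℕ} (hm : rBound L F ≤ m) : (Module.finrank L (z.space m) : ℤ) =
    Module.finrank L (riemannRochSpace ((m : ℤ) • poleDiv L S.X)) := by
  have h := le_degree_poles (K := L) S.transcendental_X hm
  have e1 := ell_eq (K := L) (F := F) h
  have e2 := ell_eq (K := L) (F := F) (G := z.D + (m : ℤ) • poleDiv L S.X)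
    (by rw [map_add, z.degree_D, zero_add]; exact h)
  rw [map_add, z.degree_D, zero_add] at e2
  exact e2.trans e1.symm

/-- The reduction of a product of `p` elements, times `f`. -/
theorem res_prod {u : Fin p → F} {w : Fin p → Fb × Fb} (h : ∀ j, (S.pair z.d).Res (u j) (w j)) :
    (S.pair 1).Res ((∏ j, u j) * z.f) (∏ j, w j * z.g) := by
  have hp : ∀ s : Finset (Fin p), (S.pair (z.d ^ s.card)).Res (∏ j ∈ s, u j) (∏ j ∈ s, w j) := by
    intro s
    induction s using Finset.induction with
    | empty => simpa using S.pair_one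
    | insert a s ha ih =>
      rw [Finset.prod_insert ha, Finset.prod_insert ha, Finset.card_insert_of_notMem ha, pow_succ']
      exact S.pair_mul (h a) ih
  have := S.pair_mul (hp Finset.univ) z.res
  rw [Finset.card_univ, Fintype.card_fin, ← mul_pow, mul_inv_cancel₀ z.d_ne, one_pow] at this
  simpa [Finset.prod_mul_distrib] using this

theorem res_mul_pow {u u' : F} {w w' : Fb × Fb} (h : (S.pair z.d).Res u w)
    (h' : (S.pair z.d).Res u' w') {j l : ℕ} (hjl : j + l = p) :
    (S.pair 1).Res (u' ^ j * u ^ l * z.f) ((w' * z.g) ^ j * (w * z.g) ^ l) := by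
  have := S.pair_mul (S.pair_mul (S.pair_pow h' j) (S.pair_pow h l)) z.res
  rw [← pow_add, hjl, ← mul_pow, mul_inv_cancel₀ z.d_ne, one_pow] at this
  convert this using 1
  rw [mul_pow, mul_pow, show z.g ^ p = z.g ^ j * z.g ^ l by rw [← pow_add, hjl]]
  ring

theorem res_pow {u : F} {w : Fb × Fb} (h : (S.pair z.d).Res u w) :
    (S.pair 1).Res (u ^ p * z.f) ((w * z.g) ^ p) := by
  simpa using z.res_mul_pow h h (Nat.zero_add p)

/-- The normalised reductions of the space. -/
def normImg (m : ℕ) : Submodule k (Fb × Fb) :=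
  ((S.pair z.d).image (z.space m)).map (LinearMap.mulRight k z.g)

theorem mem_normImg {φ : Fb × Fb} {m : ℕ} :
    φ ∈ z.normImg m ↔ ∃ u ∈ z.space m, ∃ w, (S.pair z.d).Res u w ∧ w * z.g = φ := by
  simp only [normImg, Submodule.mem_map, LRed.mem_image S.MC.surj, LinearMap.mulRight_apply]
  exact ⟨fun ⟨w, ⟨u, hu, h⟩, e⟩ => ⟨u, hu, w, h, e⟩, fun ⟨u, hu, w, h, e⟩ => ⟨w, ⟨u, hu, h⟩, e⟩⟩

theorem mul_g_injective : Function.Injective (LinearMap.mulRight k z.g) := by
  intro a b h
  simp only [LinearMap.mulRight_apply, Prod.ext_iff, Prod.fst_mul, Prod.snd_mul] at h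
  exact Prod.ext (mul_right_cancel₀ z.g₁_ne h.1) (mul_right_cancel₀ z.g₂_ne h.2)

variable [Fact p.Prime] [CharP k p] (hS : S.Good) (N : S.Nodes)
include hS

/-- In characteristic `p` the normalised reductions are glued without constants. -/
theorem normImg_eq {m : ℕ} (hm : N.m₀ ≤ m) : z.normImg m = S.rimg m := by
  have hle : z.normImg m ≤ S.rimg m := by
    rintro φ hφ
    obtain ⟨u, hu, w, hw, rfl⟩ := z.mem_normImg.1 hφ
    set φ := w * z.g
    have hpow : φ ^ p ∈ S.rimg (p * m) :=
      LRed.mem_image_of_res (z.npow_mem hu) (z.res_pow hw)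
    exact mem_rimg_of_pow N hm hpow
  haveI := Sheet.finiteDimensional_targ hS m
  haveI : FiniteDimensional k (S.rimg m) := Submodule.finiteDimensional_of_le (S.rimg_le_targ m)
  refine Submodule.eq_of_le_of_finrank_le hle (le_of_eq ?_)
  have hb := N.bound_le
  have := Int.self_le_toNat (rBound L F)
  rw [normImg, ← (Submodule.equivMapOfInjective _ z.mul_g_injective _).finrank_eq,
    LRed.finrank_image (S.orth z.d_ne) S.MC.surj, Sheet.rimg,
    LRed.finrank_image S.orth_one S.MC.surj]
  exact_mod_cast (z.finrank_space (by omega)).symm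

/-- A basis of the space whose normalised reductions are a basis of the glued pairs. -/
theorem exists_basis {m : ℕ} (hm : N.m₀ ≤ m) :
    ∃ (r : ℕ) (v : Fin r → F) (w : Fin r → Fb × Fb), (∀ i, v i ∈ z.space m) ∧
      (∀ i, (S.pair z.d).Res (v i) (w i)) ∧
      LinearIndependent k (fun i => w i * z.g) ∧
      Submodule.span k (Set.range fun i => w i * z.g) = S.rimg m := by
  obtain ⟨v, w, hv, hvw, hw, -, him⟩ :=
    LRed.exists_basis (S.orth z.d_ne) S.MC.surj (z.space m)
  refine ⟨_, v, w, hv, hvw, hw.map' (LinearMap.mulRight k z.g)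
    (LinearMap.ker_eq_bot.2 z.mul_g_injective), ?_⟩
  rw [← z.normImg_eq hS N hm, normImg, him, Submodule.map_span, ← Set.range_comp]
  rfl

end RootData

end FLTAgent.Ordinary
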