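import Fermat.Agent.Ordinary.Crit
import Fermat.Agent.BadRed.Criterion

/-!
# Exact roots from approximate roots strictly below the critical precision

Two approximate roots, for the targets `1` and `Xᵐ`, are improved together: what is left of their
errors in complements of the linear images is killed by comparing the two.
-/

set_option autoImplicit false
set_option linter.style.haveILetI false
set_option linter.unusedSectionVars false

noncomputable section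

namespace FLTAgent.Ordinary

open AlgebraicCurve FLTAgent.Curves FLTAgent.Specialization FLTAgent.BadRed

variable {L k : Type*} [Field L] [Field k] {A : ValuationSubring L} {π : A →+* k}
  {FC Fb F : Type*} [Field FC] [Field Fb] [Field F] [Algebra L FC]
  [Algebra k Fb] [Algebra L F] [IsAlgClosed L] [IsFunctionField L FC] [IsFunctionField L F]
  [IsAlgClosed k] [IsFunctionField k Fb] {p : ℕ} {S : Sheet π FC Fb F p}
  [Fact p.Prime] [CharP k p]

theorem smul_mem_intRing (a : A) {x : F} (hx : x ∈ S.intRing) : (a : L) • x ∈ S.intRing := by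
  rw [Algebra.smul_def]
  exact mul_mem (S.algebraMap_mem_intRing a) hx

/-- The binomial expansion at the critical scale. -/
theorem exists_expand (c : CritScale π p) {R : F} (hR : R ∈ S.intRing) (t : A) :
    ∃ Q ∈ S.intRing, (1 + ((c.s : L) * t) • R) ^ p = 1 + ((c.s : L) ^ p * t) •
      (R * ((c.ε : L) • 1 + ((t : L) ^ (p - 1)) • R ^ (p - 1) + ((c.s : L) * t) • Q)) := by
  have hp : 0 < p := pos_of_sheet S
  have hy : ((c.s : L) * t) • R ∈ S.intRing := by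
    have := smul_mem_intRing (c.s * t) hR
    simpa using this
  obtain ⟨r₀, hr₀⟩ := exists_add_pow_prime_eq (Fact.out : p.Prime)
    (Polynomial.X : Polynomial ℤ) 1
  have hc0 : r₀.coeff 0 = 1 := by
    have h1 := congrArg (fun P : Polynomial ℤ => P.coeff 1) hr₀
    have hp2 : p ≠ 1 := (Fact.out : p.Prime).ne_one
    simp only [one_pow, mul_one, Polynomial.coeff_X_add_one_pow, Nat.choose_one_right,
      Polynomial.coeff_add, Polynomial.coeff_X_pow, if_neg (Ne.symm hp2), Polynomial.coeff_one,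
      one_ne_zero, if_false, zero_add, mul_assoc, Polynomial.coeff_natCast_mul,
      Polynomial.coeff_X_mul, add_zero] at h1
    exact mul_left_cancel₀ (Int.natCast_ne_zero.2 hp.ne') (h1.symm.trans (mul_one _).symm)
  set y : S.intRing := ⟨_, hy⟩
  set q' : S.intRing := Polynomial.aeval y r₀.divX
  have hq : (y + 1) ^ p = y ^ p + 1 + p * y * (y * q' + 1) := by
    have h1 := congrArg (Polynomial.aeval y) hr₀
    rw [← Polynomial.X_mul_divX_add r₀, hc0, Polynomial.C_1] at h1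
    simpa using h1
  have hq' := congrArg (Subring.subtype S.intRing) hq
  simp only [map_add, map_pow, map_mul, map_one, map_natCast, Subring.coe_subtype, y] at hq'
  refine ⟨(c.ε : L) • ((q' : F) * R), smul_mem_intRing c.ε (mul_mem q'.2 hR), ?_⟩
  obtain ⟨j, hj⟩ : ∃ j, p = j + 1 := ⟨p - 1, by omega⟩
  rw [add_comm (1 : F), hq', ← map_natCast (algebraMap L F) p, c.eq]
  simp only [Algebra.smul_def, map_mul, map_pow, hj, add_tsub_cancel_right]
  ring

namespace RootData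

variable (z : RootData S) (c : CritScale π p) (hS : S.Good) (N : S.Nodes)

include hS in
/-- Comparison of the errors of approximate roots for the targets `1` and `θ`. -/
theorem compare {m : ℕ} (hm : N.m₀ ≤ m) {u₁ u₂ h : F} {w₁ w₂ θ : Fb × Fb}
    (hh : h ∈ riemannRochSpace ((m : ℤ) • poleDiv L S.X)) (hθ : (S.pair 1).Res h θ)
    (hθ1 : θ.1 ≠ 0) (hθ2 : θ.2 ≠ 0)
    (hu₁ : u₁ ∈ z.space m) (hu₂ : u₂ ∈ z.space m) (r₁ : (S.pair z.d).Res u₁ w₁)
    (g₁ : w₁ * z.g = 1) (r₂ : (S.pair z.d).Res u₂ w₂) (g₂ : w₂ * z.g = θ)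
    {t₀ t : A} (ht₀ : π t₀ = 0) (ht : (t : L) ≠ 0)
    (ag : (S.pair z.d).Small ((c.s : L) * t₀) (u₁ * h - u₂))
    {y₁ y₂ : F} {yb₁ yb₂ : Fb × Fb} (hy₁ : (S.pair 1).Res y₁ yb₁) (hy₂ : (S.pair 1).Res y₂ yb₂)
    (e₁ : u₁ ^ p * z.f - 1 = ((c.s : L) ^ p * t) • y₁)
    (e₂ : u₂ ^ p * z.f - h ^ p = ((c.s : L) ^ p * t) • y₂) :
    ∃ ψ ∈ S.rimg (m + m), θ ^ p * yb₁ - yb₂ = θ ^ (p - 1) * ψ := by
  have hp : 0 < p := pos_of_sheet S
  have hp2 : p - 1 ≠ 0 := by have := S.one_lt; omega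
  have hg : z.g.1 ≠ 0 ∧ z.g.2 ≠ 0 := ⟨z.g₁_ne, z.g₂_ne⟩
  have hw2 : w₂.1 ≠ 0 ∧ w₂.2 ≠ 0 := by
    rw [← g₂] at hθ1 hθ2
    exact ⟨left_ne_zero_of_mul hθ1, left_ne_zero_of_mul hθ2⟩
  have hu2 : u₂ ≠ 0 := r₂.1.ne_zero hw2.1
  obtain ⟨Y, ⟨yb, hY⟩, heY⟩ := ag
  -- the ratio of the two roots
  have hinv : (S.pair z.d⁻¹).Res u₂⁻¹ (w₂.1⁻¹, w₂.2⁻¹) := ⟨r₂.1.inv hw2.1, by
    have := r₂.2.inv hw2.2
    rwa [Algebra.smul_def, mul_inv, ← map_inv₀, ← Algebra.smul_def] at this⟩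
  set R : F := (t₀ : L) • (Y * u₂⁻¹) with hR
  have hRres : (S.pair 1).Res R 0 := by
    have := (S.pair 1).res_smul t₀ (show (S.pair 1).Res (Y * u₂⁻¹) _ by
      simpa [mul_inv_cancel₀ z.d_ne] using S.pair_mul hY hinv)
    simpa [ht₀] using this
  have hRi : R ∈ S.intRing := S.integral_iff_mem.1 ⟨_, hRres⟩
  have hr : u₁ * h = u₂ * (1 + (c.s : L) • R) := by
    rw [mul_add, mul_one, mul_smul_comm, hR, mul_smul_comm, mul_left_comm, mul_inv_cancel₀ hu2,
      mul_one, smul_smul, ← heY, add_sub_cancel]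
  obtain ⟨Q, hQ, hexp⟩ := exists_expand c hRi (1 : A)
  simp only [OneMemClass.coe_one, mul_one, one_pow, one_smul] at hexp
  set G := (c.ε : L) • (1 : F) + R ^ (p - 1) + (c.s : L) • Q with hG
  obtain ⟨Qb, hQb⟩ := S.integral_iff_mem.2 hQ
  have hGres : (S.pair 1).Res G (π c.ε • 1) := by
    have h1 := (S.pair 1).res_add ((S.pair 1).res_add ((S.pair 1).res_smul c.ε S.pair_one)
      (show (S.pair 1).Res (R ^ (p - 1)) 0 by
        simpa [zero_pow hp2] using S.pair_pow hRres (p - 1)))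
      ((S.pair 1).res_smul c.s hQb)
    simpa [c.s_res] using h1
  have hGne : (π c.ε • (1 : Fb × Fb)).1 ≠ 0 ∧ (π c.ε • (1 : Fb × Fb)).2 ≠ 0 := by
    simp [Algebra.smul_def, c.ε_res]
  have hG0 : G ≠ 0 := hGres.1.ne_zero hGne.1
  have hGinv : (S.pair 1).Res G⁻¹ ((π c.ε)⁻¹ • 1) := by
    refine ⟨?_, ?_⟩
    · have := hGres.1.inv hGne.1
      simpa [Algebra.smul_def] using this
    · have h2 := hGres.2
      rw [one_smul] at h2 ⊢
      have := h2.inv hGne.2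
      simpa [Algebra.smul_def] using this
  -- the factor of the difference of the powers
  set B := u₂ ^ p * z.f
  have hB : (S.pair 1).Res B (θ ^ p) := g₂ ▸ z.res_pow r₂
  have hB0 : B ≠ 0 := hB.1.ne_zero (pow_ne_zero _ hθ1)
  have hBinv : (S.pair 1).Res B⁻¹ ((θ.1 ^ p)⁻¹, (θ.2 ^ p)⁻¹) := ⟨hB.1.inv (pow_ne_zero _ hθ1), by
    have h2 := hB.2
    rw [one_smul] at h2 ⊢
    exact h2.inv (pow_ne_zero _ hθ2)⟩
  set Y' := (h ^ p * y₁ - y₂) * B⁻¹
  have hY' : (S.pair 1).Res Y' ((θ ^ p * yb₁ - yb₂) * ((θ.1 ^ p)⁻¹, (θ.2 ^ p)⁻¹)) := by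
    have h1 : (S.pair 1).Res (h ^ p * y₁) (θ ^ p * yb₁) := by
      simpa using S.pair_mul (S.pair_pow hθ p) hy₁
    simpa using S.pair_mul (LRed.res_sub h1 hy₂) hBinv
  have hsp : (c.s : L) ^ p ≠ 0 := pow_ne_zero _ c.s_ne
  have hRG : R * G = (t : L) • Y' := by
    have h1 : (u₁ * h) ^ p * z.f - B = ((c.s : L) ^ p * t) • (h ^ p * y₁ - y₂) := by
      rw [smul_sub, ← mul_smul_comm, ← e₁, ← e₂, mul_pow]
      ring
    rw [hr, mul_pow, hexp, mul_right_comm, show u₂ ^ p * z.f = B from rfl, mul_add, mul_one,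
      add_sub_cancel_left] at h1
    have h2 : ((c.s : L) ^ p) • (R * G) = ((c.s : L) ^ p) • ((t : L) • Y') := by
      rw [smul_smul]
      simp only [Y', ← smul_mul_assoc _ _ B⁻¹]
      rw [← h1, mul_comm B, mul_assoc, mul_inv_cancel₀ hB0, mul_one]
    exact smul_right_injective F hsp h2
  -- the difference of the roots
  set Ψ := u₂ * (Y' * G⁻¹)
  have hΨ : u₁ * h - u₂ = ((c.s : L) * t) • Ψ := by
    rw [hr, mul_smul, ← mul_smul_comm (t : L), ← smul_mul_assoc (t : L) Y', ← hRG, mul_assoc R,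
      mul_inv_cancel₀ hG0, mul_one, mul_add, mul_one, add_sub_cancel_left, mul_smul_comm]
  have hΨS : Ψ ∈ z.space (m + m) := by
    have h1 : u₁ * h - u₂ ∈ z.space (m + m) := Submodule.sub_mem _ (z.mul_mem_space hu₁ hh)
      (by simpa using z.mul_mem_space hu₂ (one_mem_rrSpace fun v => by
        simpa using mul_nonneg (Int.natCast_nonneg m) (poleDiv_nonneg (K := L) S.X v) :
          (1 : F) ∈ riemannRochSpace ((m : ℤ) • poleDiv L S.X)))
    rw [hΨ] at h1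
    have h2 := Submodule.smul_mem _ ((c.s : L) * t)⁻¹ h1
    rwa [smul_smul, inv_mul_cancel₀ (mul_ne_zero c.s_ne ht), one_smul] at h2
  have hΨr := S.pair_mul r₂ (S.pair_mul hY' hGinv)
  rw [mul_one, mul_one] at hΨr
  have hmem := z.mem_normImg.2 ⟨Ψ, hΨS, _, hΨr, rfl⟩
  rw [z.normImg_eq hS N (by omega)] at hmem
  refine ⟨_, Submodule.smul_mem _ (π c.ε) hmem, ?_⟩
  obtain ⟨j, hj⟩ : ∃ j, p = j + 1 := ⟨p - 1, by omega⟩
  rw [show w₂ * _ * z.g = (w₂ * z.g) * ((θ ^ p * yb₁ - yb₂) * ((θ.1 ^ p)⁻¹, (θ.2 ^ p)⁻¹) *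
    ((π c.ε)⁻¹ • 1)) by ring, g₂]
  simp only [hj, add_tsub_cancel_right, pow_succ]
  refine Prod.ext ?_ ?_ <;>
  · simp only [Prod.smul_fst, Prod.smul_snd, Prod.fst_mul, Prod.snd_mul, Prod.pow_fst, Prod.pow_snd,
      Prod.fst_sub, Prod.snd_sub, Prod.fst_one, Prod.snd_one, mul_smul_comm, mul_one, smul_smul,
      mul_inv_cancel₀ c.ε_res, one_smul]
    field_simp

variable {t₀ : A}

/-- One step of the linear iteration. -/
theorem improve {m : ℕ} (hm : N.m₀ ≤ m) (hS : S.Good) {u h : F} {w θ : Fb × Fb}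
    (hh : h ∈ riemannRochSpace ((m : ℤ) • poleDiv L S.X)) (hθ : (S.pair 1).Res h θ)
    (hθ1 : θ.1 ≠ 0) (hθ2 : θ.2 ≠ 0) (hu : u ∈ z.space m) (r : (S.pair z.d).Res u w)
    (g : w * z.g = θ) {t δ : A} (ht : π t = 0) {α β : A} (hsδ : c.s = δ * α) (htδ : t = δ * β)
    (e : (S.pair 1).Small ((c.s : L) ^ p * t) (u ^ p * z.f - h ^ p)) :
    ∃ (n : ℕ) (cj : Fin n → F) (cb : Fin n → Fb × Fb) (b : Fin n → A) (u' R : F),
      (∀ j, cj j ∈ riemannRochSpace (K := L) (((p * m : ℕ) : ℤ) • poleDiv L S.X)) ∧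
      (∀ j, (S.pair 1).Res (cj j) (cb j)) ∧ LinearIndependent k cb ∧
      (∀ φ ∈ S.rimg m, θ ^ (p - 1) * φ ∈ Submodule.span k (Set.range cb) →
        θ ^ (p - 1) * φ = 0) ∧
      u' ∈ z.space m ∧ (S.pair z.d).Res u' w ∧
      (S.pair z.d).Small ((c.s : L) * t) (u' - u) ∧ (S.pair 1).Integral R ∧
      u' ^ p * z.f - h ^ p =
        ((c.s : L) ^ p * t) • (∑ j, (b j : L) • cj j + (δ : L) • R) := by
  classical
  have hp : 0 < p := pos_of_sheet S
  have hp1 : 1 < p := S.one_lt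
  have hπ := S.MC.surj
  obtain ⟨r', v, wv, hv, hvw, hφ, hspan⟩ := z.exists_basis hS N hm
  set φ : Fin r' → Fb × Fb := fun i => wv i * z.g
  set E := riemannRochSpace (K := L) (((p * m : ℕ) : ℤ) • poleDiv L S.X) with hE
  haveI : FiniteDimensional L E := finiteDimensional_rrSpace _
  have hjl : 1 + (p - 1) = p := by omega
  set q : Fin r' → F := fun i => v i ^ 1 * u ^ (p - 1) * z.f
  have hqE : ∀ i, q i ∈ E := fun i => z.mul_pow_mem hu (hv i) hjl
  have hqr : ∀ i, (S.pair 1).Res (q i) (θ ^ (p - 1) * φ i) := fun i => by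
    have := z.res_mul_pow r (hvw i) hjl
    rwa [pow_one (wv i * z.g), g, mul_comm (wv i * z.g)] at this
  have hqi : LinearIndependent k fun i => θ ^ (p - 1) * φ i := by
    refine hφ.map' (LinearMap.mulLeft k (θ ^ (p - 1))) (LinearMap.ker_eq_bot.2 fun a b hab => ?_)
    simp only [LinearMap.mulLeft_apply, Prod.ext_iff, Prod.fst_mul, Prod.snd_mul, Prod.pow_fst,
      Prod.pow_snd] at hab
    exact Prod.ext (mul_left_cancel₀ (pow_ne_zero _ hθ1) hab.1)
      (mul_left_cancel₀ (pow_ne_zero _ hθ2) hab.2)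
  obtain ⟨n, cj, cb, hcE, hcr, hind, hbas, hdisj⟩ :=
    LRed.exists_adapted S.orth_one hπ E hqE hqr hqi
  set V := Sum.elim q cj
  set W := Sum.elim (fun i => θ ^ (p - 1) * φ i) cb
  have hVW : ∀ l, (S.pair 1).Res (V l) (W l) := by
    rintro (i | j)
    exacts [hqr i, hcr j]
  have hdis : ∀ ψ ∈ S.rimg m, θ ^ (p - 1) * ψ ∈ Submodule.span k (Set.range cb) →
      θ ^ (p - 1) * ψ = 0 := fun ψ hψ hmem => by
    refine Submodule.disjoint_def.1 hdisj _ ?_ hmem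
    obtain ⟨a, rfl⟩ := (Submodule.mem_span_range_iff_exists_fun k).1 (hspan.symm ▸ hψ)
    rw [Finset.mul_sum]
    exact Submodule.sum_mem _ fun i _ => by
      rw [mul_smul_comm]; exact Submodule.smul_mem _ _ (Submodule.subset_span ⟨i, rfl⟩)
  obtain ⟨y, ⟨yb, hy⟩, hey⟩ := e
  rcases eq_or_ne ((c.s : L) ^ p * t) 0 with hs0 | hs0
  · refine ⟨n, cj, cb, 0, u, 0, hcE, hcr, hind.comp Sum.inr Sum.inr_injective, hdis, hu, r,
      ⟨0, ⟨_, (S.pair z.d).res_zero⟩, by rw [sub_self, smul_zero]⟩, ⟨_, (S.pair 1).res_zero⟩, ?_⟩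
    rw [hey, hs0, zero_smul, zero_smul]
  have hyE : y ∈ E := by
    have h1 : u ^ p * z.f - h ^ p ∈ E := Submodule.sub_mem _ (z.npow_mem hu) (pow_mem_poles hh p)
    rw [hey] at h1
    have h2 := Submodule.smul_mem _ ((c.s : L) ^ p * t)⁻¹ h1
    rwa [smul_smul, inv_mul_cancel₀ hs0, one_smul] at h2
  obtain ⟨a₀, ha₀⟩ := (Submodule.mem_span_range_iff_exists_fun L).1 (hbas.symm ▸ hyE)
  obtain ⟨a, haL, -⟩ := LRed.coord_res hπ hVW hind (a := a₀) (g := yb) (by rw [ha₀]; exact hy)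
  have hεA : (c.ε : L)⁻¹ ∈ A := inv_mem_of_map_ne_zero hπ c.ε_res
  have hε0 : (c.ε : L) ≠ 0 := fun h0 => c.ε_res (by
    rw [show c.ε = 0 from Subtype.ext h0, map_zero])
  set Y₀ := ∑ i, (-((c.ε : L)⁻¹ * a (Sum.inl i))) • v i
  obtain ⟨yb₀, hY₀⟩ : (S.pair z.d).Integral Y₀ := ⟨_, LRed.res_comb (fun i _ => hvw i)
    fun i => ⟨_, neg_mem (mul_mem hεA (a (Sum.inl i)).2)⟩⟩
  have hY₀S : Y₀ ∈ z.space m := Submodule.sum_mem _ fun i _ => Submodule.smul_mem _ _ (hv i)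
  set u' := u + ((c.s : L) * t) • Y₀
  have hwne : w.1 ≠ 0 ∧ w.2 ≠ 0 := by
    rw [← g] at hθ1 hθ2
    exact ⟨left_ne_zero_of_mul hθ1, left_ne_zero_of_mul hθ2⟩
  have hu0 : u ≠ 0 := r.1.ne_zero hwne.1
  have hinv : (S.pair z.d⁻¹).Res u⁻¹ (w.1⁻¹, w.2⁻¹) := ⟨r.1.inv hwne.1, by
    have := r.2.inv hwne.2
    rwa [Algebra.smul_def, mul_inv, ← map_inv₀, ← Algebra.smul_def] at this⟩
  set R₀ := Y₀ * u⁻¹
  have hR₀ : R₀ ∈ S.intRing := S.integral_iff_mem.1 ⟨_, by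
    simpa [mul_inv_cancel₀ z.d_ne] using S.pair_mul hY₀ hinv⟩
  obtain ⟨Q, hQ, hexp⟩ := exists_expand c hR₀ t
  have hB : u ^ p * z.f ∈ S.intRing := S.integral_iff_mem.1 ⟨_, g ▸ z.res_pow r⟩
  -- the remainder
  set R : F := u ^ p * z.f * R₀ *
    (((β : L) * (t : L) ^ (p - 2)) • R₀ ^ (p - 1) + ((α : L) * t) • Q)
  have hRi : R ∈ S.intRing := by
    refine mul_mem (mul_mem hB hR₀) (add_mem ?_ ?_)
    · simpa using smul_mem_intRing (β * t ^ (p - 2)) (pow_mem hR₀ (p - 1))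
    · simpa using smul_mem_intRing (α * t) hQ
  have hu' : (S.pair z.d).Res u' w := by
    have h1 := (S.pair z.d).res_add r ((S.pair z.d).res_smul (c.s * t) hY₀)
    simpa [c.s_res, u'] using h1
  refine ⟨n, cj, cb, fun j => a (Sum.inr j), u', R, hcE, hcr,
    hind.comp Sum.inr Sum.inr_injective, hdis,
    Submodule.add_mem _ hu (Submodule.smul_mem _ _ hY₀S), hu',
    ⟨Y₀, ⟨_, hY₀⟩, by simp [u']⟩, S.integral_iff_mem.2 hRi, ?_⟩
  have hfac : u' = u * (1 + ((c.s : L) * t) • R₀) := by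
    rw [mul_add, mul_one, mul_smul_comm, mul_left_comm, mul_inv_cancel₀ hu0, mul_one]
  have hδ : (δ : L) • R = u ^ p * z.f * R₀ *
      (((t : L) ^ (p - 1)) • R₀ ^ (p - 1) + ((c.s : L) * t) • Q) := by
    simp only [R, mul_add, mul_smul_comm, smul_add, smul_smul]
    congr 2
    · rw [show p - 1 = p - 2 + 1 by omega, pow_succ, htδ]
      push_cast; ring
    · rw [hsδ]; push_cast; ring
  have hlin : u ^ p * z.f * R₀ * ((c.ε : L) • 1) = -∑ i, (a (Sum.inl i) : L) • q i := by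
    obtain ⟨j, hj⟩ : ∃ j, p = j + 1 := ⟨p - 1, by omega⟩
    simp only [R₀, Y₀, hj, pow_succ, add_tsub_cancel_right, mul_smul_comm, mul_one, pow_one, q]
    rw [show u ^ j * u * z.f * (_ * u⁻¹) = u ^ j * z.f * (u * u⁻¹) *
      ∑ i, (-((c.ε : L)⁻¹ * a (Sum.inl i))) • v i by ring, mul_inv_cancel₀ hu0, mul_one,
      Finset.mul_sum, Finset.smul_sum, ← Finset.sum_neg_distrib]
    refine Finset.sum_congr rfl fun i _ => ?_
    rw [mul_smul_comm, smul_smul, mul_neg, mul_inv_cancel_left₀ hε0, neg_smul]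
    congr 2
    rw [pow_zero, one_mul]
    ring
  have hy' : y = ∑ i, (a (Sum.inl i) : L) • q i + ∑ j, (a (Sum.inr j) : L) • cj j := by
    rw [← ha₀, Fintype.sum_sum_type]
    simp [V, haL]
  rw [hfac, mul_pow, hexp, mul_right_comm, mul_add (u ^ p * z.f), mul_one, mul_smul_comm, hδ]
  rw [show ∀ a b c : F, a + b - c = a - c + b from fun a b c => by ring, hey, ← smul_add]
  congr 1
  rw [← mul_assoc, add_assoc ((c.ε : L) • (1 : F)), mul_add (u ^ p * z.f * R₀), hlin, hy']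
  abel

include hS N in
/-- A function with approximate roots strictly below the critical precision is a `p`-th power. -/
theorem exists_root {m : ℕ} (hm : N.m₀ ≤ m) {u₁ u₂ : F} {w₁ w₂ : Fb × Fb}
    (hu₁ : u₁ ∈ z.space m) (hu₂ : u₂ ∈ z.space m) (r₁ : (S.pair z.d).Res u₁ w₁)
    (g₁ : w₁ * z.g = 1) (r₂ : (S.pair z.d).Res u₂ w₂)
    (g₂ : w₂ * z.g = (S.MC.xb, S.MC.xb ^ p) ^ m)
    (ht₀ : π t₀ = 0) (ht₀' : (t₀ : L) ≠ 0)
    (e₁ : (S.pair 1).Small ((c.s : L) ^ p * t₀) (u₁ ^ p * z.f - 1))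
    (e₂ : (S.pair 1).Small ((c.s : L) ^ p * t₀) (u₂ ^ p * z.f - (S.X ^ m) ^ p))
    (ag : (S.pair z.d).Small ((c.s : L) * t₀) (u₁ * S.X ^ m - u₂)) :
    ∃ r : F, r ^ p = z.f := by
  classical
  have hp : 0 < p := pos_of_sheet S
  have hπ := S.MC.surj
  set θ : Fb × Fb := (S.MC.xb, S.MC.xb ^ p) ^ m with hθdef
  have hθ : (S.pair 1).Res (S.X ^ m) θ := by
    have := S.pair_pow S.pair_X m
    rwa [one_pow] at this
  have hxb := S.xb_ne_zero
  have hθ1 : θ.1 ≠ 0 := by simp [θ, hxb]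
  have hθ2 : θ.2 ≠ 0 := by simp [θ, hxb]
  have hXm := Sheet.pow_X_mem (S := S) m
  have h1m : (1 : F) ∈ riemannRochSpace ((m : ℤ) • poleDiv L S.X) := one_mem_rrSpace fun v => by
    simpa using mul_nonneg (Int.natCast_nonneg m) (poleDiv_nonneg (K := L) S.X v)
  obtain ⟨δ, α, β, hδ, hδ0, hsδ, htδ⟩ : ∃ δ α β : A, π δ = 0 ∧ (δ : L) ≠ 0 ∧
      c.s = δ * α ∧ t₀ = δ * β := by
    rcases A.mem_or_inv_mem ((c.s : L) / t₀) with h | h
    · exact ⟨t₀, ⟨_, h⟩, 1, ht₀, ht₀', Subtype.ext (by push_cast; field_simp), (mul_one _).symm⟩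
    · rw [inv_div] at h
      exact ⟨c.s, 1, ⟨_, h⟩, c.s_res, c.s_ne, (mul_one _).symm,
        Subtype.ext (by push_cast; field_simp [c.s_ne])⟩
  let Inv : A → Prop := fun t => ∃ u₁ u₂ : F, u₁ ∈ z.space m ∧ u₂ ∈ z.space m ∧
    (S.pair z.d).Res u₁ w₁ ∧ (S.pair z.d).Res u₂ w₂ ∧
    (S.pair 1).Small ((c.s : L) ^ p * t) (u₁ ^ p * z.f - 1) ∧
    (S.pair 1).Small ((c.s : L) ^ p * t) (u₂ ^ p * z.f - (S.X ^ m) ^ p) ∧
    (S.pair z.d).Small ((c.s : L) * t₀) (u₁ * S.X ^ m - u₂)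
  have hstep : ∀ j : ℕ, Inv (t₀ * δ ^ j) := by
    intro j
    induction j with
    | zero => rw [pow_zero, mul_one]; exact ⟨u₁, u₂, hu₁, hu₂, r₁, r₂, e₁, e₂, ag⟩
    | succ j ih =>
      obtain ⟨u₁, u₂, hu₁, hu₂, r₁, r₂, e₁, e₂, ag⟩ := ih
      set t := t₀ * δ ^ j with htdef
      have ht : π t = 0 := by rw [map_mul, ht₀, zero_mul]
      have ht' : (t : L) ≠ 0 := by
        simp only [t, MulMemClass.coe_mul, SubmonoidClass.coe_pow]
        exact mul_ne_zero ht₀' (pow_ne_zero _ hδ0)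
      have htδ' : t = δ * (β * δ ^ j) := by rw [htdef, htδ]; ring
      obtain ⟨n₁, cj₁, cb₁, b₁, v₁, R₁, hc₁, hcr₁, hci₁, hd₁, hv₁, rv₁, ag₁, ⟨Rb₁, hR₁⟩, he₁⟩ :=
        z.improve c N hm hS h1m S.pair_one (by simp) (by simp) hu₁ r₁ g₁ ht hsδ htδ'
          (by rwa [one_pow])
      obtain ⟨n₂, cj₂, cb₂, b₂, v₂, R₂, hc₂, hcr₂, hci₂, hd₂, hv₂, rv₂, ag₂, ⟨Rb₂, hR₂⟩, he₂⟩ :=
        z.improve c N hm hS hXm hθ hθ1 hθ2 hu₂ r₂ g₂ ht hsδ htδ' e₂
      rw [one_pow] at he₁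
      have ag' : (S.pair z.d).Small ((c.s : L) * t₀) (v₁ * S.X ^ m - v₂) := by
        have ha : ((c.s : L) * t) = ((c.s : L) * t₀) * ((δ ^ j : A) : L) := by
          simp only [t]; push_cast; ring
        have h1 : (S.pair z.d).Small ((c.s : L) * t) ((v₁ - u₁) * S.X ^ m) := by
          obtain ⟨Y, ⟨yb, hY⟩, hYe⟩ := ag₁
          exact ⟨Y * S.X ^ m, ⟨_, by simpa using S.pair_mul hY hθ⟩, by rw [hYe, smul_mul_assoc]⟩
        have h2 := (ag.add (LRed.Small.mono (δ ^ j : A).2 ha (h1.sub ag₂)))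
        convert h2 using 1
        ring
      refine ⟨v₁, v₂, hv₁, hv₂, rv₁, rv₂, ?_⟩
      suffices hb : (∀ i, (δ : L)⁻¹ * b₁ i ∈ A) ∧ (∀ i, (δ : L)⁻¹ * b₂ i ∈ A) by
        have key : ∀ {n : ℕ} {cj : Fin n → F} {cb : Fin n → Fb × Fb} {b : Fin n → A} {R : F}
            {Rb : Fb × Fb}, (∀ i, (S.pair 1).Res (cj i) (cb i)) → (S.pair 1).Res R Rb →
            (∀ i, (δ : L)⁻¹ * b i ∈ A) → (S.pair 1).Small ((c.s : L) ^ p * (t₀ * δ ^ (j + 1) : A))
              (((c.s : L) ^ p * t) • (∑ i, (b i : L) • cj i + (δ : L) • R)) := by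
          intro n cj cb b R Rb hcr hR hb
          refine ⟨∑ i, ((δ : L)⁻¹ * b i) • cj i + R, ⟨_, (S.pair 1).res_add
            (LRed.res_comb (fun i _ => hcr i) fun i => ⟨_, hb i⟩) hR⟩, ?_⟩
          rw [show ((c.s : L) ^ p * (t₀ * δ ^ (j + 1) : A)) = ((c.s : L) ^ p * t) * δ by
            simp only [t]; push_cast; ring]
          simp only [smul_add, Finset.smul_sum, smul_smul]
          congr 1
          exact Finset.sum_congr rfl fun i _ => by rw [mul_assoc _ (δ : L), mul_inv_cancel_left₀ hδ0]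
        exact ⟨he₁ ▸ key hcr₁ hR₁ hb.1, he₂ ▸ key hcr₂ hR₂ hb.2, ag'⟩
      -- otherwise compare
      obtain ⟨s₀, i₀, hs₀, hi₀⟩ := (Reduction.base_total hπ).exists_scale_family
        (c := Sum.elim (Sum.elim (fun i => (b₁ i : L)) fun i => (b₂ i : L))
          fun _ : Unit => (δ : L)) (fun h0 => hδ0 (congrFun h0 (Sum.inr ())))
      have hs00 : s₀ ≠ 0 := left_ne_zero_of_mul_eq_one hi₀
      by_cases hunit : π ⟨s₀ * δ, hs₀ (Sum.inr ())⟩ = 0
      swap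
      · have hinv := inv_mem_of_map_ne_zero hπ hunit
        have hconv : ∀ x : L, s₀ * x ∈ A → (δ : L)⁻¹ * x ∈ A := fun x hx => by
          convert mul_mem hinv hx using 1
          field_simp
        exact ⟨fun i => hconv _ (hs₀ (Sum.inl (Sum.inl i))),
          fun i => hconv _ (hs₀ (Sum.inl (Sum.inr i)))⟩
      exfalso
      -- the scale of the errors
      obtain ⟨μ, hμ⟩ : ∃ μ : A, (μ : L) = s₀⁻¹ := by
        have hinv := eq_inv_of_mul_eq_one_right hi₀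
        rcases i₀ with (i | i) | ⟨⟩
        exacts [⟨b₁ i, hinv⟩, ⟨b₂ i, hinv⟩, ⟨δ, hinv⟩]
      have hμt : (((t * μ : A) : L)) ≠ 0 := by
        push_cast; rw [hμ]; exact mul_ne_zero ht' (inv_ne_zero hs00)
      have mk : ∀ {n : ℕ} {cj : Fin n → F} {cb : Fin n → Fb × Fb} {b : Fin n → A} {R : F}
          {Rb : Fb × Fb}, (∀ i, (S.pair 1).Res (cj i) (cb i)) → (S.pair 1).Res R Rb →
          ∀ hb : (∀ i, s₀ * b i ∈ A), ∃ y : F,
            (S.pair 1).Res y (∑ i, π ⟨_, hb i⟩ • cb i) ∧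
            ((c.s : L) ^ p * t) • (∑ i, (b i : L) • cj i + (δ : L) • R) =
              ((c.s : L) ^ p * (t * μ : A)) • y := by
        intro n cj cb b R Rb hcr hR hb
        refine ⟨∑ i, (s₀ * b i) • cj i + (s₀ * δ) • R, ?_, ?_⟩
        · have := (S.pair 1).res_add (LRed.res_comb (s := Finset.univ) (fun i _ => hcr i)
            fun i => ⟨_, hb i⟩) ((S.pair 1).res_smul ⟨_, hs₀ (Sum.inr ())⟩ hR)
          simpa [hunit] using this
        · push_cast
          rw [hμ, ← mul_assoc, mul_smul _ s₀⁻¹]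
          simp only [smul_add, Finset.smul_sum, smul_smul, inv_mul_cancel_left₀ hs00]
      obtain ⟨y₁, hy₁, hye₁⟩ := mk hcr₁ hR₁ fun i => hs₀ (Sum.inl (Sum.inl i))
      obtain ⟨y₂, hy₂, hye₂⟩ := mk hcr₂ hR₂ fun i => hs₀ (Sum.inl (Sum.inr i))
      set yb₁ := ∑ i, π (⟨_, hs₀ (Sum.inl (Sum.inl i))⟩ : A) • cb₁ i
      set yb₂ := ∑ i, π (⟨_, hs₀ (Sum.inl (Sum.inr i))⟩ : A) • cb₂ i
      obtain ⟨ψ, hψ, hrel⟩ := z.compare c hS N hm hXm hθ hθ1 hθ2 hv₁ hv₂ rv₁ g₁ rv₂ g₂ ht₀ hμt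
        ag' hy₁ hy₂ (he₁.trans hye₁) (he₂.trans hye₂)
      have hmem₁ : yb₁ ∈ S.rimg (p * m) := Submodule.sum_mem _ fun i _ =>
        Submodule.smul_mem _ _ (LRed.mem_image_of_res (hc₁ i) (hcr₁ i))
      have hmem₂ : yb₂ ∈ S.rimg (p * m) := Submodule.sum_mem _ fun i _ =>
        Submodule.smul_mem _ _ (LRed.mem_image_of_res (hc₂ i) (hcr₂ i))
      obtain ⟨l, hl⟩ : ∃ l, p = l + 2 := ⟨p - 2, by have := S.one_lt; omega⟩
      set a := θ * yb₁ - ψ
      have hθr : θ ∈ S.rimg m := LRed.mem_image_of_res hXm hθ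
      have hyb₂ : yb₂ = θ ^ (p - 1) * a := by
        rw [mul_sub, ← mul_assoc, ← pow_succ, Nat.sub_add_cancel hp, ← hrel]
        exact (sub_sub_cancel _ _).symm
      have haM : a ∈ S.rimg (m + p * m) := Submodule.sub_mem _ (S.rimg_mul hθr hmem₁)
        (S.rimg_mono (by rw [hl]; nlinarith) hψ)
      have hxpow : ∀ j : ℕ, θ ^ j = (S.MC.xb ^ (m * j), (S.MC.xb ^ p) ^ (m * j)) := fun j => by
        rw [hθdef, ← pow_mul]; rfl
      have hat : a ∈ S.targ m := by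
        obtain ⟨ha1, ha2⟩ := S.regular_of_rimg haM
        obtain ⟨hy1, hy2⟩ := S.rimg_le_targ _ (hyb₂ ▸ hmem₂)
        rw [hxpow, Prod.fst_mul] at hy1
        rw [hxpow, Prod.snd_mul, ← pow_mul] at hy2
        refine ⟨Sheet.poles_of_pow_mul (a := m * (p - 1)) ha1 ?_,
          Sheet.poles_of_pow_mul (a := p * (m * (p - 1))) ha2 ?_⟩
        · rw [show m + m * (p - 1) = p * m by rw [hl]; simp; ring]
          exact hy1
        · rw [show p * m + p * (m * (p - 1)) = p * (p * m) by rw [hl]; simp; ring]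
          exact hy2
      have har : a ∈ S.rimg m := N.char m hm a hat fun i => N.compat _ a haM i
      have hy₂0 : yb₂ = 0 := hyb₂.trans (hd₂ a har (hyb₂ ▸ Submodule.sum_mem _ fun i _ =>
        Submodule.smul_mem _ _ (Submodule.subset_span ⟨i, rfl⟩)))
      have ha0 : θ * yb₁ = ψ := by
        rw [← sub_eq_zero]
        show a = 0
        have h0 := hyb₂.symm.trans hy₂0
        simp only [Prod.ext_iff, Prod.fst_mul, Prod.snd_mul, Prod.fst_zero, Prod.snd_zero,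
          Prod.pow_fst, Prod.pow_snd, mul_eq_zero, pow_eq_zero_iff', hθ1, hθ2, false_and,
          false_or] at h0
        exact Prod.ext h0.1 h0.2
      have hy₁r : yb₁ ∈ S.rimg m := by
        refine N.char m hm yb₁ ?_ fun i => N.compat _ yb₁ hmem₁ i
        obtain ⟨ha1, ha2⟩ := S.regular_of_rimg hmem₁
        obtain ⟨hy1, hy2⟩ := S.rimg_le_targ _ (ha0 ▸ hψ)
        rw [hθdef, Prod.fst_mul, Prod.pow_fst] at hy1
        rw [hθdef, Prod.snd_mul, Prod.pow_snd, ← pow_mul] at hy2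
        exact ⟨Sheet.poles_of_pow_mul (a := m) ha1 hy1,
          Sheet.poles_of_pow_mul (a := p * m) ha2 (by
            rwa [show p * m + p * m = p * (m + m) by ring])⟩
      have hy₁0 : yb₁ = 0 := by
        have h1 := hd₁ yb₁ hy₁r
        rw [one_pow, one_mul] at h1
        exact h1 (Submodule.sum_mem _ fun i _ =>
          Submodule.smul_mem _ _ (Submodule.subset_span ⟨i, rfl⟩))
      -- the coefficient equal to one
      rcases i₀ with (i | i) | ⟨⟩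
      · have h1 := Fintype.linearIndependent_iff.1 hci₁
          (fun i => π (⟨_, hs₀ (Sum.inl (Sum.inl i))⟩ : A)) hy₁0 i
        rw [show (⟨_, hs₀ (Sum.inl (Sum.inl i))⟩ : A) = 1 from Subtype.ext hi₀, map_one] at h1
        exact one_ne_zero h1
      · have h1 := Fintype.linearIndependent_iff.1 hci₂
          (fun i => π (⟨_, hs₀ (Sum.inl (Sum.inr i))⟩ : A)) hy₂0 i
        rw [show (⟨_, hs₀ (Sum.inl (Sum.inr i))⟩ : A) = 1 from Subtype.ext hi₀, map_one] at h1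
        exact one_ne_zero h1
      · rw [show (⟨s₀ * δ, hs₀ (Sum.inr ())⟩ : A) = 1 from Subtype.ext hi₀, map_one] at hunit
        exact one_ne_zero hunit
  -- approximate roots give an exact one
  obtain ⟨v, w, hv, hvw, hwi, hvs, -⟩ := LRed.exists_basis (S.orth z.d_ne) hπ (z.space m)
  let P : MvPolynomial (Fin (Module.finrank L (z.space m))) F :=
    (∑ i, MvPolynomial.C (v i) * MvPolynomial.X i) ^ p * MvPolynomial.C z.f - 1
  have hev : ∀ a : Fin (Module.finrank L (z.space m)) → L,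
      MvPolynomial.eval (fun i => algebraMap L F (a i)) P = (∑ i, a i • v i) ^ p * z.f - 1 := by
    intro a
    simp [P, Algebra.smul_def, mul_comm]
  haveI := finiteDimensional_rrSpace (K := L) (((p * m : ℕ) : ℤ) • poleDiv L S.X)
  have h1E : (1 : F) ∈ riemannRochSpace (((p * m : ℕ) : ℤ) • poleDiv L S.X) := by
    simpa using pow_mem_poles h1m p
  obtain ⟨a, ha⟩ := exists_eval_eq_zero (R := S.pair 1) S.orth_one hπ P
    (riemannRochSpace (((p * m : ℕ) : ℤ) • poleDiv L S.X))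
    (fun a => by
      rw [hev]
      exact Submodule.sub_mem _ (z.npow_mem (Submodule.sum_mem _ fun i _ =>
        Submodule.smul_mem _ _ (hv i))) h1E)
    (fun cc _ => by
      obtain ⟨j₀, hc, hπc⟩ := S.arch δ cc hδ
      obtain ⟨u₁, -, hu, -, hur, -, ⟨y, hy, hey⟩, -, -⟩ := hstep j₀
      obtain ⟨a, rfl⟩ := (Submodule.mem_span_range_iff_exists_fun L).1
        (hvs.symm ▸ hu : u₁ ∈ Submodule.span L (Set.range v))
      have hA : ∀ i, a i ∈ A := fun i => LRed.coord_mem hπ hvw hwi ⟨_, hur⟩ i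
      set T : L := (c.s : L) ^ p * (t₀ * δ ^ j₀ : A)
      have hT0 : T ≠ 0 := by
        simp only [T, MulMemClass.coe_mul, SubmonoidClass.coe_pow]
        exact mul_ne_zero (pow_ne_zero _ c.s_ne) (mul_ne_zero ht₀' (pow_ne_zero _ hδ0))
      refine ⟨fun i => ⟨a i, hA i⟩, T, y, ?_, hy, (hev a).trans hey, ?_⟩
      · rw [show y = T⁻¹ • ((∑ i, a i • v i) ^ p * z.f - 1) by
          rw [hey, inv_smul_smul₀ hT0]]
        exact Submodule.smul_mem _ _ (Submodule.sub_mem _ (z.npow_mem hu) h1E)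
      · have heq : cc * T = cc * (δ : L) ^ j₀ * ((c.s ^ p * t₀ : A) : L) := by
          simp only [T]; push_cast; ring
        refine ⟨heq ▸ mul_mem hc (c.s ^ p * t₀).2, ?_⟩
        rw [show (⟨_, heq ▸ mul_mem hc (c.s ^ p * t₀).2⟩ : A) = ⟨_, hc⟩ * (c.s ^ p * t₀) from
          Subtype.ext heq, map_mul, hπc, zero_mul])
  rw [hev, sub_eq_zero] at ha
  refine ⟨(∑ i, a i • v i)⁻¹, ?_⟩
  rw [inv_pow]
  exact inv_eq_of_mul_eq_one_right ha

end RootData

end FLTAgent.Ordinary
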