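import Fermat.Agent.Ordinary.Core

/-!
# From the lattice to a representation carried by the Hecke algebra
-/

set_option autoImplicit false
set_option linter.style.haveILetI false
set_option linter.unusedSectionVars false
set_option synthInstance.maxHeartbeats 400000
set_option maxHeartbeats 1000000

noncomputable section

open AlgebraicCurve ModularCurve IsLocalRing Matrix Polynomial
open scoped TensorProduct

namespace FLTAgent.Ordinary

open FLTAgent.Mazur.Tate (gal chi)
open FLTAgent.Specialization FLTAgent.BadRed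

local notation "QA" => AlgebraicClosure ℚ
local notation "GG" => (AlgebraicClosure ℚ ≃ₐ[ℚ] AlgebraicClosure ℚ)

section Scalar

variable {T : Type} [CommRing T] {B : Type*} [CommRing B] (f : B →+* T)

theorem scalar_mul_eq (x : B) (X : Deformation.M2 T) :
    (Matrix.scalar (Fin 2)).comp f x * X = f x • X := by
  rw [RingHom.comp_apply, Matrix.scalar_apply, ← Matrix.smul_eq_diagonal_mul]

theorem mul_scalar_eq (x : B) (X : Deformation.M2 T) :
    X * (Matrix.scalar (Fin 2)).comp f x = f x • X := by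
  rw [RingHom.comp_apply, Matrix.scalar_apply, ← Matrix.smul_eq_mul_diagonal]

/-- A two dimensional representation has trace data. -/
theorem traceData_matrix (r : GG →* Deformation.M2 T) (t d : GG → B)
    (ht : ∀ σ, f (t σ) = (r σ).trace) (hd : ∀ σ, f (d σ) = (r σ).det)
    (hmul : ∀ σ τ, d (σ * τ) = d σ * d τ) :
    TraceData ((Matrix.scalar (Fin 2)).comp f) r t d := by
  refine ⟨fun a σ => by rw [scalar_mul_eq, mul_scalar_eq], fun σ => ?_, hmul⟩
  have h1 : f (d σ) • r σ⁻¹ = adjugate (r σ) := by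
    rw [hd, ← one_mul (r σ⁻¹), ← Matrix.smul_mul, ← Matrix.adjugate_mul, mul_assoc, ← map_mul,
      mul_inv_cancel, map_one, mul_one]
  rw [scalar_mul_eq, h1, RingHom.comp_apply, Matrix.scalar_apply, ht, Matrix.adjugate_fin_two]
  ext i j
  fin_cases i <;> fin_cases j <;> simp [Matrix.trace_fin_two, add_comm]

theorem trace_proj_mul (r : GG →* Deformation.M2 T) (t : GG → B)
    (ht : ∀ σ, f (t σ) = (r σ).trace) (σ₀ : GG) (a b : B) (σ : GG) :
    (proj ((Matrix.scalar (Fin 2)).comp f) r σ₀ a b * r σ).trace = f (tp t σ₀ a b σ) := by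
  rw [proj, add_mul, scalar_mul_eq, mul_assoc, scalar_mul_eq, ← map_mul r, trace_add, trace_smul,
    trace_smul, tp, map_add, map_mul f, map_mul f, ht, ht, smul_eq_mul, smul_eq_mul]

theorem trace_proj_link (r : GG →* Deformation.M2 T) (t : GG → B)
    (ht : ∀ σ, f (t σ) = (r σ).trace) (σ₀ : GG) (a b a' b' : B) (σ ρ : GG) :
    (proj ((Matrix.scalar (Fin 2)).comp f) r σ₀ a b * r σ *
        proj ((Matrix.scalar (Fin 2)).comp f) r σ₀ a' b' * r ρ).trace =
      f (a' * tp t σ₀ a b (σ * ρ) + b' * tp t σ₀ a b (σ * σ₀ * ρ)) := by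
  rw [map_add, map_mul f a', map_mul f b', ← trace_proj_mul f r t ht, ← trace_proj_mul f r t ht,
    map_mul, map_mul r (σ * σ₀), map_mul]
  have hQ : proj ((Matrix.scalar (Fin 2)).comp f) r σ₀ a' b' = f a' • 1 + f b' • r σ₀ := by
    rw [proj, scalar_mul_eq, ← mul_one ((Matrix.scalar (Fin 2)).comp f a'), scalar_mul_eq]
  rw [hQ]
  simp only [Matrix.mul_add, Matrix.add_mul, Matrix.mul_smul, Matrix.smul_mul, trace_add, trace_smul,
    smul_eq_mul, mul_one, mul_assoc]

end Scalar

/-- Two nonzero matrices over a field are linked by some matrix. -/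
theorem exists_trace_ne_zero {k : Type} [Field k] {G : Type} [Monoid G] (r : G → Deformation.M2 k)
    (hr : Submodule.span k (Set.range r) = ⊤) {P Q : Deformation.M2 k} (hP : P ≠ 0) (hQ : Q ≠ 0) :
    ∃ g h : G, (Q * r h * P * r g).trace ≠ 0 := by
  by_contra! hcon
  have h1 : ∀ h Y, (Q * r h * P * Y).trace = 0 := fun h Y => by
    have hy : Y ∈ Submodule.span k (Set.range r) := hr ▸ trivial
    induction hy using Submodule.span_induction with
    | mem _ hx => obtain ⟨g, rfl⟩ := hx; exact hcon g h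
    | zero => simp
    | add _ _ _ _ a b => rw [mul_add, trace_add, a, b, add_zero]
    | smul c _ _ a => rw [Matrix.mul_smul, trace_smul, a, smul_zero]
  have h2 : ∀ X, Q * X * P = 0 := fun X => by
    have hx : X ∈ Submodule.span k (Set.range r) := hr ▸ trivial
    induction hx using Submodule.span_induction with
    | mem _ hx =>
      obtain ⟨h, rfl⟩ := hx
      exact Deformation.eq_zero_of_forall_trace_mul (h1 h)
    | zero => simp
    | add _ _ _ _ a b => rw [mul_add, add_mul, a, b, add_zero]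
    | smul c _ _ a => rw [Matrix.mul_smul, Matrix.smul_mul, a, smul_zero]
  obtain ⟨i, j, hij⟩ : ∃ i j, P i j ≠ 0 := by
    by_contra! h; exact hP (Matrix.ext h)
  obtain ⟨k', l, hkl⟩ : ∃ k' l, Q k' l ≠ 0 := by
    by_contra! h; exact hQ (Matrix.ext h)
  have := congrFun (congrFun (h2 (Matrix.single l i 1)) k') j
  rw [Matrix.mul_assoc, Matrix.mul_apply] at this
  fin_cases l <;> fin_cases i <;> simp_all [Matrix.mul_apply, Fin.sum_univ_two, Matrix.single]

variable {M : ℕ} [NeZero M] {p : ℕ} [Fact p.Prime] [NeZero p] [NeZero (M * p)] {S : Finset ℕ}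
  {T : Type} [CommRing T] [IsLocalRing T] [IsAdicComplete (maximalIdeal T) T]
  (hpT : (p : T) ∈ maximalIdeal T)

theorem isUnit_natCast_of_not_dvd (hpT : (p : T) ∈ maximalIdeal T) {n : ℕ} (hn : ¬ p ∣ n) :
    IsUnit (n : T) := by
  obtain ⟨x, y, hxy⟩ := (((Fact.out : p.Prime).coprime_iff_not_dvd).2 hn).isCoprime
  have h := congrArg (fun z : ℤ => (z : T)) hxy
  simp only [Int.cast_add, Int.cast_mul, Int.cast_natCast, Int.cast_one] at h
  refine IsLocalRing.notMem_maximalIdeal.1 fun hm => (maximalIdeal.isMaximal T).ne_top ?_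
  rw [Ideal.eq_top_iff_one, ← h]
  exact add_mem (Ideal.mul_mem_left _ _ hpT) (Ideal.mul_mem_left _ _ hm)

variable {A : ValuationSubring QA} (hA : A.LiesOverPrime p) (hpM : ¬ p ∣ M)
  [IsAlgClosed (ResidueField A)] [CharP (ResidueField A) p]
  [Curves.IsFunctionField (ResidueField A) (modularFunctionFieldFullC (ResidueField A) M)]

set_option maxHeartbeats 2000000 in
include hpT hA in
/-- **Ordinary identities for a representation carried by the Hecke algebra of level `M p`.** -/
theorem ordinary_identities (hp3 : 3 ≤ p)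
    (hsm : (modularModel (π := residue A) residue_surjective M
      (natCast_ne_zero hpM (ResidueField A))).Smooth)
    (hpS : p ∈ S) (hNS : ∀ q : ℕ, q.Prime → q ∣ M * p → q ∈ S)
    (π : HS (M * p) S →+* T) (r : GG →* Deformation.M2 T) (hr : Deformation.MatCts r)
    (hchar : ∀ (ℓ : ℕ) (hℓ : ℓ.Prime) (hℓN : ¬ ℓ ∣ M * p) (hℓS : ℓ ∉ (↑S : Set ℕ)),
      ∀ V : ValuationSubring QA, V.LiesOverPrime ℓ → ∀ τ : GG, V.IsFrobeniusAt τ ℓ →
        (r τ).charpoly = X ^ 2 - C (π (CuspForm.heckeAlgebra.T hℓ hℓN hℓS)) * X + C ((ℓ : T)))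
    (hspan : Deformation.SpansResidue r)
    (htrace : ∀ σ ∈ A.inertiaSubgroupIn ℚ, (r σ).trace - 1 - (r σ).det ∈ maximalIdeal T)
    (hid : ∀ σ ∈ A.inertiaSubgroupIn ℚ, ∀ τ ∈ A.inertiaSubgroupIn ℚ, ∀ i j,
      ((r σ - (r σ).det • 1) * (r τ - 1)) i j ∈ maximalIdeal T)
    {σ₀ : GG} (hσ₀ : σ₀ ∈ A.inertiaSubgroupIn ℚ) {ζ : QA} (hζ : IsPrimitiveRoot ζ p) {a : ℕ}
    (ha : a < p) (hσζ : σ₀ ζ = ζ ^ a) (hmove : σ₀ ζ ≠ ζ) :
    IsUnit ((r σ₀).det - 1) ∧
      ∀ τ ∈ A.inertiaSubgroupIn ℚ, (r σ₀ - (r σ₀).det • 1) * (r τ - 1) = 0 := by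
  classical
  have hp : p.Prime := Fact.out
  have h2 : IsUnit (2 : T) := by
    have := isUnit_natCast_of_not_dvd hpT (n := 2) fun h => by
      have := Nat.le_of_dvd two_pos h; omega
    simpa using this
  set Ψ := psi (M * p) hpT π
  set t := trS (M * p) p S hpS hNS
  set d := detS (M * p) p S
  have ht : ∀ σ, Ψ (t σ) = (r σ).trace := psi_trS (M * p) hpT π hpS hNS r hr hchar
  have hd : ∀ σ, Ψ (d σ) = (r σ).det := psi_detS (M * p) hpT π r hr hchar h2 hpS hNS
  -- `a` and the determinant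
  have haT : IsUnit ((a : T) - 1) := by
    rcases Nat.eq_zero_or_pos a with rfl | h0
    · simp
    rw [show (a : T) - 1 = ((a - 1 : ℕ) : T) by rw [Nat.cast_sub h0, Nat.cast_one]]
    refine isUnit_natCast_of_not_dvd hpT fun h => hmove ?_
    rcases Nat.eq_zero_or_pos (a - 1) with h1 | h1
    · rw [hσζ, show a = 1 by omega, pow_one]
    · exact absurd (Nat.le_of_dvd h1 h) (by omega)
  have hda : (r σ₀).det - (a : T) ∈ maximalIdeal T := by
    have hc : DetCyclo.CycloExponent p 1 σ₀ a := fun η hη => by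
      rw [pow_one] at hη
      obtain ⟨i, -, rfl⟩ := hζ.eq_pow_of_pow_eq_one hη
      rw [map_pow, hσζ, ← pow_mul, ← pow_mul, mul_comm]
    obtain ⟨y, hy⟩ := Mazur.Tate.chi_spec p 1 σ₀ hc
    have := congrArg (padicTo (T := T) hpT) hy
    rw [map_sub, map_natCast, map_mul, map_pow, map_natCast, pow_one] at this
    rw [← hd, show Ψ (d σ₀) = padicTo hpT (chi p σ₀) from psi_algebraMap _ hpT π _, this]
    exact Ideal.mul_mem_right _ _ hpT
  have hdu : IsUnit ((r σ₀).det - 1) := by
    refine IsLocalRing.notMem_maximalIdeal.1 fun h => IsLocalRing.notMem_maximalIdeal.2 haT ?_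
    convert sub_mem h hda using 1
    ring
  refine ⟨hdu, ?_⟩
  -- the maximal ideal and its idempotent
  set 𝔪 : Ideal (Alg (M * p) p S) := (maximalIdeal T).comap Ψ with h𝔪
  haveI : 𝔪.IsMaximal := by
    haveI : 𝔪.IsPrime := Ideal.IsPrime.comap Ψ
    haveI := Mazur.finite_quotient_natCast_pow (l := p) (R := Alg (M * p) p S) 1
    haveI : Finite (Alg (M * p) p S ⧸ 𝔪) := by
      refine Finite.of_surjective (Ideal.Quotient.factor (S := Ideal.span {(p : Alg (M * p) p S) ^ 1})
        (T := 𝔪) ?_) (Ideal.Quotient.factor_surjective _)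
      rw [Ideal.span_singleton_le_iff_mem, pow_one, h𝔪, Ideal.mem_comap, map_natCast]
      exact hpT
    exact Ideal.Quotient.maximal_of_isField 𝔪 (Finite.isField_of_domain (Alg (M * p) p S ⧸ 𝔪) :)
  obtain ⟨e, hee, he, hunit, hnil, hhens⟩ := exists_localIdem (p := p) 𝔪
  have hmemΨ : ∀ x, x ∈ 𝔪 ↔ Ψ x ∈ maximalIdeal T := fun x => Iff.rfl
  have hΨe : Ψ e = 1 := by
    have h := congrArg Ψ hee
    rw [map_mul] at h
    exact (IsLocalRing.notMem_maximalIdeal.1 fun h' => he ((hmemΨ e).2 h')).mul_left_cancel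
      (h.trans (mul_one _).symm)
  obtain ⟨l₁, hl1, hroot⟩ := hhens (t σ₀) (d σ₀)
    ((hmemΨ _).2 (by
      rw [map_add, map_sub, map_one, ht, hd]
      convert neg_mem (htrace σ₀ hσ₀) using 1
      ring))
    (fun h => by
      rw [hmemΨ, map_sub, map_one, hd] at h
      exact IsLocalRing.notMem_maximalIdeal.2 hdu (by simpa using neg_mem h))
  set l₂ := t σ₀ - l₁ with hl₂
  have hl2 : Ψ l₂ - (r σ₀).det ∈ maximalIdeal T := by
    have h1 := (hmemΨ _).1 hl1
    rw [map_sub, map_one] at h1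
    rw [hl₂, map_sub, ht]
    convert sub_mem (htrace σ₀ hσ₀) h1 using 1
    ring
  have hdiff : l₁ - l₂ ∉ 𝔪 := fun h => by
    rw [hmemΨ, map_sub] at h
    have h1 := (hmemΨ _).1 hl1
    rw [map_sub, map_one] at h1
    refine IsLocalRing.notMem_maximalIdeal.2 hdu ?_
    convert sub_mem (sub_mem h1 h) hl2 using 1
    ring
  obtain ⟨u, hu⟩ := hunit _ hdiff
  have hs : SplitData e u l₁ l₂ (t σ₀) (d σ₀) :=
    ⟨hee, by rw [hl₂]; ring, by rw [hl₂]; linear_combination (-1 : Alg (M * p) p S) * hroot,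
      by linear_combination hu⟩
  set aa := -(e * u * l₂) with haa
  set bb := e * u with hbb
  -- the projector in the representation
  set φT := (Matrix.scalar (Fin 2)).comp Ψ with hφT
  have hTT : TraceData φT r t d :=
    traceData_matrix Ψ r t d ht hd (detS_mul _ _ _)
  set Pr := proj φT r σ₀ aa bb with hPr
  have hPP : Pr * Pr = Pr := hTT.projector_mul_self hs
  have hbu : Ψ bb * (Ψ l₁ - Ψ l₂) = 1 := by
    rw [← map_sub, ← map_mul, hbb, hs.inv, hΨe]
  have hPr' : Pr = Ψ bb • (r σ₀ - Ψ l₂ • 1) := by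
    rw [hPr, proj, scalar_mul_eq, ← mul_one (φT aa), scalar_mul_eq, haa, map_neg, map_mul,
      smul_sub, smul_smul, neg_smul, add_comm, ← sub_eq_add_neg]
  have htrP : Pr.trace = 1 := by
    rw [hPr', trace_smul, trace_sub, trace_smul, Matrix.trace_one, ← ht, smul_eq_mul, smul_eq_mul]
    rw [hl₂, map_sub] at hbu ⊢
    push_cast [Fintype.card_fin]
    linear_combination hbu
  set R := (residue T).mapMatrix (m := Fin 2) with hR
  have htrR : ∀ X, (R X).trace = residue T X.trace := fun X => (FlatModel.map_trace' _ X).symm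
  have hPrσ : ∀ σ ∈ A.inertiaSubgroupIn ℚ, R (Pr * r σ) = R Pr := fun σ hσ => by
    rw [← sub_eq_zero, ← map_sub, show Pr * r σ - Pr = Pr * (r σ - 1) by rw [mul_sub, mul_one],
      hPr', Matrix.smul_mul,
      show r σ₀ - Ψ l₂ • (1 : Deformation.M2 T) =
        (r σ₀ - (r σ₀).det • 1) - (Ψ l₂ - (r σ₀).det) • 1 by rw [sub_smul]; abel,
      sub_mul, Matrix.smul_mul, one_mul]
    ext i j
    simp only [hR, RingHom.mapMatrix_apply, Matrix.map_apply, Matrix.zero_apply, Matrix.smul_apply,
      Matrix.sub_apply, smul_eq_mul, residue_eq_zero_iff]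
    exact Ideal.mul_mem_left _ _ (sub_mem (hid σ₀ hσ₀ σ hσ i j) (Ideal.mul_mem_right _ _ hl2))
  -- the projector on the lattice
  set act := actL (M * p) p S
  set g := gal (M * p) p
  have hL : TraceData act.toRingHom g t d :=
    ⟨fun x σ => LinearMap.ext (gal_actL (M * p) p S σ x), fun σ => actL_trS _ _ _ hpS hNS σ,
      detS_mul _ _ _⟩
  set X := proj act.toRingHom g σ₀ aa bb with hX
  set Y := act e - X with hY
  have hXX : X * X = X := hL.projector_mul_self hs
  have heX : act e * X = X := phi_mul_projector (g := g) hs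
  have hcg : ∀ σ x, g σ * act x = act x * g σ := fun σ x => hL.comm x σ
  have hcX : ∀ x, X * act x = act x * X := fun x => hL.proj_comm σ₀ x _ _
  have hY' : Y = proj act.toRingHom g σ₀ (e - aa) (-bb) := by
    rw [hY, hX]
    refine LinearMap.ext fun z => ?_
    simp [proj, Module.End.mul_apply]
    abel
  have hcY : ∀ x, Y * act x = act x * Y := fun x => by rw [hY']; exact hL.proj_comm σ₀ x _ _
  have heY : act e * Y = Y := by rw [hY, mul_sub, heX, ← map_mul, hee]
  have hYY : Y * Y = Y := by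
    rw [hY, sub_mul, mul_sub, mul_sub, hXX, ← map_mul, hee, hcX, heX, sub_self, sub_zero]
  have hsX : ∀ σ, X * g σ * X = act (tp t σ₀ aa bb σ) * X := fun σ =>
    hL.sandwich hXX (by rw [haa, hbb, hs.two_mul_add]; exact heX) σ
  have hsY : ∀ σ, Y * g σ * Y = act (tp t σ₀ (e - aa) (-bb) σ) * Y := fun σ => by
    rw [hY']
    refine hL.sandwich (by rw [← hY', hYY]) ?_ σ
    rw [← hY', show 2 * (e - aa) + -bb * t σ₀ = e by
      have := hs.two_mul_add; rw [← haa, ← hbb] at this; linear_combination -this]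
    exact heY
  set Qr := proj φT r σ₀ (e - aa) (-bb) with hQr
  have hQr' : Qr = 1 - Pr := by
    rw [hQr, hPr]
    simp only [proj, map_sub, map_neg, neg_mul]
    rw [show φT e = 1 by rw [hφT, RingHom.comp_apply, hΨe, map_one]]
    abel
  -- some pair of elements links the two projectors
  obtain ⟨g', h', hlink⟩ := exists_trace_ne_zero (fun g => R (r g)) hspan (P := R Pr) (Q := R Qr)
    (fun h0 => by
      have h1 := htrR Pr
      rw [h0, trace_zero, htrP, map_one] at h1
      exact zero_ne_one h1)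
    (fun h0 => by
      have h1 := htrR Qr
      have h3 : Qr.trace = 1 := by
        rw [hQr', trace_sub, Matrix.trace_one, htrP, Fintype.card_fin]; norm_num
      rw [h0, trace_zero, h3, map_one] at h1
      exact zero_ne_one h1)
  set w₀ := aa * tp t σ₀ (e - aa) (-bb) (h' * g') + bb * tp t σ₀ (e - aa) (-bb) (h' * σ₀ * g')
    with hw₀
  have hw₀m : w₀ ∉ 𝔪 := fun h => hlink (by
    rw [← map_mul, ← map_mul, ← map_mul, htrR, residue_eq_zero_iff,
      show (Qr * r h' * Pr * r g').trace = Ψ w₀ from trace_proj_link Ψ r t ht σ₀ _ _ _ _ _ _]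
    exact (hmemΨ _).1 h)
  obtain ⟨v, hv⟩ := hunit _ hw₀m
  have hlinkL : Y * g h' * X * g g' * Y = act w₀ * Y := by
    rw [hY', hX]
    exact hL.sandwich_link (by rw [← hY']; exact hsY) aa bb h' g'
  have hoff : ∀ σ ∈ A.inertiaSubgroupIn ℚ, ∃ w ∈ 𝔪, ∃ g'' : GG,
      X * g σ * Y = act w * (X * g g'' * Y) := by
    intro σ hσ
    set c := (e - aa) * tp t σ₀ aa bb (σ * h') + -bb * tp t σ₀ aa bb (σ * σ₀ * h')
    have hc : X * g σ * Y * g h' * X = act c * X := by
      rw [hY', hX]
      exact hL.sandwich_link hsX (e - aa) (-bb) σ h'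
    have hcm : c ∈ 𝔪 := by
      rw [hmemΨ, show Ψ c = (Pr * r σ * Qr * r h').trace from
          (trace_proj_link Ψ r t ht σ₀ _ _ _ _ _ _).symm, ← residue_eq_zero_iff, ← htrR, map_mul, map_mul, hPrσ σ hσ,
        ← map_mul, hQr', mul_sub, mul_one, hPP, sub_self, map_zero, zero_mul, trace_zero]
    refine ⟨v * c, Ideal.mul_mem_left _ _ hcm, g', ?_⟩
    rw [hY', hX]
    rw [hY', hX] at hc hlinkL
    exact hL.offDiag (by rw [← hY']; exact heY) hc hlinkL hv
  -- the core
  have hcore : ∀ τ ∈ A.inertiaSubgroupIn ℚ, X * (g τ - 1) = 0 := fun τ hτ =>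
    projector_inertia_eq_zero hpS hNS hA hpM hp3 hsm hσ₀ hs hunit hnil hl1 hζ ha hσζ
      (fun h => IsLocalRing.notMem_maximalIdeal.2 haT (by
        rw [hmemΨ, map_sub, map_natCast, map_one] at h; exact h))
      (fun σ hσ => (hmemΨ _).2 (by
        rw [map_sub, map_one, ← trace_proj_mul Ψ r t ht, ← hφT, ← hPr, ← residue_eq_zero_iff,
          map_sub, ← htrR, hPrσ σ hσ, htrR, htrP, sub_self]))
      hoff hτ
  have hPτ : ∀ τ ∈ A.inertiaSubgroupIn ℚ, Pr * r τ = Pr := by
    intro τ hτ
    rw [← sub_eq_zero]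
    refine Deformation.eq_zero_of_forall_trace_mul fun Z => ?_
    have hZ : Z ∈ Submodule.span T (Set.range r) := Deformation.span_range_eq_top hspan ▸ trivial
    induction hZ using Submodule.span_induction with
    | zero => simp
    | add _ _ _ _ x y => rw [mul_add, trace_add, x, y, add_zero]
    | smul c _ _ x => rw [Matrix.mul_smul, trace_smul, x, smul_zero]
    | mem _ hx =>
      obtain ⟨h, rfl⟩ := hx
      set c := tp t σ₀ aa bb (τ * h) - tp t σ₀ aa bb h
      have hcX0 : act c * X = 0 := by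
        rw [map_sub, sub_mul, ← hsX, ← hsX, map_mul, ← mul_assoc, ← sub_mul, ← sub_mul,
          show X * g τ - X = X * (g τ - 1) by rw [mul_sub, mul_one], hcore τ hτ, zero_mul, zero_mul]
      have hcY0 : act c * Y = 0 := by
        rw [hY']
        rw [hY', hX] at hlinkL
        exact hL.kill_linked (by rw [← hY']; exact heY) (by rw [← hX]; exact hcX0) hlinkL hv
      have hce : c * e = 0 := by
        refine actL_injective (M * p) p S ?_
        rw [map_mul, map_zero, show act e = X + Y by rw [hY, add_sub_cancel], mul_add, hcX0, hcY0,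
          add_zero]
      have := congrArg Ψ hce
      rw [map_mul, hΨe, mul_one, map_zero, map_sub, ← trace_proj_mul Ψ r t ht,
        ← trace_proj_mul Ψ r t ht, ← hφT, ← hPr, map_mul r, ← mul_assoc, ← trace_sub,
        ← sub_mul] at this
      exact this
  -- the roots
  have hl1' : Ψ l₁ = 1 := by
    have h1 := hTT.map_mul_projector hs
    have h3 : r σ₀ * Pr = Pr * r σ₀ := by
      rw [hPr', Matrix.mul_smul, Matrix.smul_mul, mul_sub, sub_mul, Matrix.mul_smul, Matrix.smul_mul,
        mul_one, one_mul]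
    rw [← haa, ← hbb, ← hPr, h3, hPτ σ₀ hσ₀, scalar_mul_eq] at h1
    have h4 := congrArg Matrix.trace h1
    rw [trace_smul, htrP, smul_eq_mul, mul_one] at h4
    exact h4.symm
  have hl2' : Ψ l₂ = (r σ₀).det := by
    have := congrArg Ψ hs.prod
    rwa [map_mul, map_mul, map_mul, hΨe, one_mul, one_mul, hl1', one_mul, hd] at this
  intro τ hτ
  rw [hl1', hl2'] at hbu
  have h5 : r σ₀ - (r σ₀).det • 1 = (1 - (r σ₀).det) • Pr := by
    rw [hPr', smul_smul, hl2', mul_comm, hbu, one_smul]
  rw [h5, Matrix.smul_mul, mul_sub, mul_one, hPτ τ hτ, sub_self, smul_zero]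

end FLTAgent.Ordinary
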