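import Fermat.Agent.Ordinary.Root
import Fermat.Agent.BadRed.Torsion
import Fermat.Agent.Specialization.Torsion

/-!
# Inertia on functions with reductions `p`-th powers

If an automorphism is trivial on both reductions and multiplies the critical scale by `a` modulo
the maximal ideal, then `σ f · f ^ (p - a)` is a `p`-th power: its approximate roots built from
those of `f` at the critical precision are below it.
-/

set_option autoImplicit false
set_option linter.style.haveILetI false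
set_option linter.unusedSectionVars false

noncomputable section

namespace FLTAgent.Ordinary

open AlgebraicCurve FLTAgent.Curves FLTAgent.Specialization FLTAgent.BadRed
open AlgebraicCurve.SemilinearAut (baseAut)

variable {L k : Type*} [Field L] [Field k] {A : ValuationSubring L} {π : A →+* k}
  {FC Fb F : Type*} [Field FC] [Field Fb] [Field F] [Algebra L FC]
  [Algebra k Fb] [Algebra L F] [IsAlgClosed L] [IsFunctionField L FC] [IsFunctionField L F]
  [IsAlgClosed k] [IsFunctionField k Fb] {p : ℕ}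

theorem semilinear_smul_smul {E : Type*} [Field E] [Algebra L E] (σ : SemilinearAut L E) (a : L)
    (f : E) : σ • (a • f) = baseAut σ a • (σ • f) := by
  rw [Algebra.smul_def, smul_mul', SemilinearAut.smul_algebraMap, ← Algebra.smul_def]

/-- A root of a monic equation at the critical scale is integral. -/
theorem mem_of_expansion {E Eb : Type*} [Field E] [Field Eb] [Algebra L E] [Algebra k Eb]
    {R : Reduction π E Eb} (hT : R.Total) [hp : Fact p.Prime] (c : CritScale π p) {T Y : E}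
    {Yb : Eb} (hY : R.Res Y Yb)
    (h : (1 + (c.s : L) • T) ^ p = 1 + ((c.s : L) ^ p) • Y) : T ∈ R.O := by
  classical
  rcases hT T with hm | hm
  · exact hm
  rcases eq_or_ne T 0 with rfl | hT0
  · exact zero_mem _
  exfalso
  have hp1 : 1 < p := hp.out.one_lt
  have hsp : (c.s : L) ^ p ≠ 0 := pow_ne_zero _ c.s_ne
  let a : ℕ → A := fun i => ((p.choose i / p : ℕ) : A) * c.ε * c.s ^ (i - 1)
  have hcoef : ∀ i ∈ Finset.Ico 1 p,
      ((c.s : L) ^ p)⁻¹ * ((c.s : L) ^ i * (p.choose i : L)) = (a i : L) := by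
    intro i hi
    rw [Finset.mem_Ico] at hi
    obtain ⟨l, hl⟩ := hp.out.dvd_choose_self (k := i) (by omega) hi.2
    simp only [a, hl, Nat.mul_div_cancel_left _ (show 0 < p by omega)]
    push_cast
    rw [c.eq]
    obtain ⟨j, rfl⟩ : ∃ j, i = j + 1 := ⟨i - 1, by omega⟩
    obtain ⟨r, hr⟩ : ∃ r, p = r + 1 := ⟨p - 1, by omega⟩
    have := c.s_ne
    simp only [hr, add_tsub_cancel_right, pow_succ]
    field_simp
  have hsum : Y = T ^ p + ∑ i ∈ Finset.Ico 1 p, (a i : L) • T ^ i := by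
    have h2 : Y = ((c.s : L) ^ p)⁻¹ • ((1 + (c.s : L) • T) ^ p - 1) := by
      rw [h, add_sub_cancel_left, smul_smul, inv_mul_cancel₀ hsp, one_smul]
    rw [h2, add_comm (1 : E), add_pow, Finset.sum_range_succ, Finset.range_eq_Ico,
      Finset.sum_eq_sum_Ico_succ_bot (show 0 < p by omega)]
    simp only [one_pow, mul_one, pow_zero, Nat.choose_zero_right, Nat.choose_self, Nat.cast_one,
      zero_add]
    rw [show ∀ a b : E, 1 + a + b - 1 = b + a from fun a b => by ring, smul_add, Finset.smul_sum,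
      _root_.smul_pow, smul_smul, inv_mul_cancel₀ hsp, one_smul]
    congr 1
    refine Finset.sum_congr rfl fun i hi => ?_
    rw [← hcoef i hi, _root_.smul_pow, mul_comm ((c.s : L) ^ i • T ^ i),
      ← map_natCast (algebraMap L E), ← Algebra.smul_def, smul_smul, smul_smul]
    congr 1
    ring
  have ha : ∀ i ∈ Finset.Ico 1 p, R.Res ((a i : L) • T ^ i * T⁻¹ ^ p) 0 := fun i hi => by
    have hlt := (Finset.mem_Ico.1 hi).2
    have h1 := (hm.pow (p - i)).smul (a i)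
    rw [zero_pow (by omega), smul_zero] at h1
    convert h1 using 1
    rw [smul_mul_assoc, inv_pow, inv_pow, pow_sub₀ T hT0 hlt.le, mul_inv, inv_inv, mul_comm]
  have hh : R.Res (Y * T⁻¹ ^ p) 1 := by
    rw [hsum, add_mul, ← mul_pow, mul_inv_cancel₀ hT0, one_pow, Finset.sum_mul]
    have := R.res_one.add (Reduction.Res.sum ha)
    rwa [Finset.sum_const_zero, add_zero] at this
  have h4 := hY.mul (hm.pow p)
  rw [zero_pow (show p ≠ 0 by omega), mul_zero] at h4
  exact one_ne_zero (hh.unique h4)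

/-- Two constants reducing to zero are divisible by one. -/
theorem exists_common {t t' : A} (ht : π t = 0) (ht' : π t' = 0) (h : (t : L) ≠ 0) :
    ∃ t₀ : A, π t₀ = 0 ∧ (t₀ : L) ≠ 0 ∧ ∃ a b : A, t = t₀ * a ∧ t' = t₀ * b := by
  by_cases h' : (t' : L) = 0
  · exact ⟨t, ht, h, 1, 0, (mul_one _).symm, Subtype.ext (by simp [h'])⟩
  rcases A.mem_or_inv_mem ((t' : L) / t) with hA | hA
  · exact ⟨t, ht, h, 1, ⟨_, hA⟩, (mul_one _).symm, Subtype.ext (by push_cast; field_simp)⟩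
  · rw [inv_div] at hA
    exact ⟨t', ht', h', ⟨_, hA⟩, 1, Subtype.ext (by push_cast; field_simp), (mul_one _).symm⟩

namespace RootData

variable {S : Sheet π FC Fb F p} [Fact p.Prime] [CharP k p] (z : RootData S)

/-- The data of `σ f · f ^ b`. -/
def twistData (P : S.Sym) (hb : P.σb = RingHom.id Fb) (b : ℕ) : RootData S where
  f := (P.σ • z.f) * z.f ^ b
  f_ne := mul_ne_zero ((smul_ne_zero_iff_ne P.σ).2 z.f_ne) (pow_ne_zero _ z.f_ne)
  dvd v := by
    rw [v.ord_mul ((smul_ne_zero_iff_ne P.σ).2 z.f_ne) (pow_ne_zero _ z.f_ne), ord_pow,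
      ord_smul']
    exact dvd_add (z.dvd _) (dvd_mul_of_dvd_right (z.dvd v) _)
  d := baseAut P.σ z.d * z.d ^ b
  d_ne := mul_ne_zero ((map_ne_zero _).2 z.d_ne) (pow_ne_zero _ z.d_ne)
  g := z.g ^ (b + 1)
  g₁_ne := by simp [z.g₁_ne]
  g₂_ne := by simp [z.g₂_ne]
  res := by
    have h1 := P.pair_smul z.res
    simp only [hb, RingHom.id_apply] at h1
    have h2 := S.pair_mul h1 (S.pair_pow z.res b)
    convert h2 using 1
    · rw [map_pow, map_inv₀, mul_inv, mul_pow, ← inv_pow z.d b, ← pow_mul, ← pow_mul,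
        mul_comm b p]
    · rw [show ((z.g ^ p).1, (z.g ^ p).2) = z.g ^ p from rfl, ← pow_succ', ← pow_mul, ← pow_mul,
        mul_comm]

/-- **Inertia multiplies `f` by `a` up to `p`-th powers.** -/
theorem exists_twist_root (hS : S.Good) (N : S.Nodes) (hV : ∀ x : Fb, ∃ y, S.V y = x ^ p)
    (hβdeg : finrankAlong L S.β = p + 1) (c : CritScale π p) {aα aβ : L} {Gα Gβ : FC}
    (eα : @Algebra.norm FC F _ _ (algebraAlong S.α) z.f = aα • Gα ^ p)
    (eβ : @Algebra.norm FC F _ _ (algebraAlong S.β) z.f = aβ • Gβ ^ p)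
    (P : S.Sym) (hb : P.σb = RingHom.id Fb) {a : ℕ} (ha : a < p) {e : A}
    (hse : baseAut P.σ (c.s : L) = c.s * e) (he : π e = (a : k)) :
    ∃ r : F, r ^ p = P.σ • z.f * z.f ^ (p - a) := by
  classical
  obtain ⟨b', hb'⟩ : ∃ b', p - a = b' + 1 := ⟨p - a - 1, by omega⟩
  set b := b' + 1 with hbdef
  rw [hb']
  have hπ := S.MC.surj
  have hp : 0 < p := pos_of_sheet S
  have hab : (π e) ^ p + (b : k) = 0 := by
    rw [he, ← frobenius_def, map_natCast, ← Nat.cast_add, show a + b = p by omega,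
      CharP.cast_eq_zero]
  set m := N.m₀
  set θ : Fb × Fb := (S.MC.xb, S.MC.xb ^ p) ^ m with hθdef
  have hθ : (S.pair 1).Res (S.X ^ m) θ := by
    have := S.pair_pow S.pair_X m
    rwa [one_pow] at this
  have hθ1 : θ.1 ≠ 0 := by simp [θ, S.xb_ne_zero]
  have hθ2 : θ.2 ≠ 0 := by simp [θ, S.xb_ne_zero]
  have h1m : (1 : F) ∈ riemannRochSpace ((m : ℤ) • poleDiv L S.X) := one_mem_rrSpace fun v => by
    simpa using mul_nonneg (Int.natCast_nonneg m) (poleDiv_nonneg (K := L) S.X v)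
  have hXm := Sheet.pow_X_mem (S := S) m
  obtain ⟨u₁, hu₁, w₁, r₁, g₁, y₁, ⟨yb₁, hy₁⟩, hey₁⟩ :=
    z.exists_critical hS N hV hβdeg c eα eβ le_rfl h1m S.pair_one (by simp) (by simp)
  obtain ⟨u₂, hu₂, w₂, r₂, g₂, y₂, ⟨yb₂, hy₂⟩, hey₂⟩ :=
    z.exists_critical hS N hV hβdeg c eα eβ le_rfl hXm hθ hθ1 hθ2
  rw [one_pow] at hey₁
  set z' := z.twistData P hb b
  set m' := (b + 1) * m
  -- a lift of the scale below the critical one
  have hσb : ∀ g : Fb × Fb, (P.σb g.1, P.σb g.2) = g := fun g => by rw [hb]; rfl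
  have hσ1 : ∀ {y : F} {yb : Fb × Fb}, (S.pair 1).Res y yb → (S.pair 1).Res (P.σ • y) yb := by
    intro y yb h
    have := P.pair_smul h
    rwa [map_one, hσb] at this
  have hlift : ∀ {u h y : F} {w θ yb : Fb × Fb}, u ∈ z.space m → (S.pair z.d).Res u w →
      w * z.g = θ → h ∈ riemannRochSpace ((m : ℤ) • poleDiv L S.X) → (S.pair 1).Res h θ →
      P.σ • h = h → (S.pair 1).Res y yb → u ^ p * z.f - h ^ p = ((c.s : L) ^ p) • y →
      P.σ • u * u ^ b ∈ z'.space m' ∧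
      (S.pair z'.d).Res (P.σ • u * u ^ b) (w ^ (b + 1)) ∧ w ^ (b + 1) * z'.g = θ ^ (b + 1) ∧
      ∃ E, (S.pair 1).Res E 0 ∧
        (P.σ • u * u ^ b) ^ p * z'.f - (h ^ (b + 1)) ^ p = ((c.s : L) ^ p) • E := by
    intro u h y w θ yb hu hr hg hh hθ hσh hy hey
    set B := u ^ p * z.f with hBdef
    have hU : (P.σ • u * u ^ b) ^ p * z'.f = P.σ • B * B ^ b := by
      simp only [z', twistData, B, smul_mul', smul_pow', mul_pow, ← pow_mul]
      ring
    refine ⟨?_, ?_, ?_, ?_⟩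
    · refine mem_space_of_pow _ ?_
      rw [hU]
      have h1 := mem_rrSpace_mul (P.poles_smul (z.npow_mem hu)) (pow_mem_poles (z.npow_mem hu) b)
      rw [← add_smul] at h1
      convert h1 using 4
      simp only [m']
      push_cast; ring
    · have h1 := S.pair_mul (P.pair_smul hr) (S.pair_pow hr b)
      rw [hσb, ← pow_succ'] at h1
      exact h1
    · rw [show z'.g = z.g ^ (b + 1) from rfl, ← mul_pow, hg]
    · have hB : B = h ^ p + ((c.s : L) ^ p) • y := by rw [← hey]; ring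
      have hσB : P.σ • B = h ^ p + ((c.s : L) ^ p) • ((e : L) ^ p • (P.σ • y)) := by
        rw [hB, smul_add, smul_pow', hσh, semilinear_smul_smul, map_pow, hse, mul_pow, mul_smul]
      have hH : h ^ p ∈ S.intRing :=
        S.integral_iff_mem.1 ⟨_, by simpa using S.pair_pow hθ p⟩
      have hyI : ((c.s : L) ^ p) • y ∈ S.intRing := by
        simpa using smul_mem_intRing (c.s ^ p) (S.integral_iff_mem.1 ⟨_, hy⟩)
      obtain ⟨Z, hZ⟩ := exists_pow_add (⟨_, hH⟩ : S.intRing) ⟨_, hyI⟩ b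
      have hZ' := congrArg (Subring.subtype S.intRing) hZ
      simp only [map_add, map_pow, map_mul, map_natCast, Subring.coe_subtype] at hZ'
      obtain ⟨Zb, hZb⟩ := S.integral_iff_mem.2 Z.2
      set σy := (e : L) ^ p • (P.σ • y)
      have hσy : (S.pair 1).Res σy (π e ^ p • yb) := by
        simpa [σy] using (S.pair 1).res_smul (e ^ p) (hσ1 hy)
      refine ⟨(h ^ p) ^ b * σy + (b : F) * (h ^ p) ^ b * y +
        ((c.s : L) ^ p) • (σy * ((b : F) * (h ^ p) ^ b') * y + (Z : F) * y * y * h ^ p +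
          ((c.s : L) ^ p) • ((Z : F) * y * y * σy)), ?_, ?_⟩
      · have hpow : ∀ j : ℕ, (S.pair 1).Res ((h ^ p) ^ j) ((θ ^ p) ^ j) := fun j => by
          simpa using S.pair_pow (S.pair_pow hθ p) j
        have hnat : ∀ {v : F} {vb : Fb × Fb}, (S.pair 1).Res v vb →
            (S.pair 1).Res ((b : F) * v) ((b : k) • vb) := by
          intro v vb hv
          have := (S.pair 1).res_smul (b : A) hv
          simpa [Algebra.smul_def] using this
        have hm : ∀ {x x' : F} {g g' : Fb × Fb}, (S.pair 1).Res x g → (S.pair 1).Res x' g' →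
            (S.pair 1).Res (x * x') (g * g') := fun hx hx' => by
          simpa using S.pair_mul hx hx'
        have h3 := (S.pair 1).res_add
          ((S.pair 1).res_add (hm (hpow b) hσy) (hm (hnat (hpow b)) hy))
          ((S.pair 1).res_smul (c.s ^ p) ((S.pair 1).res_add
            ((S.pair 1).res_add (hm (hm hσy (hnat (hpow b'))) hy)
              (hm (hm (hm hZb hy) hy) (by simpa using hpow 1)))
            ((S.pair 1).res_smul (c.s ^ p) (hm (hm (hm hZb hy) hy) hσy))))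
        simp only [map_pow, c.s_res, zero_pow hp.ne', zero_smul, add_zero, mul_smul_comm,
          smul_mul_assoc] at h3
        rw [← add_smul, hab, zero_smul] at h3
        simpa [mul_assoc] using h3
      · rw [hU, hσB, hB, hZ', ← pow_mul h (b + 1), mul_comm (b + 1) p, pow_mul h p (b + 1),
          show b - 1 = b' from rfl, hbdef]
        simp only [Algebra.smul_def, map_pow, pow_succ]
        ring
  obtain ⟨hU₁, hR₁, hG₁, E₁, hE₁, hEe₁⟩ := hlift hu₁ r₁ g₁ h1m S.pair_one (smul_one _) hy₁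
    (by rwa [one_pow])
  obtain ⟨hU₂, hR₂, hG₂, E₂, hE₂, hEe₂⟩ := hlift hu₂ r₂ g₂ hXm hθ
    (by rw [smul_pow', P.σX]) hy₂ hey₂
  -- agreement
  have hw2 : w₂.1 ≠ 0 ∧ w₂.2 ≠ 0 := by
    rw [← g₂] at hθ1 hθ2
    exact ⟨left_ne_zero_of_mul hθ1, left_ne_zero_of_mul hθ2⟩
  have hu2 : u₂ ≠ 0 := r₂.1.ne_zero hw2.1
  set T := (c.s : L)⁻¹ • (u₁ * S.X ^ m * u₂⁻¹ - 1) with hTdef
  have hr : u₁ * S.X ^ m = u₂ * (1 + (c.s : L) • T) := by
    rw [hTdef, smul_smul, mul_inv_cancel₀ c.s_ne, one_smul, add_sub_cancel, mul_left_comm,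
      mul_inv_cancel₀ hu2, mul_one]
  set B := u₂ ^ p * z.f
  have hB : (S.pair 1).Res B (θ ^ p) := g₂ ▸ z.res_pow r₂
  have hBinv : (S.pair 1).Res B⁻¹ ((θ.1 ^ p)⁻¹, (θ.2 ^ p)⁻¹) := ⟨hB.1.inv (pow_ne_zero _ hθ1), by
    have h2 := hB.2
    rw [one_smul] at h2 ⊢
    exact h2.inv (pow_ne_zero _ hθ2)⟩
  set Y := ((S.X ^ m) ^ p * y₁ - y₂) * B⁻¹
  have hY : (S.pair 1).Res Y ((θ ^ p * yb₁ - yb₂) * ((θ.1 ^ p)⁻¹, (θ.2 ^ p)⁻¹)) := by
    have h1 : (S.pair 1).Res ((S.X ^ m) ^ p * y₁) (θ ^ p * yb₁) := by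
      simpa using S.pair_mul (S.pair_pow hθ p) hy₁
    simpa using S.pair_mul (LRed.res_sub h1 hy₂) hBinv
  have hexp : (1 + (c.s : L) • T) ^ p = 1 + ((c.s : L) ^ p) • Y := by
    have hB0 : B ≠ 0 := hB.1.ne_zero (pow_ne_zero _ hθ1)
    have h1 : (u₁ * S.X ^ m) ^ p * z.f - B = ((c.s : L) ^ p) • ((S.X ^ m) ^ p * y₁ - y₂) := by
      rw [smul_sub, ← mul_smul_comm, ← hey₁, ← hey₂, mul_pow]
      ring
    simp only [Y, ← smul_mul_assoc _ _ B⁻¹, ← h1]
    rw [hr, mul_pow, mul_right_comm (u₂ ^ p), show u₂ ^ p * z.f = B from rfl, sub_mul,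
      mul_inv_cancel₀ hB0, mul_comm B, mul_assoc, mul_inv_cancel₀ hB0, mul_one]
    ring
  obtain ⟨hT₁, hT₂⟩ : T ∈ S.R₁.O ∧ T ∈ S.R₂.O :=
    ⟨mem_of_expansion (S.scaled₁.total hπ) c hY.1 hexp,
      mem_of_expansion (S.scaled₂.total hπ) c (by have := hY.2; rwa [one_smul] at this) hexp⟩
  obtain ⟨Tb, hT⟩ := S.integral_iff_mem.2 (⟨hT₁, hT₂⟩ : T ∈ S.intRing)
  obtain ⟨Z, hZ⟩ := exists_pow_add (1 : S.intRing) ⟨(c.s : L) • T,
    smul_mem_intRing c.s ⟨hT₁, hT₂⟩⟩ b
  have hZ' := congrArg (Subring.subtype S.intRing) hZ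
  simp only [map_add, map_pow, map_mul, map_one, map_natCast, Subring.coe_subtype, one_pow,
    mul_one] at hZ'
  obtain ⟨Zb, hZb⟩ := S.integral_iff_mem.2 Z.2
  set σT := (e : L) • (P.σ • T)
  set T' := σT + (b : F) * T + (c.s : L) • (σT * ((b : F) * T) + (Z : F) * T * T +
    (c.s : L) • ((Z : F) * T * T * σT))
  have hσT : (S.pair 1).Res σT (π e • Tb) := (S.pair 1).res_smul e (hσ1 hT)
  have hT' : (S.pair 1).Res T' 0 := by
    have hnat : (S.pair 1).Res ((b : F) * T) ((b : k) • Tb) := by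
      have := (S.pair 1).res_smul (b : A) hT
      simpa [Algebra.smul_def] using this
    have hm : ∀ {x x' : F} {g g' : Fb × Fb}, (S.pair 1).Res x g → (S.pair 1).Res x' g' →
        (S.pair 1).Res (x * x') (g * g') := fun hx hx' => by
      simpa using S.pair_mul hx hx'
    have h3 := (S.pair 1).res_add ((S.pair 1).res_add hσT hnat) ((S.pair 1).res_smul c.s
      ((S.pair 1).res_add ((S.pair 1).res_add (hm hσT hnat) (hm (hm hZb hT) hT))
        ((S.pair 1).res_smul c.s (hm (hm (hm hZb hT) hT) hσT))))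
    rw [c.s_res, zero_smul, add_zero, ← add_smul, show π e + (b : k) = 0 by
      rw [he, ← Nat.cast_add, show a + b = p by omega, CharP.cast_eq_zero], zero_smul] at h3
    exact h3
  have hag : (P.σ • u₁ * u₁ ^ b) * S.X ^ m' - P.σ • u₂ * u₂ ^ b =
      (c.s : L) • (P.σ • u₂ * u₂ ^ b * T') := by
    have hσr : P.σ • u₁ * S.X ^ m = P.σ • u₂ * (1 + (c.s : L) • σT) := by
      have h1 := congrArg (fun x => P.σ • x) hr
      simp only [smul_mul', smul_add, smul_one, smul_pow', P.σX, semilinear_smul_smul, hse,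
        mul_smul] at h1
      exact h1
    rw [show S.X ^ m' = S.X ^ m * (S.X ^ m) ^ b by rw [← pow_succ', ← pow_mul]; congr 1; ring,
      show P.σ • u₁ * u₁ ^ b * (S.X ^ m * (S.X ^ m) ^ b) =
        (P.σ • u₁ * S.X ^ m) * (u₁ * S.X ^ m) ^ b by ring, hσr, hr, mul_pow, hZ']
    simp only [T', Algebra.smul_def]
    ring
  have hUres : (S.pair z'.d).Res (P.σ • u₂ * u₂ ^ b * T') 0 := by
    have := S.pair_mul hR₂ hT'
    rwa [mul_one, mul_zero] at this
  -- a common scale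
  obtain ⟨s₀, hs₀, hs₀'⟩ := S.exists_nonunit
  obtain ⟨t₁, ht₁, ht₁', hE₁'⟩ := LRed.exists_small S.orth_one hπ hE₁ hs₀ hs₀'
  obtain ⟨t₂, ht₂, ht₂', hE₂'⟩ := LRed.exists_small S.orth_one hπ hE₂ hs₀ hs₀'
  obtain ⟨t₃, ht₃, ht₃', hA'⟩ := LRed.exists_small (S.orth z'.d_ne) hπ hUres hs₀ hs₀'
  obtain ⟨t₄, ht₄, ht₄', a₁, a₂, ha₁, ha₂⟩ := exists_common ht₁ ht₂ ht₁'
  obtain ⟨t₀, ht₀, ht₀', a₃, a₄, ha₃, ha₄⟩ := exists_common ht₄ ht₃ ht₄'
  have hscale : ∀ (R : LRed π F (Fb × Fb)) (q : L) {t : A} (α : A) {x : F}, t = t₀ * α →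
      R.Small (t : L) x → R.Small (q * t₀) (q • x) := by
    intro R q t α x hα h
    obtain ⟨y, ⟨g, hg⟩, rfl⟩ := LRed.Small.mono α.2 (congrArg (fun s : A => (s : L)) hα) h
    exact ⟨y, ⟨g, hg⟩, by rw [smul_smul]⟩
  have hm' : N.m₀ ≤ m' := Nat.le_mul_of_pos_left _ (by omega)
  rw [← pow_mul S.X m (b + 1), mul_comm m] at hEe₂
  rw [one_pow, one_pow] at hEe₁
  refine z'.exists_root c hS N hm' hU₁ hU₂ hR₁ (hG₁.trans (one_pow _)) hR₂ ?_ ht₀ ht₀' ?_ ?_ ?_
  · rw [hG₂, hθdef, ← pow_mul, mul_comm]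
  · rw [hEe₁]
    exact hscale _ _ (a₃ * a₁) (by rw [ha₁, ha₃, mul_assoc]) hE₁'
  · rw [hEe₂]
    exact hscale _ _ (a₃ * a₂) (by rw [ha₂, ha₃, mul_assoc]) hE₂'
  · rw [hag]
    exact hscale _ _ a₄ ha₄ hA'

end RootData

end FLTAgent.Ordinary
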